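import Fermat.Agent.GD.Engine.Unipotent

/-!
# Multiplicativity of the Euler defect
-/

set_option autoImplicit false

noncomputable section

namespace Fermat.Agent.GD

universe u v w

variable {L : LevelGroup.{u}} {C : Type w} [AddCommGroup C] [DistribMulAction L.G C] {p : ℕ}
  (D : PreClassModule L C p)

/-- The classes of cocycles. -/
def clsH1 (L : LevelGroup.{u}) (M : Type v) [AddCommGroup M] [DistribMulAction L.G M] :
    L.Z1 M →+ L.H1 M :=
  QuotientAddGroup.mk' _

/-- The classes of extensions. -/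
def clsExt (L : LevelGroup.{u}) (M : Type v) [AddCommGroup M] [DistribMulAction L.G M] (C : Type w)
    [AddCommGroup C] [DistribMulAction L.G C] : L.SymZ M C →+ L.Ext1 M C :=
  QuotientAddGroup.mk' _

theorem clsH1_eq_zero {M : Type v} [AddCommGroup M] [DistribMulAction L.G M] {x : L.Z1 M} :
    clsH1 L M x = 0 ↔ x.1 ∈ L.B1 M := QuotientAddGroup.eq_zero_iff x

theorem clsExt_eq_zero {M : Type v} [AddCommGroup M] [DistribMulAction L.G M] {κ : L.SymZ M C} :
    clsExt L M C κ = 0 ↔ κ.1 ∈ L.SymB M C := QuotientAddGroup.eq_zero_iff κ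

theorem LevelGroup.nsmul_h1 {M : Type v} [AddCommGroup M] [DistribMulAction L.G M]
    (hp : ∀ m : M, p • m = 0) (x : L.H1 M) : p • x = 0 := by
  obtain ⟨x, rfl⟩ := QuotientAddGroup.mk'_surjective _ x
  rw [← map_nsmul, show p • x = 0 from Subtype.ext (funext fun g => hp _), map_zero]

theorem LevelGroup.nsmul_ext1 {M : Type v} [AddCommGroup M] [DistribMulAction L.G M]
    (hp : ∀ m : M, p • m = 0) (κ : L.Ext1 M C) : p • κ = 0 := by
  obtain ⟨κ, rfl⟩ := QuotientAddGroup.mk'_surjective _ κ
  rw [← map_nsmul]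
  exact clsExt_eq_zero.mpr (nsmul_mem_symB hp κ.2)

theorem PreClassModule.Duality.left_iff {M : Type v} [AddCommGroup M] [DistribMulAction L.G M]
    [Finite M] {hM : L.Smooth M} (d : D.Duality L M hM) (x : L.Z1 M) :
    x.1 ∈ L.B1 M ↔ ∀ κ, D.pairHom hM x κ = 0 :=
  ⟨fun h κ => D.pairHom_coboundary hM x h κ, d.left x⟩

theorem PreClassModule.Duality.right_iff {M : Type v} [AddCommGroup M] [DistribMulAction L.G M]
    [Finite M] {hM : L.Smooth M} (d : D.Duality L M hM) (κ : L.SymZ M C) :
    κ.1 ∈ L.SymB M C ↔ ∀ x, D.pairHom hM x κ = 0 :=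
  ⟨fun h x => D.pairHom_symB hM x κ h, d.right κ⟩

variable {A B M : Type v} [AddCommGroup A] [AddCommGroup B] [AddCommGroup M]
  [DistribMulAction L.G A] [DistribMulAction L.G B] [DistribMulAction L.G M]
  {i : A →+ B} {π : B →+ M}

/-- The fixed points as a subgroup. -/
def fixedSub (L : LevelGroup.{u}) (M : Type v) [AddCommGroup M] [DistribMulAction L.G M] :
    AddSubgroup M where
  carrier := L.fixed M
  zero_mem' := fun g => smul_zero g
  add_mem' := fun ha hb g => by rw [smul_add, ha g, hb g]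
  neg_mem' := fun ha g => by rw [smul_neg, ha g]

theorem card_range_mk {X Y : Type*} [AddCommGroup X] [AddCommGroup Y] {S : AddSubgroup X}
    (f : X ⧸ S →+ Y) : f.range = (f.comp (QuotientAddGroup.mk' S)).range :=
  (AddMonoidHom.range_eq_map f).trans
    (by rw [AddMonoidHom.range_comp, AddMonoidHom.range_eq_top.mpr
      (QuotientAddGroup.mk'_surjective S)])

/-- The left part of the long exact sequence, as an identity of orders. -/
theorem IsShort.card_h1 (h : IsShort L i π) (hB : L.Smooth B) [Finite A] [Finite B] [Finite M]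
    [Finite (L.H1 A)] [Finite (L.H1 B)] :
    Nat.card (L.H1 B) * (Nat.card (L.fixed A) * Nat.card (L.fixed M)) =
      Nat.card (L.H1 A) * Nat.card (L.fixed B) *
        Nat.card ((clsH1 L M).comp (mapZ1 π h.π_smul)).range := by
  let W : AddSubgroup B := (fixedSub L M).comap π
  have hW : ∀ (b : W) (g : L.G), ∃ a, i a = g • b.1 - b.1 := fun b g => h.mem_range (by
    rw [map_sub, h.π_smul, b.2 g, sub_self])
  choose d hd using hW
  have hd1 : ∀ b, d b ∈ L.Z1 A := fun b => by
    obtain ⟨N, hN, hfix⟩ := hB b.1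
    refine ⟨⟨N, hN, fun g s hs => h.inj (by rw [hd, hd, mul_smul, hfix s hs])⟩,
      fun g g' => h.inj ?_⟩
    rw [map_add, h.i_smul, hd, hd, hd, mul_smul, smul_sub]
    abel
  let ψ : W →+ L.H1 A := AddMonoidHom.mk' (fun b => clsH1 L A ⟨d b, hd1 b⟩) fun b b' => by
    rw [← map_add]
    refine congrArg _ (Subtype.ext (funext fun g => h.inj ?_))
    show i (d (b + b') g) = i (d b g + d b' g)
    rw [map_add, hd, hd, hd, AddSubgroup.coe_add, smul_add]
    abel
  let iH : L.H1 A →+ L.H1 B := QuotientAddGroup.map _ _ (mapZ1 i h.i_smul) fun x hx =>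
    mapZ1_mem_B1 i h.i_smul hx
  let πH : L.H1 B →+ L.H1 M := QuotientAddGroup.map _ _ (mapZ1 π h.π_smul) fun x hx =>
    mapZ1_mem_B1 π h.π_smul hx
  have hiker : ψ.range = iH.ker := by
    ext z
    obtain ⟨x, rfl⟩ := QuotientAddGroup.mk_surjective z
    refine ⟨?_, fun hz => ?_⟩
    · rintro ⟨b, hb⟩
      rw [← hb]
      exact clsH1_eq_zero.mpr ⟨b.1, funext fun g => (hd b g).symm⟩
    · obtain ⟨b, hb⟩ := clsH1_eq_zero.mp hz
      have hb' : ∀ g, i (x.1 g) = g • b - b := fun g => (congrFun hb g).symm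
      refine ⟨⟨b, fun g => ?_⟩, congrArg (clsH1 L A) (Subtype.ext (funext fun g => h.inj ?_))⟩
      · rw [← h.π_smul, ← sub_eq_zero, ← map_sub, ← hb', h.exact.apply_apply_eq_zero]
      · exact (hd _ g).trans (hb' g).symm
  have hexact : iH.range = πH.ker := by
    ext z
    obtain ⟨x, rfl⟩ := QuotientAddGroup.mk_surjective z
    refine ⟨?_, fun hz => ?_⟩
    · rintro ⟨w, hw⟩
      obtain ⟨a, rfl⟩ := QuotientAddGroup.mk_surjective w
      rw [← hw]
      refine clsH1_eq_zero.mpr ?_
      convert zero_mem (L.B1 M) using 1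
      exact funext fun g => h.exact.apply_apply_eq_zero _
    · obtain ⟨m, hm⟩ := clsH1_eq_zero.mp hz
      obtain ⟨b, rfl⟩ := h.surj m
      have hx0 : ∀ g, π (x.1 g - (g • b - b)) = 0 := fun g => by
        have : g • π b - π b = π (x.1 g) := congrFun hm g
        rw [map_sub, map_sub, h.π_smul, this, sub_self]
      choose a ha using fun g => h.mem_range (hx0 g)
      obtain ⟨N, hN, hxN⟩ := x.2.1
      obtain ⟨N', hN', hfix⟩ := hB b
      have ha1 : a ∈ L.Z1 A := by
        refine ⟨⟨N ⊓ N', L.inf N N' hN hN', fun g s hs => h.inj ?_⟩, fun g g' => h.inj ?_⟩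
        · rw [ha, ha, hxN g s hs.1, mul_smul, hfix s hs.2]
        · rw [map_add, h.i_smul, ha, ha, ha, x.2.2, mul_smul, smul_sub, smul_sub]
          abel
      refine ⟨QuotientAddGroup.mk ⟨a, ha1⟩, QuotientAddGroup.eq_iff_sub_mem.mpr
        ⟨-b, funext fun g => ?_⟩⟩
      show g • -b - -b = i (a g) - x.1 g
      rw [ha, smul_neg]
      abel
  let πW : W →+ fixedSub L M := (π.comp W.subtype).codRestrict _ fun b => b.2
  have h1 : Nat.card πW.ker * Nat.card πW.range = Nat.card W := card_ker_mul_range _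
  have hsW : Function.Surjective πW := fun m => by
    obtain ⟨b, hb⟩ := h.surj m.1
    exact ⟨⟨b, by show π b ∈ fixedSub L M; rw [hb]; exact m.2⟩, Subtype.ext hb⟩
  rw [AddMonoidHom.range_eq_top.mpr hsW, AddSubgroup.card_top] at h1
  have hπW : Nat.card πW.ker = Nat.card A := by
    refine (Nat.card_congr (Equiv.ofBijective (fun a => (⟨⟨i a, ?_⟩,
      Subtype.ext (h.exact.apply_apply_eq_zero a)⟩ : πW.ker)) ⟨fun a a' ha =>
        h.inj (congrArg (fun t : πW.ker => t.1.1) ha), fun b => ?_⟩)).symm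
    · show π (i a) ∈ fixedSub L M
      rw [h.exact.apply_apply_eq_zero]
      exact zero_mem _
    · obtain ⟨a, ha⟩ := h.mem_range (b := b.1.1) (congrArg Subtype.val b.2)
      exact ⟨a, Subtype.ext (Subtype.ext ha)⟩
  let σ : fixedSub L B × A →+ B := (fixedSub L B).subtype.coprod i
  have h2 : Nat.card σ.ker * Nat.card σ.range = Nat.card (fixedSub L B × A) :=
    card_ker_mul_range _
  have hσker : Nat.card σ.ker = Nat.card (fixedSub L A) := by
    refine (Nat.card_congr (Equiv.ofBijective (fun a => (⟨(⟨i (-a.1), fun g => by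
      rw [← h.i_smul, smul_neg, a.2 g]⟩, a.1), ?_⟩ : σ.ker)) ⟨fun a a' ha =>
        Subtype.ext (congrArg (fun t : σ.ker => t.1.2) ha), fun e => ?_⟩)).symm
    · show i (-a.1) + i a.1 = 0
      rw [← map_add, neg_add_cancel, map_zero]
    · obtain ⟨⟨⟨b, hb⟩, a⟩, he⟩ := e
      have he' : b + i a = 0 := he
      have hb' : b = i (-a) := by rw [map_neg]; exact eq_neg_of_add_eq_zero_left he'
      refine ⟨⟨a, fun g => h.inj ?_⟩, Subtype.ext (Prod.ext (Subtype.ext hb'.symm) rfl)⟩
      have h3 := hb g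
      rw [hb', ← h.i_smul, smul_neg, map_neg, map_neg, neg_inj] at h3
      exact h3
  have hψker : Nat.card ψ.ker = Nat.card σ.range := by
    refine Nat.card_congr (Equiv.ofBijective (fun b => (⟨b.1.1, ?_⟩ : σ.range))
      ⟨fun b b' hb => Subtype.ext (Subtype.ext (congrArg (fun t : σ.range => t.1) hb)),
        fun b => ?_⟩)
    · obtain ⟨a, ha⟩ := clsH1_eq_zero.mp b.2
      refine ⟨(⟨b.1.1 - i a, fun g => ?_⟩, a), sub_add_cancel _ _⟩
      have h3 : g • a - a = d b.1 g := congrFun ha g
      have h4 := congrArg i h3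
      rw [hd, map_sub, h.i_smul] at h4
      rw [smul_sub]
      linear_combination (norm := abel) -h4
    · obtain ⟨b', ⟨⟨c, hc⟩, a⟩, rfl⟩ := b
      refine ⟨⟨⟨c + i a, fun g => ?_⟩, clsH1_eq_zero.mpr ⟨a, funext fun g => h.inj ?_⟩⟩, rfl⟩
      · show g • π (c + i a) = π (c + i a)
        rw [← h.π_smul, smul_add, hc g, ← h.i_smul, map_add, map_add,
          h.exact.apply_apply_eq_zero, h.exact.apply_apply_eq_zero]
      · show i (g • a - a) = i (d _ g)
        rw [hd, map_sub, h.i_smul]
        show g • i a - i a = g • (c + i a) - (c + i a)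
        rw [smul_add, hc g]
        abel
  have h3 : Nat.card ψ.ker * Nat.card ψ.range = Nat.card W := card_ker_mul_range _
  have h4 : Nat.card iH.ker * Nat.card iH.range = Nat.card (L.H1 A) := card_ker_mul_range _
  have h5 : Nat.card πH.ker * Nat.card πH.range = Nat.card (L.H1 B) := card_ker_mul_range _
  rw [hiker, hψker] at h3
  rw [Nat.card_prod, hσker] at h2
  rw [hπW] at h1
  have hfA : Nat.card (fixedSub L A) = Nat.card (L.fixed A) := rfl
  have hfB : Nat.card (fixedSub L B) = Nat.card (L.fixed B) := rfl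
  have hfM : Nat.card (fixedSub L M) = Nat.card (L.fixed M) := rfl
  have hr : πH.range = ((clsH1 L M).comp (mapZ1 π h.π_smul)).range := card_range_mk πH
  rw [← hexact, hr] at h5
  rw [← h5, ← h4]
  have hA0 : 0 < Nat.card A := Nat.card_pos
  refine Nat.eq_of_mul_eq_mul_left hA0 ?_
  rw [hfA, hfB] at h2
  rw [hfM, ← h3] at h1
  linear_combination (Nat.card iH.range * Nat.card ((clsH1 L M).comp (mapZ1 π h.π_smul)).range *
    Nat.card (L.fixed A)) * h1 +
    (Nat.card iH.range * Nat.card ((clsH1 L M).comp (mapZ1 π h.π_smul)).range *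
      Nat.card iH.ker) * h2

/-- The right part of the long exact sequence, as an identity of orders. -/
theorem IsShort.card_ext (h : IsShort L i π) (D : PreClassModule L C p) (hB : L.Smooth B)
    (hp : ∀ b : B, p • b = 0) :
    Nat.card (L.Ext1 M C) * Nat.card (L.HomC B C) =
      Nat.card ((clsExt L B C).comp (pullSym π h.π_smul)).range *
        (Nat.card (L.HomC M C) * Nat.card (L.HomC A C)) := by
  let res : L.HomC B C →+ L.HomC A C :=
    AddMonoidHom.mk' (fun χ => ⟨χ.1.comp i, fun g a => by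
      show χ.1 (i (g • a)) = g • χ.1 (i a)
      rw [h.i_smul, χ.2]⟩) fun χ χ' => rfl
  have hres : Nat.card res.ker = Nat.card (L.HomC M C) := by
    refine (Nat.card_congr (Equiv.ofBijective (fun ξ => (⟨⟨ξ.1.comp π, fun g b => by
      show ξ.1 (π (g • b)) = g • ξ.1 (π b)
      rw [h.π_smul, ξ.2]⟩, Subtype.ext (AddMonoidHom.ext fun a => by
        show ξ.1 (π (i a)) = 0
        rw [h.exact.apply_apply_eq_zero, map_zero])⟩ : res.ker)) ⟨fun ξ ξ' he => ?_, fun χ => ?_⟩)).symm
    · refine Subtype.ext (AddMonoidHom.ext fun m => ?_)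
      obtain ⟨b, rfl⟩ := h.surj m
      exact congrArg (fun t : res.ker => t.1.1 b) he
    · have h0 : ∀ b, π b = 0 → χ.1.1 b = 0 := fun b hb => by
        obtain ⟨a, rfl⟩ := h.mem_range hb
        exact congrArg (fun t : L.HomC A C => t.1 a) (AddMonoidHom.mem_ker.mp χ.2)
      choose sB hsB using h.surj
      have heq : ∀ b, χ.1.1 (sB (π b)) = χ.1.1 b := fun b => by
        rw [← sub_eq_zero, ← map_sub]
        exact h0 _ (by rw [map_sub, hsB, sub_self])
      refine ⟨⟨AddMonoidHom.mk' (fun m => χ.1.1 (sB m)) fun m m' => ?_, fun g m => ?_⟩,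
        Subtype.ext (Subtype.ext (AddMonoidHom.ext heq))⟩
      · obtain ⟨b, rfl⟩ := h.surj m
        obtain ⟨b', rfl⟩ := h.surj m'
        rw [← map_add, heq, heq, heq, map_add]
      · obtain ⟨b, rfl⟩ := h.surj m
        show χ.1.1 (sB (g • π b)) = g • χ.1.1 (sB (π b))
        rw [← h.π_smul, heq, heq, χ.1.2]
  let cmp : L.SymZ M C × L.equivariant B C →+ (B → B → C) :=
    ((L.SymZ B C).subtype.comp (pullSym π h.π_smul)).coprod
      (-((LevelGroup.dSym B C).comp (L.equivariant B C).subtype))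
  let W : AddSubgroup (L.SymZ M C × L.equivariant B C) := cmp.ker
  have hW : ∀ (w : W) (b b' : B),
      w.1.1.1 (π b) (π b') = w.1.2.1 b + w.1.2.1 b' - w.1.2.1 (b + b') := fun w b b' => by
    have := congrFun (congrFun (AddMonoidHom.mem_ker.mp w.2) b) b'
    exact sub_eq_zero.mp ((sub_eq_add_neg _ _).trans this)
  let φ : W →+ L.HomC A C := AddMonoidHom.mk'
    (fun w => ⟨AddMonoidHom.mk' (fun a => w.1.1.1 0 0 - w.1.2.1 (i a)) fun a a' => by
        have h1 := hW w (i a) (i a')
        rw [h.exact.apply_apply_eq_zero, h.exact.apply_apply_eq_zero, ← map_add] at h1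
        linear_combination (norm := abel) -h1,
      fun g a => by
        show w.1.1.1 0 0 - w.1.2.1 (i (g • a)) = g • (w.1.1.1 0 0 - w.1.2.1 (i a))
        rw [smul_sub, L.smul_symZ_zero w.1.1.2, h.i_smul, w.1.2.2]⟩)
    fun w w' => Subtype.ext (AddMonoidHom.ext fun a => by
      show w.1.1.1 0 0 + w'.1.1.1 0 0 - (w.1.2.1 (i a) + w'.1.2.1 (i a)) =
        w.1.1.1 0 0 - w.1.2.1 (i a) + (w'.1.1.1 0 0 - w'.1.2.1 (i a))
      abel)
  let g : W →+ L.HomC A C ⧸ res.range := (QuotientAddGroup.mk' res.range).comp φ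
  let ψ : W →+ L.Ext1 M C :=
    (clsExt L M C).comp ((AddMonoidHom.fst _ _).comp W.subtype)
  let πE : L.Ext1 M C →+ L.Ext1 B C := QuotientAddGroup.map _ _ (pullSym π h.π_smul) fun κ hκ =>
    pullSym_symB π h.π_smul hκ
  have hψ : ψ.range = πE.ker := by
    ext z
    obtain ⟨κ, rfl⟩ := QuotientAddGroup.mk_surjective z
    refine ⟨?_, fun hz => ?_⟩
    · rintro ⟨w, hw⟩
      rw [← hw]
      exact clsExt_eq_zero.mpr ⟨w.1.2.1, w.1.2.2,
        funext fun b => funext fun b' => (hW w b b').symm⟩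
    · obtain ⟨t, ht, htd⟩ := clsExt_eq_zero.mp hz
      refine ⟨⟨(κ, ⟨t, ht⟩), AddMonoidHom.mem_ker.mpr ?_⟩, rfl⟩
      show (pullSym π h.π_smul κ).1 + -LevelGroup.dSym B C t = 0
      rw [htd, add_neg_cancel]
  have hker : g.ker = ψ.ker := by
    ext w
    rw [AddMonoidHom.mem_ker, AddMonoidHom.mem_ker]
    refine ⟨fun hw => clsExt_eq_zero.mpr ?_, fun hw => (QuotientAddGroup.eq_zero_iff _).mpr ?_⟩
    · obtain ⟨χ, hχ⟩ := (QuotientAddGroup.eq_zero_iff _).mp hw
      have hχ' : ∀ a, χ.1 (i a) = w.1.1.1 0 0 - w.1.2.1 (i a) := fun a =>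
        DFunLike.congr_fun (congrArg Subtype.val hχ) a
      choose sB hsB using h.surj
      let u : B → C := fun b => w.1.2.1 b + χ.1 b
      have hu : ∀ b b', π b = π b' → u b = u b' := fun b b' hbb => by
        obtain ⟨a, ha⟩ := h.mem_range (b := b - b') (by rw [map_sub, hbb, sub_self])
        have h1 := hW w b' (i a)
        rw [h.exact.apply_apply_eq_zero, L.symZ_zero_right w.1.1.2, ha, add_sub_cancel] at h1
        have h2 := hχ' a
        rw [ha, map_sub] at h2
        show w.1.2.1 b + χ.1 b = w.1.2.1 b' + χ.1 b'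
        linear_combination (norm := abel) h1 + h2
      refine ⟨fun m => u (sB m), fun g m => ?_, funext fun m => funext fun m' => ?_⟩
      · show u (sB (g • m)) = g • u (sB m)
        rw [hu (sB (g • m)) (g • sB m) (by rw [hsB, h.π_smul, hsB])]
        show w.1.2.1 (g • sB m) + χ.1 (g • sB m) = g • (w.1.2.1 (sB m) + χ.1 (sB m))
        rw [smul_add, χ.2, w.1.2.2]
      · show u (sB m) + u (sB m') - u (sB (m + m')) = w.1.1.1 m m'
        rw [hu (sB (m + m')) (sB m + sB m') (by rw [map_add, hsB, hsB, hsB])]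
        have h1 := hW w (sB m) (sB m')
        rw [hsB, hsB] at h1
        show w.1.2.1 (sB m) + χ.1 (sB m) + (w.1.2.1 (sB m') + χ.1 (sB m')) -
          (w.1.2.1 (sB m + sB m') + χ.1 (sB m + sB m')) = _
        rw [map_add, h1]
        abel
    · obtain ⟨k, hk, hkd⟩ := clsExt_eq_zero.mp hw
      let χ₀ : B → C := fun b => k (π b) - w.1.2.1 b
      have hadd : ∀ b b', χ₀ (b + b') = χ₀ b + χ₀ b' := fun b b' => by
        have h1 : k (π b) + k (π b') - k (π b + π b') = w.1.1.1 (π b) (π b') :=
          congrFun (congrFun hkd (π b)) (π b')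
        rw [hW w b b'] at h1
        show k (π (b + b')) - _ = k (π b) - _ + (k (π b') - _)
        rw [map_add]
        linear_combination (norm := abel) -h1
      refine ⟨⟨AddMonoidHom.mk' χ₀ hadd, fun g b => ?_⟩,
        Subtype.ext (AddMonoidHom.ext fun a => ?_)⟩
      · show k (π (g • b)) - w.1.2.1 (g • b) = g • (k (π b) - w.1.2.1 b)
        rw [smul_sub, h.π_smul, hk g, w.1.2.2]
      · show k (π (i a)) - w.1.2.1 (i a) = w.1.1.1 0 0 - w.1.2.1 (i a)
        have h1 : k 0 + k 0 - k (0 + 0) = w.1.1.1 0 0 := congrFun (congrFun hkd 0) 0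
        rw [add_zero, add_sub_cancel_right] at h1
        rw [h.exact.apply_apply_eq_zero, h1]
  have hgs : Function.Surjective g := fun z => by
    obtain ⟨η, rfl⟩ := QuotientAddGroup.mk'_surjective _ z
    obtain ⟨κ, t, ht, htd, hta, -⟩ := h.exists_pushout D hB hp η.2
    refine ⟨⟨(κ, ⟨t, ht⟩), AddMonoidHom.mem_ker.mpr ?_⟩,
      congrArg _ (Subtype.ext (AddMonoidHom.ext hta))⟩
    show (pullSym π h.π_smul κ).1 + -LevelGroup.dSym B C t = 0
    rw [htd, add_neg_cancel]
  have e1 : Nat.card πE.ker = Nat.card (L.HomC A C ⧸ res.range) := by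
    rw [← hψ, ← Nat.card_congr (QuotientAddGroup.quotientKerEquivRange ψ).toEquiv, ← hker,
      Nat.card_congr (QuotientAddGroup.quotientKerEquivOfSurjective g hgs).toEquiv]
  have h1 : Nat.card πE.ker * Nat.card πE.range = Nat.card (L.Ext1 M C) := card_ker_mul_range _
  have h2 : Nat.card res.ker * Nat.card res.range = Nat.card (L.HomC B C) := card_ker_mul_range _
  have h3 := AddSubgroup.card_eq_card_quotient_mul_card_addSubgroup res.range
  have hr : πE.range = ((clsExt L B C).comp (pullSym π h.π_smul)).range := card_range_mk πE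
  rw [e1, hr] at h1
  rw [hres] at h2
  rw [← h1, ← h2, h3]
  ring

/-- The Euler defect is multiplicative in short exact sequences. -/
theorem PreClassModule.euler_mul [Fact p.Prime] (h : IsShort L i π) [Finite A] [Finite B]
    [Finite M] (hp : ∀ b : B, p • b = 0) (hB : L.Smooth B) (hM : L.Smooth M)
    (dB : D.Duality L B hB) (dM : D.Duality L M hM)
    [Finite (L.H1 A)] [Finite (L.H1 B)] [Finite (L.H1 M)] :
    Nat.card (L.H1 B) * (Nat.card (L.fixed A) * Nat.card (L.HomC A C)) *
        (Nat.card (L.fixed M) * Nat.card (L.HomC M C)) =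
      Nat.card (L.H1 A) * Nat.card (L.H1 M) *
        (Nat.card (L.fixed B) * Nat.card (L.HomC B C)) := by
  let u := (clsH1 L M).comp (mapZ1 π h.π_smul)
  let v := (clsExt L B C).comp (pullSym π h.π_smul)
  have huv : Nat.card u.range = Nat.card v.range :=
    (card_range_eq (p := p) ((D.pairHom hM).comp (mapZ1 π h.π_smul)) u v
      (fun x => clsH1_eq_zero.trans (PreClassModule.Duality.left_iff D dM _))
      (fun κ => clsExt_eq_zero.trans ((PreClassModule.Duality.right_iff D dB _).trans
        (forall_congr' fun x => by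
          rw [← D.pair_eq, ← pair_mapZ1 π h.π_smul D hB hM]
          rfl)))
      (LevelGroup.nsmul_h1 (h.killed_right hp)) (LevelGroup.nsmul_ext1 hp)).2
  have hM1 : Nat.card (clsH1 L M).range = Nat.card (clsExt L M C).range :=
    (card_range_eq (p := p) (D.pairHom hM) (clsH1 L M) (clsExt L M C)
      (fun x => clsH1_eq_zero.trans (PreClassModule.Duality.left_iff D dM _))
      (fun κ => clsExt_eq_zero.trans (PreClassModule.Duality.right_iff D dM _))
      (LevelGroup.nsmul_h1 (h.killed_right hp))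
      (LevelGroup.nsmul_ext1 (h.killed_right hp))).2
  have hsu : Function.Surjective (clsH1 L M) := QuotientAddGroup.mk'_surjective _
  have hsv : Function.Surjective (clsExt L M C) := QuotientAddGroup.mk'_surjective _
  rw [AddMonoidHom.range_eq_top.mpr hsu, AddMonoidHom.range_eq_top.mpr hsv, AddSubgroup.card_top,
    AddSubgroup.card_top] at hM1
  have he := h.card_ext D hB hp
  rw [← hM1, ← huv] at he
  have h1 := h.card_h1 hB
  calc
    _ = Nat.card (L.H1 B) * (Nat.card (L.fixed A) * Nat.card (L.fixed M)) *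
          (Nat.card (L.HomC M C) * Nat.card (L.HomC A C)) := by ring
    _ = Nat.card (L.H1 A) * Nat.card (L.fixed B) *
          (Nat.card u.range * (Nat.card (L.HomC M C) * Nat.card (L.HomC A C))) := by
      rw [h1]; ring
    _ = _ := by rw [← he]; ring

end Fermat.Agent.GD
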