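import Fermat.Agent.GD.Engine.Extension

/-!
# The pairing between classes and extensions
-/

set_option autoImplicit false

noncomputable section

namespace Fermat.Agent.GD

universe u v w x

variable {L : LevelGroup.{u}} {M : Type v} [AddCommGroup M] [DistribMulAction L.G M]
variable {C : Type w} [AddCommGroup C] [DistribMulAction L.G C]

theorem LevelGroup.d₁_apply (b : L.G → C) (g h : L.G) :
    L.d₁ C b (g, h) = g • b h - b (g * h) + b g := rfl

theorem LevelGroup.isB2_zero : L.IsB2 C (0 : L.G × L.G → C) :=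
  ⟨0, L.const₁_const 0, map_zero _⟩

theorem LevelGroup.IsB2.add {z z' : L.G × L.G → C} (h : L.IsB2 C z) (h' : L.IsB2 C z') :
    L.IsB2 C (z + z') := by
  obtain ⟨b, hb, rfl⟩ := h
  obtain ⟨b', hb', rfl⟩ := h'
  exact ⟨b + b', hb.comp₂ L hb' (· + ·), map_add _ _ _⟩

theorem LevelGroup.IsB2.neg {z : L.G × L.G → C} (h : L.IsB2 C z) : L.IsB2 C (-z) := by
  obtain ⟨b, hb, rfl⟩ := h
  exact ⟨-b, hb.comp (fun c => -c), map_neg _ _⟩

theorem LevelGroup.IsB2.sub {z z' : L.G × L.G → C} (h : L.IsB2 C z) (h' : L.IsB2 C z') :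
    L.IsB2 C (z - z') := by rw [sub_eq_add_neg]; exact h.add h'.neg

theorem LevelGroup.IsB2.nsmul {z : L.G × L.G → C} (h : L.IsB2 C z) (n : ℕ) :
    L.IsB2 C (n • z) := by
  induction n with
  | zero => rw [zero_smul]; exact L.isB2_zero
  | succ n ih => rw [succ_nsmul]; exact ih.add h

variable {p : ℕ} (D : PreClassModule L C p)

/-- Cohomologous cocycles have the same invariant. -/
theorem PreClassModule.inv_congr (z z' : L.Z2 C) (h : L.IsB2 C (z.1 - z'.1)) :
    D.inv z = D.inv z' := by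
  rw [← sub_eq_zero, ← map_sub]
  exact D.inv_d₁ _ h

theorem LevelGroup.cup_const [Finite M] (hM : L.Smooth M) {x : L.G → M} (hx : L.Const₁ x)
    (κ : M → M → C) : L.Const₂ (L.cup M C x κ) := by
  obtain ⟨N, hN, hxN⟩ := hx
  obtain ⟨N', hN', h'⟩ := hM.exists_level
  refine ⟨N ⊓ N', L.inf N N' hN hN', fun g g' s hs s' hs' => ?_⟩
  show κ (x (g * s)) ((g * s) • x (g' * s')) = κ (x g) (g • x g')
  rw [hxN g s hs.1, hxN g' s' hs'.1, mul_smul, h' s hs.2]

theorem LevelGroup.cup_cocycle {x : L.G → M} (hx : L.IsCocycle₁ M x) {κ : M → M → C}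
    (hκ : κ ∈ L.SymZ M C) : L.IsCocycle₂ C (L.cup M C x κ) := fun g h j => by
  show g • κ (x h) (h • x j) + κ (x g) (g • x (h * j)) =
    κ (x (g * h)) ((g * h) • x j) + κ (x g) (g • x h)
  rw [hx h j, hx g h, smul_add, mul_smul, ← hκ.1]
  exact (hκ.2.2 _ _ _).symm.trans (add_comm _ _)

/-- The cup product is the differential of a lift to the extension. -/
theorem cup_eq_lift {E : Type x} [AddCommGroup E] [DistribMulAction L.G E] {j : C →+ E}
    {e : M → E} (heG : ∀ (g : L.G) m, e (g • m) = g • e m) {κ : M → M → C}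
    (hκ : ∀ a b, e a + e b = e (a + b) + j (κ a b)) {x : L.G → M} (hx : L.IsCocycle₁ M x)
    (g h : L.G) : j (L.cup M C x κ (g, h)) = g • e (x h) - e (x (g * h)) + e (x g) := by
  show j (κ (x g) (g • x h)) = _
  rw [← heG, hx g h]
  have := hκ (x g) (g • x h)
  linear_combination (norm := abel) -this

variable [Finite M]

/-- The cup product as a two-cocycle. -/
def cupZ2 (hM : L.Smooth M) (x : L.Z1 M) (κ : L.SymZ M C) : L.Z2 C :=
  ⟨L.cup M C x.1 κ.1, L.cup_const hM x.2.1 κ.1, L.cup_cocycle x.2.2 κ.2⟩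

theorem cup_add_left (x x' : L.Z1 M) (κ : L.SymZ M C) :
    L.IsB2 C (L.cup M C (x.1 + x'.1) κ.1 - (L.cup M C x.1 κ.1 + L.cup M C x'.1 κ.1)) := by
  refine (Tw.isExtension κ).isB2_sub (l := fun g => Tw.sec κ ((x + x').1 g))
    (l' := fun g => Tw.sec κ (x.1 g) + Tw.sec κ (x'.1 g))
    ((x + x').2.1.comp (Tw.sec κ))
    (x.2.1.comp₂ L x'.2.1 fun a b => Tw.sec κ a + Tw.sec κ b) (fun g => rfl)
    (fun g h => cup_eq_lift (Tw.sec_smul κ) (Tw.sec_add κ) (x + x').2.2 g h) fun g h => ?_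
  show Tw.incl κ (L.cup M C x.1 κ.1 (g, h) + L.cup M C x'.1 κ.1 (g, h)) = _
  rw [map_add, cup_eq_lift (Tw.sec_smul κ) (Tw.sec_add κ) x.2.2,
    cup_eq_lift (Tw.sec_smul κ) (Tw.sec_add κ) x'.2.2, smul_add]
  abel

theorem cup_coboundary (hM : L.Smooth M) (hC : L.Smooth C) (x : L.Z1 M) (hx : x.1 ∈ L.B1 M)
    (κ : L.SymZ M C) : L.IsB2 C (L.cup M C x.1 κ.1) := by
  obtain ⟨m, hm⟩ := hx
  obtain ⟨N, hN, hfix⟩ := Tw.smooth κ hM hC (Tw.sec κ m)
  have h := (Tw.isExtension κ).isB2_sub (l := fun g => Tw.sec κ (x.1 g))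
    (l' := fun g => g • Tw.sec κ m - Tw.sec κ m) (x.2.1.comp (Tw.sec κ))
    ⟨N, hN, fun g s hs => by show (g * s) • _ - _ = _; rw [mul_smul, hfix s hs]⟩
    (fun g => by rw [map_sub, Tw.proj_smul, Tw.proj_sec, Tw.proj_sec, ← hm]; rfl)
    (z' := 0) (fun g h => cup_eq_lift (Tw.sec_smul κ) (Tw.sec_add κ) x.2.2 g h) fun g h => by
      rw [Pi.zero_apply, map_zero, mul_smul, smul_sub]; abel
  rwa [sub_zero] at h

omit [Finite M] in
theorem cup_symB (x : L.Z1 M) {κ : M → M → C} (hκ : κ ∈ L.SymB M C) :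
    L.IsB2 C (L.cup M C x.1 κ) := by
  obtain ⟨h, hh, rfl⟩ := hκ
  refine ⟨fun g => h (x.1 g), x.2.1.comp h, funext fun y => ?_⟩
  show y.1 • h (x.1 y.2) - h (x.1 (y.1 * y.2)) + h (x.1 y.1) =
    h (x.1 y.1) + h (y.1 • x.1 y.2) - h (x.1 y.1 + y.1 • x.1 y.2)
  rw [hh y.1, x.2.2 y.1 y.2]
  abel

theorem LevelGroup.symB_le : L.SymB M C ≤ L.SymZ M C := by
  rintro _ ⟨h, hh, rfl⟩
  refine ⟨fun g a b => ?_, fun a b => ?_, fun a b c => ?_⟩
  · show h (g • a) + h (g • b) - h (g • a + g • b) = g • (h a + h b - h (a + b))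
    rw [← smul_add g a b, hh, hh, hh, smul_sub, smul_add]
  · show h a + h b - h (a + b) = h b + h a - h (b + a)
    rw [add_comm a b, add_comm (h a)]
  · show h a + h b - h (a + b) + (h (a + b) + h c - h (a + b + c)) =
      h b + h c - h (b + c) + (h a + h (b + c) - h (a + (b + c)))
    rw [add_assoc a b c]
    abel

/-- The pairing as a bilinear map. -/
def PreClassModule.pairHom (hM : L.Smooth M) : L.Z1 M →+ L.SymZ M C →+ AddCircle (1 : ℚ) :=
  AddMonoidHom.mk' (fun x => AddMonoidHom.mk' (fun κ => D.inv (cupZ2 hM x κ)) fun κ κ' => by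
      rw [← map_add]; rfl)
    fun x x' => AddMonoidHom.ext fun κ => by
      show D.inv (cupZ2 hM (x + x') κ) = D.inv (cupZ2 hM x κ) + D.inv (cupZ2 hM x' κ)
      rw [← map_add]
      exact D.inv_congr _ _ (cup_add_left x x' κ)

theorem PreClassModule.pairHom_apply (hM : L.Smooth M) (x : L.Z1 M) (κ : L.SymZ M C) :
    D.pairHom hM x κ = D.inv (cupZ2 hM x κ) := rfl

theorem PreClassModule.pairHom_coboundary (hM : L.Smooth M) (x : L.Z1 M) (hx : x.1 ∈ L.B1 M)
    (κ : L.SymZ M C) : D.pairHom hM x κ = 0 :=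
  D.inv_d₁ _ (cup_coboundary hM D.smooth x hx κ)

theorem PreClassModule.pairHom_symB (hM : L.Smooth M) (x : L.Z1 M) (κ : L.SymZ M C)
    (hκ : κ.1 ∈ L.SymB M C) : D.pairHom hM x κ = 0 :=
  D.inv_d₁ _ (cup_symB x hκ)

theorem PreClassModule.nsmul_pairHom (hM : L.Smooth M) (hp : ∀ m : M, p • m = 0) (x : L.Z1 M)
    (κ : L.SymZ M C) : p • D.pairHom hM x κ = 0 := by
  rw [← AddMonoidHom.nsmul_apply, ← map_nsmul, show p • x = 0 from Subtype.ext (funext fun g =>
    hp (x.1 g)), map_zero, AddMonoidHom.zero_apply]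

/-- The cup product of a class killed by `p` is killed by `p`. -/
theorem nsmul_cup (hM : L.Smooth M) (hC : L.Smooth C) (hp : ∀ m : M, p • m = 0) (x : L.Z1 M)
    (κ : L.SymZ M C) : L.IsB2 C (p • L.cup M C x.1 κ.1) := by
  have key : ∀ n : ℕ, L.IsB2 C (L.cup M C (n • x).1 κ.1 - n • L.cup M C x.1 κ.1) := fun n => by
    induction n with
    | zero =>
      rw [zero_smul, zero_smul, sub_zero]
      exact cup_coboundary hM hC 0 (zero_mem _) κ
    | succ n ih =>
      have h := (cup_add_left (n • x) x κ).add ih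
      rw [succ_nsmul, succ_nsmul]
      convert h using 1
      show _ = _
      simp only [AddSubgroup.coe_add]
      abel
  have h := key p
  rw [show p • x = 0 from Subtype.ext (funext fun g => hp (x.1 g))] at h
  have h0 := cup_coboundary hM hC (0 : L.Z1 M) (zero_mem _) κ
  have := h0.sub h
  rwa [sub_sub_cancel] at this

end Fermat.Agent.GD
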