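import Fermat.Agent.GD.Engine.Duality

/-!
# Corestriction after restriction, and conjugation
-/

set_option autoImplicit false

noncomputable section

namespace Fermat.Agent.GD

universe u w

variable {L : LevelGroup.{u}} {C : Type w} [AddCommGroup C] [DistribMulAction L.G C]

theorem res_mem_Z2 {H : Subgroup L.G} {z : L.G × L.G → C} (hz : z ∈ L.Z2 C) :
    (fun y : (L.sub H).G × (L.sub H).G => z ((y.1 : H).1, (y.2 : H).1)) ∈ (L.sub H).Z2 C := by
  obtain ⟨⟨N, hN, hzN⟩, hc⟩ := hz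
  exact ⟨⟨_, ⟨N, hN, rfl⟩, fun g g' s hs s' hs' => hzN _ _ _ hs _ hs'⟩, fun g g' g'' => hc _ _ _⟩

/-- Corestriction after restriction is multiplication by the index. -/
theorem cor₂_res {H : Subgroup L.G} (hH : L.IsOpen H) {z : L.G × L.G → C} (hz : z ∈ L.Z2 C) :
    L.IsB2 C (L.cor₂ C H (fun y : H × H => z (y.1.1, y.2.1)) - H.index • z) := by
  have := hH.finite_quotient
  have := Fintype.ofFinite (L.G ⧸ H)
  obtain ⟨⟨N, hN, hzN⟩, hc⟩ := hz
  let b : L.G → C := fun g =>
    ∑ s : L.G ⧸ H, (z ((g • s).out, (L.eta H g s : L.G)) - z (g, s.out))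
  refine ⟨b, ?_, funext fun ⟨g, g'⟩ => ?_⟩
  · obtain ⟨N', hN', h1, h2⟩ := exists_level_le hH hN
    refine ⟨N', hN', fun g n hn => Finset.sum_congr rfl fun s _ => ?_⟩
    obtain ⟨he, n', hn', heta⟩ := L.eta_mul_level hN' h2 g hn s
    rw [he, heta]
    have e1 := hzN (g • s).out (L.eta H g s : L.G) 1 N.one_mem n' (h1 hn')
    have e2 := hzN g s.out n (h1 hn) 1 N.one_mem
    rw [mul_one] at e1 e2
    exact congrArg₂ (· - ·) e1 e2
  · rw [L.d₁_apply, Pi.sub_apply, cor₂_apply, Pi.smul_apply]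
    show g • b g' - b (g * g') + b g = _
    have key : ∀ s : L.G ⧸ H,
        ((g * g') • s).out • z ((L.eta H g (g' • s) : L.G), (L.eta H g' s : L.G)) - z (g, g') =
          g • (z ((g' • s).out, (L.eta H g' s : L.G)) - z (g', s.out)) -
            (z (((g * g') • s).out, (L.eta H (g * g') s : L.G)) - z (g * g', s.out)) +
            (z ((g • g' • s).out, (L.eta H g (g' • s) : L.G)) - z (g, (g' • s).out)) := fun s => by
      have c1 := hc ((g * g') • s).out (L.eta H g (g' • s) : L.G) (L.eta H g' s : L.G)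
      have c2 := hc g (g' • s).out (L.eta H g' s : L.G)
      have c3 := hc g g' s.out
      rw [← Subgroup.coe_mul, ← L.eta_mul, mul_smul g g' s, L.out_mul_eta] at c1
      rw [L.out_mul_eta] at c2
      rw [mul_smul g g' s, smul_sub]
      linear_combination (norm := abel) c1 - c2 + c3
    rw [H.index_eq_card, Nat.card_eq_fintype_card,
      show Fintype.card (L.G ⧸ H) • z (g, g') = ∑ _s : L.G ⧸ H, z (g, g') by
        rw [Finset.sum_const, Finset.card_univ],
      ← Finset.sum_sub_distrib, Finset.sum_congr rfl fun s _ => key s, Finset.sum_add_distrib,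
      Finset.sum_sub_distrib, ← Finset.smul_sum]
    exact congrArg₂ (· + ·) rfl (Equiv.sum_comp (MulAction.toPerm g')
      (fun s : L.G ⧸ H => z ((g • s).out, (L.eta H g s : L.G)) - z (g, s.out))).symm

/-- Conjugation acts trivially on classes of degree two. -/
theorem isB2_conj {z : L.G × L.G → C} (hz : z ∈ L.Z2 C) (c : L.G) :
    L.IsB2 C ((fun y => c • z (c⁻¹ * y.1 * c, c⁻¹ * y.2 * c)) - z) := by
  obtain ⟨⟨N, hN, hzN⟩, hc⟩ := hz
  refine ⟨fun x => z (c, c⁻¹ * x * c) - z (x, c), ⟨N, hN, fun x s hs => ?_⟩,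
    funext fun ⟨x, y⟩ => ?_⟩
  · have hs' : c⁻¹ * s * c ∈ N := by simpa using! (L.normal N hN).conj_mem s hs c⁻¹
    have e1 := hzN c (c⁻¹ * x * c) 1 N.one_mem (c⁻¹ * s * c) hs'
    have e2 := hzN x c s hs 1 N.one_mem
    rw [mul_one] at e1 e2
    show z (c, c⁻¹ * (x * s) * c) - z (x * s, c) = _
    rw [show c⁻¹ * (x * s) * c = c⁻¹ * x * c * (c⁻¹ * s * c) by group, e1, e2]
  · rw [L.d₁_apply, Pi.sub_apply]
    have A := hc c (c⁻¹ * x * c) (c⁻¹ * y * c)
    have B := hc x c (c⁻¹ * y * c)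
    have D := hc x y c
    rw [show c * (c⁻¹ * x * c) = x * c by group,
      show c⁻¹ * x * c * (c⁻¹ * y * c) = c⁻¹ * (x * y) * c by group] at A
    rw [show c * (c⁻¹ * y * c) = y * c by group] at B
    show x • (z (c, c⁻¹ * y * c) - z (y, c)) - (z (c, c⁻¹ * (x * y) * c) - z (x * y, c)) +
      (z (c, c⁻¹ * x * c) - z (x, c)) = c • z (c⁻¹ * x * c, c⁻¹ * y * c) - z (x, y)
    rw [smul_sub]
    linear_combination (norm := abel) -A + B - D

end Fermat.Agent.GD
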