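import Fermat.Agent.GD.Engine.Artin.Induced

/-!
# Vanishing of additive functions of modules over a finite group in characteristic `p`
-/

set_option autoImplicit false

noncomputable section

namespace Fermat.Agent.GD.Artin

variable {p : ℕ} [hp : Fact p.Prime] {k : Type} [Field k] [Finite k] [CharP k p]
variable {Δ : Type} [Group Δ] [Finite Δ]

/-- A character trivial on a normal `p`-subgroup of index prime to `p`. -/
def IsTame (p : ℕ) {H : Subgroup Δ} (χ : H →* k) : Prop :=
  ∃ P : Subgroup H, P.Normal ∧ IsPGroup p P ∧ ¬ p ∣ P.index ∧ ∀ x ∈ P, χ x = 1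

omit [Finite k] [CharP k p] in
theorem tr_mul_comm' (V : AMod k (MonoidAlgebra k Δ)) (a b : MonoidAlgebra k Δ) :
    V.tr (a * b) = V.tr (b * a) := by
  simp only [AMod.tr_apply, map_mul]
  exact LinearMap.trace_mul_comm k _ _

omit [Finite k] [CharP k p] in
theorem tr_conj (V : AMod k (MonoidAlgebra k Δ)) (x g : Δ) :
    V.tr (MonoidAlgebra.of k Δ (x * g * x⁻¹)) = V.tr (MonoidAlgebra.of k Δ g) := by
  rw [map_mul, tr_mul_comm', ← map_mul, inv_mul_cancel_left]

/-- Every element has a `p`-regular part with the same traces. -/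
theorem exists_regular (g : Δ) : ∃ s : Δ, ¬ p ∣ orderOf s ∧
    ∀ V : AMod k (MonoidAlgebra k Δ),
      V.tr (MonoidAlgebra.of k Δ g) = V.tr (MonoidAlgebra.of k Δ s) := by
  obtain ⟨a, m, hm, hn⟩ := Nat.exists_eq_pow_mul_and_not_dvd (orderOf_pos g).ne' p hp.out.ne_one
  obtain ⟨x, y, hxy⟩ := Nat.isCoprime_iff_coprime.mpr
    ((Nat.Coprime.pow_left a (hp.out.coprime_iff_not_dvd.mpr hm)))
  have hg : g ^ ((p ^ a : ℕ) * m : ℤ) = 1 := by
    rw [← Nat.cast_mul, zpow_natCast, ← hn, pow_orderOf_eq_one]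
  let s := g ^ (x * (p ^ a : ℕ))
  let u := g ^ (y * (m : ℤ))
  have hsm : s ^ m = 1 := by
    rw [← zpow_natCast, ← zpow_mul, mul_assoc, mul_comm, zpow_mul, hg, one_zpow]
  have hu : u ^ p ^ a = 1 := by
    rw [← zpow_natCast, ← zpow_mul, mul_assoc, mul_comm, zpow_mul, mul_comm (m : ℤ), hg, one_zpow]
  have hgsu : g = s * u := by rw [← zpow_add, hxy, zpow_one]
  refine ⟨s, fun h => hm (h.trans (orderOf_dvd_of_pow_eq_one hsm)), fun V => ?_⟩
  let A := Algebra.lsmul k k (V : Type) (MonoidAlgebra.of k Δ s)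
  let B := Algebra.lsmul k k (V : Type) (MonoidAlgebra.of k Δ u)
  have hAB : Commute A B :=
    (((Commute.zpow_zpow_self g _ _)).map (MonoidAlgebra.of k Δ)).map (Algebra.lsmul k k (V : Type))
  have hB : IsNilpotent (B - 1) := by
    rcases subsingleton_or_nontrivial (V : Type) with hs | hnt
    · exact ⟨1, LinearMap.ext fun v => Subsingleton.elim _ _⟩
    have hch : CharP (Module.End k (V : Type)) p :=
      charP_of_injective_algebraMap (FaithfulSMul.algebraMap_injective k _) p
    refine ⟨p ^ a, ?_⟩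
    rw [sub_pow_char_pow_of_commute _ _ (Commute.one_right B), one_pow, sub_eq_zero, ← map_pow,
      ← map_pow, hu, map_one, map_one]
  have h0 := (LinearMap.isNilpotent_trace_of_isNilpotent
    ((Commute.sub_right hAB (Commute.one_right A)).isNilpotent_mul_left hB)).eq_zero
  rw [mul_sub, mul_one, map_sub, sub_eq_zero] at h0
  rw [hgsu, map_mul, AMod.tr_apply, AMod.tr_apply, map_mul]
  exact h0

theorem zpow_eq_self_iff {G : Type*} [Group G] (a : G) (i : ℤ) :
    a ^ i = a ↔ (orderOf a : ℤ) ∣ i - 1 := by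
  rw [orderOf_dvd_iff_zpow_eq_one, zpow_sub, zpow_one, mul_inv_eq_one]

open Classical in
/-- The subgroup, the characters and the index attached to a `p`-regular element. -/
theorem exists_indicator (c : Δ) (hc : ¬ p ∣ orderOf c)
    (hk : ∃ ζ : k, IsPrimitiveRoot ζ (orderOf c)) :
    ∃ (H : Subgroup Δ) (χ : ℕ → H →* k) (w : ℕ → k), (∀ j, IsTame p (χ j)) ∧
      ∀ g : Δ, ¬ p ∣ orderOf g →
        (IsConj g c → g = c) →
        ∑ j ∈ Finset.range (orderOf c), w j * (mono k H (χ j)).tr (MonoidAlgebra.of k Δ g) =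
          if g = c then 1 else 0 := by
  classical
  obtain ⟨ζ, hζ⟩ := hk
  set m := orderOf c with hmdef
  let Z : Subgroup Δ := Subgroup.centralizer {c}
  have hZ : ∀ z, z ∈ Z ↔ z * c = c * z := fun z => by
    rw [Subgroup.mem_centralizer_singleton_iff]
  let S : Sylow p Z := default
  let P : Subgroup Δ := (S : Subgroup Z).map Z.subtype
  have hPZ : ∀ u ∈ P, u ∈ Z := by rintro _ ⟨u, -, rfl⟩; exact u.2
  obtain ⟨b, hb⟩ := S.isPGroup'.exists_card_eq
  have hPb : ∀ u ∈ P, u ^ p ^ b = 1 := by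
    rintro _ ⟨u, hu, rfl⟩
    rw [← map_pow, show u ^ p ^ b = 1 from ?_, map_one]
    have := pow_card_eq_one' (x := (⟨u, hu⟩ : (S : Subgroup Z)))
    rw [hb] at this
    exact congrArg Subtype.val this
  have hcomm : ∀ u ∈ P, ∀ i : ℤ, Commute (c ^ i) u := fun u hu i =>
    (Commute.zpow_right ((hZ u).mp (hPZ u hu) : Commute u c) i).symm
  let H : Subgroup Δ :=
    { carrier := {h | ∃ i : ℤ, ∃ u ∈ P, c ^ i * u = h}
      one_mem' := ⟨0, 1, P.one_mem, by simp⟩
      mul_mem' := by
        rintro _ _ ⟨i, u, hu, rfl⟩ ⟨i', u', hu', rfl⟩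
        exact ⟨i + i', u * u', P.mul_mem hu hu', by
          rw [zpow_add, (hcomm u hu i').mul_mul_mul_comm]⟩
      inv_mem' := by
        rintro _ ⟨i, u, hu, rfl⟩
        exact ⟨-i, u⁻¹, P.inv_mem hu, by
          rw [mul_inv_rev, zpow_neg, ((hcomm u hu i).inv_inv).eq]⟩ }
  have hHZ : H ≤ Z := by
    rintro _ ⟨i, u, hu, rfl⟩
    exact Z.mul_mem (Z.zpow_mem ((hZ c).mpr rfl) i) (hPZ u hu)
  obtain ⟨x, y, hxy⟩ := Nat.isCoprime_iff_coprime.mpr
    ((Nat.Coprime.pow_left b (hp.out.coprime_iff_not_dvd.mpr hc)))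
  let e : ℤ := x * (p ^ b : ℕ)
  have hce : ∀ i : ℤ, (c ^ i) ^ e = c ^ i := fun i => by
    have he1 : i * e = i + (m : ℤ) * (-(i * y)) := by
      linear_combination i * hxy
    rw [← zpow_mul, he1, zpow_add, zpow_mul c (m : ℤ), zpow_natCast, hmdef, pow_orderOf_eq_one,
      one_zpow, mul_one]
  have hpow : ∀ h : H, ∀ (i : ℤ) (u : Δ), u ∈ P → c ^ i * u = h → (h : Δ) ^ e = c ^ i := by
    intro h i u hu he
    have hue : u ^ e = 1 := by
      rw [show e = (p ^ b : ℕ) * x from mul_comm _ _, zpow_mul, zpow_natCast, hPb u hu, one_zpow]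
    rw [← he, (hcomm u hu i).mul_zpow, hce, hue, mul_one]
  let proj : H →* Subgroup.zpowers c :=
    { toFun := fun h => ⟨(h : Δ) ^ e, by
        obtain ⟨i, u, hu, he⟩ := h.2
        rw [hpow h i u hu he]
        exact Subgroup.zpow_mem_zpowers c i⟩
      map_one' := Subtype.ext (one_zpow e)
      map_mul' := by
        rintro ⟨_, i, u, hu, rfl⟩ ⟨_, i', u', hu', rfl⟩
        refine Subtype.ext ?_
        show (c ^ i * u * (c ^ i' * u')) ^ e = (c ^ i * u) ^ e * (c ^ i' * u') ^ e
        rw [hpow ⟨_, i, u, hu, rfl⟩ i u hu rfl, hpow ⟨_, i', u', hu', rfl⟩ i' u' hu' rfl,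
          hpow ⟨_, H.mul_mem ⟨i, u, hu, rfl⟩ ⟨i', u', hu', rfl⟩⟩ (i + i') (u * u')
            (P.mul_mem hu hu') (by rw [zpow_add, (hcomm u hu i').mul_mul_mul_comm]), zpow_add] }
  have hm0 : 0 < m := orderOf_pos c
  let ζu : kˣ := (hζ.isUnit hm0.ne').unit
  have hζu : IsPrimitiveRoot ζu m := IsPrimitiveRoot.coe_units_iff.mp hζ
  have hgen : ∀ z : Subgroup.zpowers c,
      z ∈ Subgroup.zpowers (⟨c, Subgroup.mem_zpowers c⟩ : Subgroup.zpowers c) := by
    rintro ⟨_, i, rfl⟩
    exact ⟨i, Subtype.ext (by simp)⟩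
  let ψ : Subgroup.zpowers c →* kˣ := monoidHomOfForallMemZpowers hgen (g' := ζu) (by
    rw [← hζu.eq_orderOf, Subgroup.orderOf_mk])
  have hψc : ψ ⟨c, Subgroup.mem_zpowers c⟩ = ζu := monoidHomOfForallMemZpowers_apply_gen hgen _
  let χ₁ : H →* k := (Units.coeHom k).comp (ψ.comp proj)
  have hχ₁ : ∀ h : H, χ₁ h ^ m = 1 := fun h => by
    rw [← map_pow]
    show ((ψ (proj (h ^ m)) : kˣ) : k) = 1
    rw [map_pow proj, show (proj h) ^ m = 1 from ?_, map_one, Units.val_one]
    obtain ⟨i, hi⟩ := (proj h).2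
    refine Subtype.ext ?_
    show ((proj h : Subgroup.zpowers c) : Δ) ^ m = 1
    rw [← hi, ← zpow_natCast, ← zpow_mul, mul_comm, zpow_mul, zpow_natCast, hmdef,
      pow_orderOf_eq_one, one_zpow]
  have hiff : ∀ h : H, χ₁ h = ζ ↔ (h : Δ) ^ e = c := fun h => by
    obtain ⟨i, hi⟩ := (proj h).2
    have hpr : proj h = (⟨c, Subgroup.mem_zpowers c⟩ : Subgroup.zpowers c) ^ i :=
      Subtype.ext (by rw [SubgroupClass.coe_zpow]; exact hi.symm)
    have h1 : χ₁ h = ((ζu ^ i : kˣ) : k) := by
      show ((ψ (proj h) : kˣ) : k) = _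
      rw [hpr, map_zpow, hψc]
    have h2 : (h : Δ) ^ e = c ^ i := hi.symm
    rw [h1, h2, show ζ = ((ζu : kˣ) : k) from (IsUnit.unit_spec _).symm, Units.val_inj]
    rw [zpow_eq_self_iff, zpow_eq_self_iff, ← hζu.eq_orderOf]
  have hmk : (m : k) ≠ 0 := fun h => hc ((CharP.cast_eq_zero_iff k p m).mp h)
  let z : ℕ := H.relIndex Z
  have hz : ¬ p ∣ z := by
    have hle : (S : Subgroup Z) ≤ H.subgroupOf Z := fun u hu =>
      ⟨0, u, ⟨u, hu, rfl⟩, by simp⟩
    exact fun h => S.not_dvd_index (h.trans (Subgroup.index_dvd_of_le hle))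
  have hzk : (z : k) ≠ 0 := fun h => hz ((CharP.cast_eq_zero_iff k p z).mp h)
  refine ⟨H, fun j => (powMonoidHom j).comp χ₁, fun j => ((z : k) * m)⁻¹ * (ζ⁻¹) ^ j,
    fun j => ⟨(P.subgroupOf H), ?_, ?_, ?_, fun h hh => ?_⟩, fun g hg hconj => ?_⟩
  · refine ⟨fun u hu h => ?_⟩
    obtain ⟨i, u', hu', he⟩ := h.2
    show (h : Δ) * u * (h : Δ)⁻¹ ∈ P
    rw [← he, mul_inv_rev]
    have hconj : u' * (u : Δ) * u'⁻¹ ∈ P := P.mul_mem (P.mul_mem hu' hu) (P.inv_mem hu')
    rw [show c ^ i * u' * (u : Δ) * (u'⁻¹ * (c ^ i)⁻¹) = c ^ i * (u' * u * u'⁻¹) * (c ^ i)⁻¹ by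
      group, (hcomm _ hconj i).eq, mul_inv_cancel_right]
    exact hconj
  · intro u
    obtain ⟨⟨v, hvH⟩, hv⟩ := u
    exact ⟨b, Subtype.ext (Subtype.ext (hPb v hv))⟩
  · intro hdvd
    have : (P.subgroupOf H).Normal := ⟨fun u hu h => by
      obtain ⟨i, u', hu', he⟩ := h.2
      show (h : Δ) * u * (h : Δ)⁻¹ ∈ P
      rw [← he, mul_inv_rev]
      have hconj : u' * (u : Δ) * u'⁻¹ ∈ P := P.mul_mem (P.mul_mem hu' hu) (P.inv_mem hu')
      rw [show c ^ i * u' * (u : Δ) * (u'⁻¹ * (c ^ i)⁻¹) = c ^ i * (u' * u * u'⁻¹) * (c ^ i)⁻¹ by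
        group, (hcomm _ hconj i).eq, mul_inv_cancel_right]
      exact hconj⟩
    obtain ⟨q, hq⟩ := exists_prime_orderOf_dvd_card' (G := H ⧸ P.subgroupOf H) p hdvd
    obtain ⟨⟨_, i, u, hu, rfl⟩, rfl⟩ := QuotientGroup.mk_surjective q
    refine hc (hq ▸ orderOf_dvd_of_pow_eq_one ?_)
    rw [← QuotientGroup.mk_pow, QuotientGroup.eq_one_iff]
    show (c ^ i * u) ^ m ∈ P
    rw [(hcomm u hu i).mul_pow, ← zpow_natCast, ← zpow_mul, mul_comm, zpow_mul, zpow_natCast,
      hmdef, pow_orderOf_eq_one, one_zpow, one_mul]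
    exact P.pow_mem hu _
  · show χ₁ h ^ j = 1
    rw [show χ₁ h = 1 from ?_, one_pow]
    show ((ψ (proj h) : kˣ) : k) = 1
    rw [show proj h = 1 from Subtype.ext ((hpow h 0 h hh (by rw [zpow_zero, one_mul])).trans
      (zpow_zero c)), map_one, Units.val_one]
  · have : Fintype (Δ ⧸ H) := Fintype.ofFinite _
    simp only [tr_mono k, Finset.mul_sum]
    rw [Finset.sum_comm]
    have hgeom : ∀ h : H, ∑ j ∈ Finset.range m, ((z : k) * m)⁻¹ * ζ⁻¹ ^ j * χ₁ h ^ j =
        if (h : Δ) ^ e = c then (z : k)⁻¹ else 0 := fun h => by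
      have hζ0 : ζ ≠ 0 := hζ.ne_zero hm0.ne'
      simp only [mul_assoc, ← mul_pow, ← Finset.mul_sum]
      by_cases h1 : (h : Δ) ^ e = c
      · rw [if_pos h1, (hiff h).mpr h1, inv_mul_cancel₀ hζ0]
        simp only [one_pow, Finset.sum_const, Finset.card_range, nsmul_eq_mul, mul_one]
        field_simp
      · rw [if_neg h1, geom_sum_eq (fun h2 => h1 ((hiff h).mp (by
          rw [← mul_right_inj' (inv_ne_zero hζ0), h2, inv_mul_cancel₀ hζ0]))), mul_pow, hχ₁, mul_one,
          inv_pow, hζ.pow_eq_one, inv_one, sub_self, zero_div, mul_zero]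
    have hterm : ∀ s : Δ ⧸ H, (∑ j ∈ Finset.range m, ((z : k) * m)⁻¹ * ζ⁻¹ ^ j *
        if g • s = s then ((powMonoidHom j).comp χ₁) (eta H g s) else 0) =
          if g = c ∧ s.out ∈ Z then (z : k)⁻¹ else 0 := fun s => by
      by_cases hgs : g • s = s
      swap
      · simp only [if_neg hgs, mul_zero, Finset.sum_const_zero]
        rw [if_neg]
        rintro ⟨rfl, hs⟩
        refine hgs ?_
        conv_lhs => rw [← QuotientGroup.out_eq' s]
        conv_rhs => rw [← QuotientGroup.out_eq' s]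
        rw [MulAction.Quotient.smul_mk, smul_eq_mul, ← (hZ _).mp hs]
        refine QuotientGroup.eq.mpr ?_
        rw [mul_inv_rev, mul_assoc, inv_mul_cancel, mul_one]
        exact H.inv_mem ⟨1, 1, P.one_mem, by simp⟩
      simp only [if_pos hgs]
      refine (hgeom _).trans (if_congr ?_ rfl rfl)
      have hη : ((eta H g s : H) : Δ) = s.out⁻¹ * g * s.out := by
        show (g • s).out⁻¹ * g * s.out = _
        rw [hgs]
      have hreg : ((eta H g s : H) : Δ) ^ e = (eta H g s : H) := by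
        obtain ⟨i, u, hu, he⟩ := (eta H g s).2
        have h1 : ((eta H g s : H) : Δ) ^ (m * p ^ b) = 1 := by
          have hci : (c ^ i) ^ m = 1 := by
            rw [← zpow_natCast, ← zpow_mul, mul_comm, zpow_mul, zpow_natCast, hmdef,
              pow_orderOf_eq_one, one_zpow]
          rw [← he, (hcomm u hu i).mul_pow, pow_mul, hci, one_pow, one_mul, mul_comm, pow_mul,
            hPb u hu, one_pow]
        have h2 : orderOf ((eta H g s : H) : Δ) = orderOf g := by
          rw [hη]
          simpa [MulAut.conj_apply] using MulEquiv.orderOf_eq (MulAut.conj s.out⁻¹) g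
        have h3 : orderOf ((eta H g s : H) : Δ) ∣ m := by
          refine (Nat.Coprime.dvd_of_dvd_mul_right ?_ (orderOf_dvd_of_pow_eq_one h1))
          rw [h2]
          exact Nat.Coprime.pow_right b (hp.out.coprime_iff_not_dvd.mpr hg).symm
        conv_rhs => rw [← zpow_one ((eta H g s : H) : Δ)]
        rw [← mul_inv_eq_one, ← zpow_sub, ← orderOf_dvd_iff_zpow_eq_one]
        refine (Int.natCast_dvd_natCast.mpr h3).trans ⟨-y, ?_⟩
        linear_combination hxy
      rw [hreg, hη]
      constructor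
      · intro h
        have hgc : g = c := hconj (isConj_iff.mpr ⟨s.out⁻¹, by rw [inv_inv]; exact h⟩)
        refine ⟨hgc, (hZ _).mpr ?_⟩
        rw [hgc, mul_assoc, inv_mul_eq_iff_eq_mul] at h
        exact h.symm
      · rintro ⟨rfl, hs⟩
        rw [mul_assoc, inv_mul_eq_iff_eq_mul]
        exact ((hZ _).mp hs).symm
    simp only [hterm]
    by_cases hgc : g = c
    · rw [if_pos hgc]
      simp only [hgc, true_and]
      rw [← Finset.sum_filter, Finset.sum_const, nsmul_eq_mul,
        show (Finset.univ.filter fun s : Δ ⧸ H => s.out ∈ Z).card = z from ?_, mul_inv_cancel₀ hzk]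
      show _ = (H.subgroupOf Z).index
      rw [Subgroup.index_eq_card, ← Fintype.card_subtype, ← Nat.card_eq_fintype_card]
      refine (Nat.card_congr (Equiv.ofBijective (fun t =>
        Quotient.liftOn' t (fun v : Z => (⟨QuotientGroup.mk (v : Δ), ?_⟩ :
          {s : Δ ⧸ H // s.out ∈ Z})) ?_) ⟨?_, ?_⟩)).symm
      · obtain ⟨h, hh⟩ := QuotientGroup.mk_out_eq_mul H (v : Δ)
        rw [hh]
        exact Z.mul_mem v.2 (hHZ h.2)
      · intro v v' hv
        exact Subtype.ext (QuotientGroup.eq.mpr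
          (Subgroup.mem_subgroupOf.mp (QuotientGroup.leftRel_apply.mp hv)))
      · rintro ⟨v⟩ ⟨v'⟩ hv
        have h5 : (QuotientGroup.mk (v : Δ) : Δ ⧸ H) = QuotientGroup.mk (v' : Δ) :=
          congrArg Subtype.val hv
        exact Quotient.sound' (QuotientGroup.leftRel_apply.mpr
          (Subgroup.mem_subgroupOf.mpr (QuotientGroup.eq.mp h5)))
      · rintro ⟨s, hs⟩
        exact ⟨QuotientGroup.mk ⟨s.out, hs⟩, Subtype.ext (QuotientGroup.out_eq' s)⟩
    · rw [if_neg hgc]
      simp [hgc]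

/-- An additive function vanishing on the tame monomial modules is divisible by `p`. -/
theorem dvd_of_additive (hk : ∀ c : Δ, ¬ p ∣ orderOf c → ∃ ζ : k, IsPrimitiveRoot ζ (orderOf c))
    (F : AMod k (MonoidAlgebra k Δ) → ℤ) (hF : IsAdditive F)
    (hind : ∀ (H : Subgroup Δ) (χ : H →* k), IsTame p χ → F (mono k H χ) = 0)
    (V : AMod k (MonoidAlgebra k Δ)) : (p : ℤ) ∣ F V := by
  classical
  have := Fintype.ofFinite (ConjClasses Δ)
  let I : Finset (ConjClasses Δ) := Finset.univ.filter fun C => ¬ p ∣ orderOf (Quotient.out C)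
  have hI : ∀ C ∈ I, ¬ p ∣ orderOf (Quotient.out C) := fun C hC => (Finset.mem_filter.mp hC).2
  choose H χ w htame hw using fun C : I =>
    exists_indicator (p := p) (k := k) (Quotient.out C.1) (hI C.1 C.2) (hk _ (hI C.1 C.2))
  let J : Finset (Σ _ : I, ℕ) :=
    Finset.univ.sigma fun C => Finset.range (orderOf (Quotient.out C.1))
  let t : I → k := fun C => V.tr (MonoidAlgebra.of k Δ (Quotient.out C.1))
  let l : List (k × AMod k (MonoidAlgebra k Δ)) :=
    ((1 : k), V) :: J.toList.map fun x => (-(t x.1 * w x.1 x.2), mono k (H x.1) (χ x.1 x.2))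
  have hl : ∀ G : AMod k (MonoidAlgebra k Δ) → k, (l.map fun x => x.1 * G x.2).sum =
      G V - ∑ C : I, t C * ∑ j ∈ Finset.range (orderOf (Quotient.out C.1)),
        w C j * G (mono k (H C) (χ C j)) := fun G => by
    simp only [l, List.map_cons, List.sum_cons, one_mul, List.map_map, Function.comp_def,
      Finset.sum_map_toList, J, Finset.sum_sigma, Finset.mul_sum, ← mul_assoc, neg_mul,
      Finset.sum_neg_distrib, sub_eq_add_neg]
  have hclass : ∀ g : Δ, ¬ p ∣ orderOf g → g = Quotient.out (ConjClasses.mk g) →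
      (l.map fun x => x.1 * x.2.tr (MonoidAlgebra.of k Δ g)).sum = 0 := fun g hg hgo => by
    rw [hl fun W => W.tr (MonoidAlgebra.of k Δ g)]
    let C₀ : I := ⟨ConjClasses.mk g, Finset.mem_filter.mpr ⟨Finset.mem_univ _, by rwa [← hgo]⟩⟩
    have hconj : ∀ C : I, IsConj g (Quotient.out C.1) → g = Quotient.out C.1 := fun C hC => by
      rw [hgo]
      congr 1
      rw [ConjClasses.mk_eq_mk_iff_isConj.mpr hC]
      exact Quotient.out_eq C.1
    rw [Finset.sum_congr rfl fun C _ => by rw [hw C g hg (hconj C)],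
      Finset.sum_eq_single C₀ (fun C _ hC => by
        rw [if_neg, mul_zero]
        intro h
        refine hC (Subtype.ext ?_)
        show C.1 = ConjClasses.mk g
        rw [h]
        exact (Quotient.out_eq C.1).symm) (fun h => absurd (Finset.mem_univ _) h), if_pos hgo,
      mul_one]
    show V.tr _ - V.tr (MonoidAlgebra.of k Δ (Quotient.out (ConjClasses.mk g))) = 0
    rw [← hgo, sub_self]
  have hgroup : ∀ g : Δ, (l.map fun x => x.1 * x.2.tr (MonoidAlgebra.of k Δ g)).sum = 0 := fun g => by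
    obtain ⟨s, hs, hst⟩ := exists_regular (p := p) (k := k) g
    set c := Quotient.out (ConjClasses.mk s)
    obtain ⟨x, hx⟩ : ∃ x, x * c * x⁻¹ = s :=
      isConj_iff.mp (ConjClasses.mk_eq_mk_iff_isConj.mp (Quotient.out_eq (ConjClasses.mk s)))
    have hmk : ConjClasses.mk c = ConjClasses.mk s := Quotient.out_eq _
    have := hclass c (by
      have h1 : orderOf s = orderOf c := by
        rw [← hx]; exact MulEquiv.orderOf_eq (MulAut.conj x) c
      rwa [h1] at hs) (by rw [hmk])
    refine Eq.trans (congrArg List.sum (List.map_congr_left fun y _ => ?_)) this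
    rw [hst, ← hx, tr_conj]
  have hall : ∀ a, (l.map fun x => x.1 * x.2.tr a).sum = 0 := fun a => by
    induction a using MonoidAlgebra.induction_on with
    | of g => exact hgroup g
    | add a b ha hb => simp only [map_add, mul_add, List.sum_map_add, ha, hb, add_zero]
    | smul c a ha =>
      simp only [map_smul, smul_eq_mul, mul_left_comm _ c, List.sum_map_mul_left, ha, mul_zero]
  have h := sum_eq_zero_of_tr (F := fun W => (F W : k))
    (fun V₁ V₂ V₃ i π h1 h2 h3 => by
      show (F V₂ : k) = (F V₁ : k) + (F V₃ : k)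
      rw [hF V₁ V₂ V₃ i π h1 h2 h3, Int.cast_add]) l hall
  rw [hl fun W => (F W : k)] at h
  simp only [hind _ _ (htame _ _), Int.cast_zero, mul_zero, Finset.sum_const_zero, sub_zero] at h
  exact (CharP.intCast_eq_zero_iff k p _).mp h

theorem eq_zero_of_additive
    (hk : ∀ c : Δ, ¬ p ∣ orderOf c → ∃ ζ : k, IsPrimitiveRoot ζ (orderOf c))
    (F : AMod k (MonoidAlgebra k Δ) → ℤ) (hF : IsAdditive F)
    (hind : ∀ (H : Subgroup Δ) (χ : H →* k), IsTame p χ → F (mono k H χ) = 0)
    (V : AMod k (MonoidAlgebra k Δ)) : F V = 0 := by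
  have h : ∀ n : ℕ, ∀ F : AMod k (MonoidAlgebra k Δ) → ℤ, IsAdditive F →
      (∀ (H : Subgroup Δ) (χ : H →* k), IsTame p χ → F (mono k H χ) = 0) →
      ∀ V, (p : ℤ) ^ n ∣ F V := by
    intro n
    induction n with
    | zero => intro F _ _ V; rw [pow_zero]; exact one_dvd _
    | succ n ih =>
      intro F hF hind V
      choose F' hF' using dvd_of_additive hk F hF hind
      have hp0 : (p : ℤ) ≠ 0 := by exact_mod_cast hp.out.ne_zero
      obtain ⟨d, hd⟩ := ih F' (fun V₁ V₂ V₃ i π h1 h2 h3 => mul_left_cancel₀ hp0 (by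
          rw [mul_add, ← hF', ← hF', ← hF']; exact hF V₁ V₂ V₃ i π h1 h2 h3))
        (fun H χ hχ => mul_left_cancel₀ hp0 (by rw [← hF', hind H χ hχ, mul_zero])) V
      exact ⟨d, by rw [hF', hd, pow_succ']; ring⟩
  by_contra hne
  obtain ⟨d, hd⟩ := h (F V).natAbs F hF hind V
  have h1 : p ^ (F V).natAbs ≤ (F V).natAbs := Nat.le_of_dvd (Int.natAbs_pos.mpr hne)
    (Int.natCast_dvd.mp (by exact_mod_cast (⟨d, hd⟩ : (p : ℤ) ^ (F V).natAbs ∣ F V)))
  exact absurd h1 (not_le.mpr (Nat.lt_pow_self hp.out.one_lt))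

section Descent

variable (k)

/-- The coextension of scalars. -/
def CoExt (M : Type) [AddCommGroup M] : Type := k →+ M

instance (M : Type) [AddCommGroup M] : AddCommGroup (CoExt k M) :=
  inferInstanceAs (AddCommGroup (k →+ M))

instance (M : Type) [AddCommGroup M] [Finite M] : Finite (CoExt k M) :=
  Finite.of_injective (fun f : CoExt k M => ⇑(show k →+ M from f))
    (DFunLike.coe_injective (F := k →+ M))

instance (M : Type) [AddCommGroup M] : Module k (CoExt k M) where
  smul a φ := (show k →+ M from φ).comp (AddMonoidHom.mulLeft a)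
  one_smul φ := AddMonoidHom.ext fun x => congrArg (show k →+ M from φ) (one_mul x)
  mul_smul a b φ := AddMonoidHom.ext fun x => congrArg (show k →+ M from φ) (by
    show a * b * x = b * (a * x)
    ring)
  smul_zero a := rfl
  smul_add a φ φ' := rfl
  add_smul a b φ := AddMonoidHom.ext fun x => by
    show (show k →+ M from φ) ((a + b) * x) = (show k →+ M from φ) (a * x) +
      (show k →+ M from φ) (b * x)
    rw [add_mul, map_add]
  zero_smul φ := AddMonoidHom.ext fun x => by
    show (show k →+ M from φ) (0 * x) = 0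
    rw [zero_mul, map_zero]

/-- The action on the coextension. -/
def coExtRep (M : Type) [AddCommGroup M] [DistribMulAction Δ M] :
    Δ →* Module.End k (CoExt k M) where
  toFun g :=
    { toFun := fun φ => (DistribSMul.toAddMonoidHom M g).comp (show k →+ M from φ)
      map_add' := fun a b => AddMonoidHom.ext fun x => smul_add g _ _
      map_smul' := fun c a => rfl }
  map_one' := LinearMap.ext fun φ => AddMonoidHom.ext fun x => one_smul Δ _
  map_mul' g g' := LinearMap.ext fun φ => AddMonoidHom.ext fun x => mul_smul g g' _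

end Descent

omit [Finite k] [CharP k p] [Field k] in
/-- A finite field of characteristic `p` with the roots of unity of the `p`-regular elements. -/
theorem exists_field : ∃ (k : Type) (_ : Field k) (_ : Finite k) (_ : Algebra (ZMod p) k),
    CharP k p ∧ ∀ c : Δ, ¬ p ∣ orderOf c → ∃ ζ : k, IsPrimitiveRoot ζ (orderOf c) := by
  obtain ⟨a, n, hn, hcard⟩ := Nat.exists_eq_pow_mul_and_not_dvd (Nat.card_pos (α := Δ)).ne' p
    hp.out.ne_one
  have hn0 : NeZero (n : ZMod p) := ⟨fun h => hn ((ZMod.natCast_eq_zero_iff _ _).mp h)⟩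
  have : NeZero n := ⟨fun h => hn (h ▸ dvd_zero p)⟩
  have : Module.Finite (ZMod p) (CyclotomicField n (ZMod p)) :=
    IsCyclotomicExtension.finite_of_singleton n (ZMod p) (CyclotomicField n (ZMod p))
  refine ⟨CyclotomicField n (ZMod p), inferInstance, Module.finite_of_finite (ZMod p),
    inferInstance, charP_of_injective_algebraMap (algebraMap (ZMod p) _).injective p,
    fun c hc => ?_⟩
  have hdvd : orderOf c ∣ n :=
    (Nat.Coprime.pow_left a (hp.out.coprime_iff_not_dvd.mpr hc)).symm.dvd_of_dvd_mul_left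
      (hcard ▸ orderOf_dvd_natCard c)
  obtain ⟨d, hd⟩ := hdvd
  exact ⟨_, (IsCyclotomicExtension.zeta_spec n (ZMod p) (CyclotomicField n (ZMod p))).pow
    (NeZero.pos n) (hd.trans (mul_comm _ _))⟩

/-- A short exact sequence of modules over a group. -/
structure IsExactSeq {G : Type} [Group G] {A B M : Type} [AddCommGroup A] [AddCommGroup B]
    [AddCommGroup M] [DistribMulAction G A] [DistribMulAction G B] [DistribMulAction G M]
    (i : A →+ B) (π : B →+ M) : Prop where
  inj : Function.Injective i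
  surj : Function.Surjective π
  exact : Function.Exact i π
  i_smul : ∀ (g : G) a, i (g • a) = g • i a
  π_smul : ∀ (g : G) b, π (g • b) = g • π b

omit [Finite k] [CharP k p] [Field k] in
/-- An additive function on finite modules killed by `p` which vanishes on the modules induced from
modules of groups with a trivially acting normal `p`-subgroup of index prime to `p` vanishes. -/
theorem additive_eq_zero
    (f : ∀ (M : Type) [AddCommGroup M] [Finite M] [DistribMulAction Δ M], ℤ)
    (hadd : ∀ (A B M : Type) [AddCommGroup A] [AddCommGroup B] [AddCommGroup M] [Finite A]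
      [Finite B] [Finite M] [DistribMulAction Δ A] [DistribMulAction Δ B] [DistribMulAction Δ M]
      (i : A →+ B) (π : B →+ M), IsExactSeq (G := Δ) i π → (∀ b : B, p • b = 0) →
      f B = f A + f M)
    (hind : ∀ (H : Subgroup Δ) (W : Type) [AddCommGroup W] [Finite W] [DistribMulAction H W],
      (∀ w : W, p • w = 0) → (∃ P : Subgroup H, P.Normal ∧ IsPGroup p P ∧ ¬ p ∣ P.index ∧
        ∀ x ∈ P, ∀ w : W, x • w = w) → f (coind H W) = 0)
    (M : Type) [AddCommGroup M] [Finite M] [DistribMulAction Δ M] (hM : ∀ m : M, p • m = 0) :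
    f M = 0 := by
  obtain ⟨k, _, _, _, _, hk⟩ := exists_field (p := p) (Δ := Δ)
  have : Module.Finite (ZMod p) k := Module.Finite.of_finite
  have hkill : ∀ (V : AMod k (MonoidAlgebra k Δ)) (v : V), p • v = 0 := fun V v => by
    rw [← Nat.cast_smul_eq_nsmul k, CharP.cast_eq_zero, zero_smul]
  let F : AMod k (MonoidAlgebra k Δ) → ℤ := fun V => @f V _ _ V.act
  have hequiv : ∀ (A B : Type) [AddCommGroup A] [AddCommGroup B] [Finite A] [Finite B]
      [DistribMulAction Δ A] [DistribMulAction Δ B] (e : A ≃+ B),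
      (∀ (g : Δ) x, e (g • x) = g • e x) → (∀ b : B, p • b = 0) → f A = f B := by
    intro A B _ _ _ _ _ _ e he hB
    let Z : Type := (⊥ : AddSubgroup B)
    letI : DistribMulAction Δ Z :=
      { smul := fun _ z => z
        one_smul := fun _ => rfl
        mul_smul := fun _ _ _ => rfl
        smul_zero := fun _ => rfl
        smul_add := fun _ _ _ => rfl }
    have hsub : Subsingleton Z := ⟨fun a b => Subtype.ext (a.2.trans b.2.symm)⟩
    have h0 : f Z = 0 := by
      have := hadd Z Z Z (AddMonoidHom.id Z) 0 ⟨fun a b h => h,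
        fun v => ⟨v, Subsingleton.elim _ _⟩,
        fun v => ⟨fun _ => ⟨v, rfl⟩, fun _ => Subsingleton.elim _ _⟩, fun g a => rfl,
        fun g b => rfl⟩ fun b => Subsingleton.elim _ _
      exact left_eq_add.mp this
    have := hadd A B Z e.toAddMonoidHom 0 ⟨e.injective, fun z => ⟨0, Subsingleton.elim _ _⟩,
      fun b => ⟨fun _ => ⟨e.symm b, e.apply_symm_apply b⟩, fun _ => rfl⟩, he,
      fun g b => Subsingleton.elim _ _⟩ hB
    rw [h0, add_zero] at this
    exact this.symm
  have hFadd : IsAdditive F := fun V₁ V₂ V₃ i π h1 h2 h3 =>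
    @hadd V₁ V₂ V₃ _ _ _ _ _ _ V₁.act V₂.act V₃.act i.toAddMonoidHom π.toAddMonoidHom
      (@IsExactSeq.mk Δ _ V₁ V₂ V₃ _ _ _ V₁.act V₂.act V₃.act _ _ h1 h2 h3
        (fun g a => map_smul i _ a) (fun g b => map_smul π _ b)) (hkill V₂)
  have hFind : ∀ (H : Subgroup Δ) (χ : H →* k), IsTame p χ → F (mono k H χ) = 0 := by
    intro H χ ⟨P, hPn, hPp, hPi, hP⟩
    have h0 := hind H (Line χ) (fun w => by
      show p • (show k from w) = 0
      rw [nsmul_eq_mul, CharP.cast_eq_zero, zero_mul]) ⟨P, hPn, hPp, hPi, fun x hx w => by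
      show χ x * (show k from w) = w
      rw [hP x hx, one_mul]⟩
    rw [← h0]
    exact (@hequiv (coind H (Line χ)) (mono k H χ) _ _ _ _ _ (mono k H χ).act (coindMonoEquiv H χ)
      (fun g φ => (coindMonoEquiv_smul H χ g φ).trans (by
        show _ = (MonoidAlgebra.lift k _ Δ) (monoRep k H χ) (MonoidAlgebra.of k Δ g) _
        rw [MonoidAlgebra.lift_of]
        rfl)) (hkill _)).symm
  have hF0 := eq_zero_of_additive hk F hFadd hFind (ofRep k (coExtRep k M))
  let b := Module.finBasis (ZMod p) k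
  letI : Module (ZMod p) M := AddCommGroup.zmodModule hM
  have hpow : ∀ d : ℕ, f (Fin d → M) = d * f M := fun d => by
    induction d with
    | zero =>
      have hsub : Subsingleton (Fin 0 → M) := inferInstance
      have := hadd (Fin 0 → M) (Fin 0 → M) (Fin 0 → M) (AddMonoidHom.id _) 0 ⟨fun a b h => h,
        fun v => ⟨v, Subsingleton.elim _ _⟩,
        fun v => ⟨fun _ => ⟨v, rfl⟩, fun _ => Subsingleton.elim _ _⟩, fun g a => rfl,
        fun g b => Subsingleton.elim _ _⟩ fun b => Subsingleton.elim _ _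
      rw [Nat.cast_zero, zero_mul]
      exact left_eq_add.mp this
    | succ d ih =>
      rw [hadd M (Fin (d + 1) → M) (Fin d → M)
        (AddMonoidHom.single (fun _ : Fin (d + 1) => M) 0)
        (AddMonoidHom.mk' (fun v => Fin.tail v) fun _ _ => rfl) ⟨fun a b h => by
          simpa using congrFun h 0, fun v =>
          ⟨Fin.cons 0 v, funext fun i => Fin.cons_succ (α := fun _ => M) 0 v i⟩, fun v => ?_, fun g x => ?_, fun g v => rfl⟩
        (fun v => funext fun i => hM _), ih, Nat.cast_succ]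
      · ring
      · refine ⟨fun h => ⟨v 0, funext fun i => ?_⟩, ?_⟩
        · refine Fin.cases ?_ (fun l => ?_) i
          · show (Pi.single 0 (v 0) : Fin (d + 1) → M) 0 = v 0
            exact Pi.single_eq_same _ _
          · show (Pi.single 0 (v 0) : Fin (d + 1) → M) l.succ = v l.succ
            exact (Pi.single_eq_of_ne (Fin.succ_ne_zero l) _).trans (congrFun h l).symm
        · rintro ⟨x, rfl⟩
          refine funext fun l => ?_
          show (Pi.single 0 x : Fin (d + 1) → M) l.succ = 0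
          exact Pi.single_eq_of_ne (Fin.succ_ne_zero l) _
      · funext i
        show (Pi.single 0 (g • x) : Fin (d + 1) → M) i = g • (Pi.single 0 x : Fin (d + 1) → M) i
        by_cases h : i = 0
        · subst h; rw [Pi.single_eq_same, Pi.single_eq_same]
        · rw [Pi.single_eq_of_ne h, Pi.single_eq_of_ne h, smul_zero]
  let E : CoExt k M ≃+ (Fin (Module.finrank (ZMod p) k) → M) :=
    { toFun := fun φ i => (show k →+ M from φ) (b i)
      invFun := fun v => (b.constr (ZMod p) v).toAddMonoidHom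
      left_inv := fun φ => DFunLike.ext (F := k →+ M) _ _ fun x => LinearMap.congr_fun
        (b.constr_self (ZMod p) ((show k →+ M from φ).toZModLinearMap p)) x
      right_inv := fun v => funext fun i => b.constr_basis (ZMod p) v i
      map_add' := fun _ _ => rfl }
  have h1 : F (ofRep k (coExtRep k M)) = f (Fin (Module.finrank (ZMod p) k) → M) :=
    @hequiv (ofRep k (coExtRep k M)) _ _ _ _ _ (ofRep k (coExtRep k M)).act _ E (fun g φ => by
      show E ((MonoidAlgebra.lift k _ Δ) (coExtRep k M) (MonoidAlgebra.of k Δ g) φ) = g • E φ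
      rw [MonoidAlgebra.lift_of]
      rfl) (fun v => funext fun i => hM _)
  rw [h1, hpow, mul_eq_zero] at hF0
  exact hF0.resolve_left (by exact_mod_cast (Module.finrank_pos (R := ZMod p) (M := k)).ne')

end Fermat.Agent.GD.Artin
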