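import Fermat.Agent.GD.Engine.Cup

/-!
# Corestriction and the projection formulas
-/

set_option autoImplicit false

noncomputable section

namespace Fermat.Agent.GD

universe u v w

variable {L : LevelGroup.{u}} {M : Type v} [AddCommGroup M] [DistribMulAction L.G M]
variable {C : Type w} [AddCommGroup C] [DistribMulAction L.G C] (H : Subgroup L.G)

theorem LevelGroup.coe_eta (g : L.G) (s : L.G ⧸ H) :
    (L.eta H g s : L.G) = (g • s).out⁻¹ * g * s.out := rfl

theorem LevelGroup.out_mul_eta (g : L.G) (s : L.G ⧸ H) :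
    (g • s).out * (L.eta H g s : L.G) = g * s.out := by rw [L.coe_eta]; group

theorem LevelGroup.eta_mul (g g' : L.G) (s : L.G ⧸ H) :
    L.eta H (g * g') s = L.eta H g (g' • s) * L.eta H g' s := by
  apply Subtype.ext
  rw [Subgroup.coe_mul, L.coe_eta, L.coe_eta, L.coe_eta, mul_smul]
  group

theorem LevelGroup.IsOpen.finite_quotient {H : Subgroup L.G} (hH : L.IsOpen H) :
    Finite (L.G ⧸ H) := by
  obtain ⟨N, hN, hle⟩ := hH
  have := L.finiteIndex N hN
  have := Subgroup.finiteIndex_of_le hle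
  infer_instance

variable {H}

theorem LevelGroup.smul_quot_of_mem {N : Subgroup L.G} (hN : L.IsLevel N) (hle : N ≤ H) {n : L.G}
    (hn : n ∈ N) (s : L.G ⧸ H) : n • s = s := by
  induction s using QuotientGroup.induction_on with
  | _ a =>
    refine QuotientGroup.eq.mpr (hle ?_)
    have := (L.normal N hN).conj_mem n⁻¹ (N.inv_mem hn) a⁻¹
    simpa [mul_assoc] using this

theorem LevelGroup.eta_mul_level {N : Subgroup L.G} (hN : L.IsLevel N) (hle : N ≤ H) (g : L.G)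
    {n : L.G} (hn : n ∈ N) (s : L.G ⧸ H) :
    (g * n) • s = g • s ∧ ∃ n' : H, (n' : L.G) ∈ N ∧ L.eta H (g * n) s = L.eta H g s * n' := by
  refine ⟨by rw [mul_smul, L.smul_quot_of_mem hN hle hn], L.eta H n s, ?_, ?_⟩
  · rw [L.coe_eta, L.smul_quot_of_mem hN hle hn]
    simpa using (L.normal N hN).conj_mem n hn s.out⁻¹
  · rw [L.eta_mul, L.smul_quot_of_mem hN hle hn]

/-- A level below an open subgroup where a cochain of the subgroup is constant. -/
theorem exists_level_le (hH : L.IsOpen H) {N : Subgroup L.G} (hN : L.IsLevel N) :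
    ∃ N', L.IsLevel N' ∧ N' ≤ N ∧ N' ≤ H := by
  obtain ⟨N₁, hN₁, hle⟩ := hH
  exact ⟨N ⊓ N₁, L.inf N N₁ hN hN₁, inf_le_left, inf_le_right.trans hle⟩

variable (H) in
/-- Corestriction of one-cochains. -/
def cor₁ {A : Type*} [AddCommGroup A] [DistribMulAction L.G A] (f : H → A) : L.G → A :=
  fun g => ∑ᶠ s : L.G ⧸ H, (g • s).out • f (L.eta H g s)

theorem cor₂_apply [Fintype (L.G ⧸ H)] (z : H × H → C) (g g' : L.G) :
    L.cor₂ C H z (g, g') =
      ∑ s : L.G ⧸ H, ((g * g') • s).out • z (L.eta H g (g' • s), L.eta H g' s) :=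
  finsum_eq_sum_of_fintype _

theorem cor₁_apply {A : Type*} [AddCommGroup A] [DistribMulAction L.G A] [Fintype (L.G ⧸ H)]
    (f : H → A) (g : L.G) : cor₁ H f g = ∑ s : L.G ⧸ H, (g • s).out • f (L.eta H g s) :=
  finsum_eq_sum_of_fintype _

theorem const₁_cor₁ {A : Type*} [AddCommGroup A] [DistribMulAction L.G A] (hH : L.IsOpen H)
    {f : H → A} (hf : (L.sub H).Const₁ f) : L.Const₁ (cor₁ H f) := by
  have := hH.finite_quotient
  have := Fintype.ofFinite (L.G ⧸ H)
  obtain ⟨_, ⟨N, hN, rfl⟩, hfN⟩ := hf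
  obtain ⟨N', hN', h1, h2⟩ := exists_level_le hH hN
  refine ⟨N', hN', fun g n hn => ?_⟩
  rw [cor₁_apply, cor₁_apply]
  refine Finset.sum_congr rfl fun s _ => ?_
  obtain ⟨he, n', hn', heta⟩ := L.eta_mul_level hN' h2 g hn s
  rw [he, heta]
  exact congrArg _ (hfN _ n' (h1 hn'))

theorem cor₂_mem_Z2 (hH : L.IsOpen H) (hC : L.Smooth C) {z : H × H → C}
    (hz : z ∈ (L.sub H).Z2 C) : L.cor₂ C H z ∈ L.Z2 C := by
  have := hH.finite_quotient
  have := Fintype.ofFinite (L.G ⧸ H)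
  obtain ⟨_, ⟨N, hN, rfl⟩, hzN⟩ := hz.1
  obtain ⟨N', hN', h1, h2⟩ := exists_level_le hH hN
  refine ⟨⟨N', hN', fun g g' n hn n' hn' => ?_⟩, fun g h j => ?_⟩
  · rw [cor₂_apply, cor₂_apply]
    refine Finset.sum_congr rfl fun s _ => ?_
    obtain ⟨he', n₂, hn₂, heta'⟩ := L.eta_mul_level hN' h2 g' hn' s
    obtain ⟨he, n₁, hn₁, heta⟩ := L.eta_mul_level hN' h2 g hn (g' • s)
    rw [show (g * n * (g' * n')) • s = (g * g') • s by rw [mul_smul, he', he, ← mul_smul], he', heta,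
      heta']
    exact congrArg _ (hzN _ _ n₁ (h1 hn₁) n₂ (h1 hn₂))
  · show g • L.cor₂ C H z (h, j) + L.cor₂ C H z (g, h * j) =
      L.cor₂ C H z (g * h, j) + L.cor₂ C H z (g, h)
    have hre : L.cor₂ C H z (g, h) = ∑ s : L.G ⧸ H,
        ((g * h) • j • s).out • z (L.eta H g (h • j • s), L.eta H h (j • s)) := by
      rw [cor₂_apply]
      exact (Equiv.sum_comp (MulAction.toPerm j)
        (fun s : L.G ⧸ H => ((g * h) • s).out • z (L.eta H g (h • s), L.eta H h s))).symm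
    rw [hre]
    simp only [cor₂_apply, Finset.smul_sum, ← Finset.sum_add_distrib]
    refine Finset.sum_congr rfl fun s _ => ?_
    have h1 : g * ((h * j) • s).out = (g • (h * j) • s).out * (L.eta H g ((h * j) • s) : L.G) :=
      (L.out_mul_eta H g _).symm
    rw [← mul_smul g, h1, mul_smul, L.eta_mul, L.eta_mul]
    simp only [mul_smul]
    rw [← smul_add, ← smul_add]
    exact congrArg _ (hz.2 _ _ _)

theorem cor₂_sub (hH : L.IsOpen H) (z z' : H × H → C) :
    L.cor₂ C H (z - z') = L.cor₂ C H z - L.cor₂ C H z' := by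
  have := hH.finite_quotient
  have := Fintype.ofFinite (L.G ⧸ H)
  funext ⟨g, g'⟩
  simp only [Pi.sub_apply, cor₂_apply, smul_sub, Finset.sum_sub_distrib]

theorem isB2_cor₂ (hH : L.IsOpen H) {z : H × H → C} (hz : (L.sub H).IsB2 C z) :
    L.IsB2 C (L.cor₂ C H z) := by
  have := hH.finite_quotient
  have := Fintype.ofFinite (L.G ⧸ H)
  obtain ⟨b, hb, rfl⟩ := hz
  refine ⟨cor₁ H b, const₁_cor₁ hH hb, funext fun ⟨g, g'⟩ => ?_⟩
  rw [L.d₁_apply, cor₂_apply, cor₁_apply, cor₁_apply, cor₁_apply, Finset.smul_sum,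
    ← Equiv.sum_comp (MulAction.toPerm g') (fun s : L.G ⧸ H => (g • s).out • b (L.eta H g s)),
    ← Finset.sum_sub_distrib, ← Finset.sum_add_distrib]
  refine Finset.sum_congr rfl fun s _ => ?_
  show g • (g' • s).out • b (L.eta H g' s) - ((g * g') • s).out • b (L.eta H (g * g') s) +
      (g • g' • s).out • b (L.eta H g (g' • s)) =
    ((g * g') • s).out • ((L.eta H g (g' • s) : L.G) • b (L.eta H g' s) -
      b (L.eta H g (g' • s) * L.eta H g' s) + b (L.eta H g (g' • s)))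
  rw [← mul_smul g (g' • s).out, ← L.out_mul_eta H g (g' • s), mul_smul, L.eta_mul, smul_add, smul_sub,
    mul_smul g g' s]

/-- Corestriction of symmetric cocycles. -/
def corSym (κ : M → M → C) : M → M → C :=
  fun a b => ∑ᶠ s : L.G ⧸ H, s.out • κ (s.out⁻¹ • a) (s.out⁻¹ • b)

theorem corSym_apply [Fintype (L.G ⧸ H)] (κ : M → M → C) (a b : M) :
    corSym (H := H) κ a b = ∑ s : L.G ⧸ H, s.out • κ (s.out⁻¹ • a) (s.out⁻¹ • b) :=
  finsum_eq_sum_of_fintype _

theorem corSym_mem (hH : L.IsOpen H) {κ : M → M → C} (hκ : κ ∈ (L.sub H).SymZ M C) :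
    corSym (H := H) κ ∈ L.SymZ M C := by
  have := hH.finite_quotient
  have := Fintype.ofFinite (L.G ⧸ H)
  refine ⟨fun g a b => ?_, fun a b => ?_, fun a b c => ?_⟩
  · rw [corSym_apply, corSym_apply, Finset.smul_sum, ← Equiv.sum_comp (MulAction.toPerm g)]
    refine Finset.sum_congr rfl fun s _ => ?_
    show (g • s).out • κ ((g • s).out⁻¹ • g • a) ((g • s).out⁻¹ • g • b) = _
    have h : (g • s).out⁻¹ * g = (L.eta H g s : L.G) * s.out⁻¹ := by rw [L.coe_eta]; group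
    rw [← mul_smul _ g, ← mul_smul _ g, h, mul_smul, mul_smul,
      show κ ((L.eta H g s : L.G) • s.out⁻¹ • a) ((L.eta H g s : L.G) • s.out⁻¹ • b) =
        (L.eta H g s : L.G) • κ (s.out⁻¹ • a) (s.out⁻¹ • b) from hκ.1 (L.eta H g s) _ _,
      ← mul_smul, L.out_mul_eta, mul_smul]
  · rw [corSym_apply, corSym_apply]
    exact Finset.sum_congr rfl fun s _ => by rw [hκ.2.1]
  · simp only [corSym_apply, ← Finset.sum_add_distrib, ← smul_add]
    exact Finset.sum_congr rfl fun s _ => by rw [smul_add _ a b, smul_add _ b c, hκ.2.2]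

theorem LevelGroup.Smooth.sub {A : Type*} [AddCommGroup A] [DistribMulAction L.G A]
    (hA : L.Smooth A) : (L.sub H).Smooth A := fun a => by
  obtain ⟨N, hN, h⟩ := hA a
  exact ⟨_, ⟨N, hN, rfl⟩, fun s hs => h _ hs⟩

theorem res_mem_Z1 {x : L.G → M} (hx : x ∈ L.Z1 M) :
    (fun h : (L.sub H).G => x (h : H).1) ∈ (L.sub H).Z1 M := by
  obtain ⟨⟨N, hN, hxN⟩, hc⟩ := hx
  exact ⟨⟨_, ⟨N, hN, rfl⟩, fun g s hs => hxN _ _ hs⟩, fun g h => hc _ _⟩

theorem res_mem_SymZ {κ : M → M → C} (hκ : κ ∈ L.SymZ M C) : κ ∈ (L.sub H).SymZ M C :=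
  ⟨fun h a b => hκ.1 (h : H).1 a b, hκ.2.1, hκ.2.2⟩

instance subTwAction (κ : (L.sub H).SymZ M C) : DistribMulAction H (Tw κ) :=
  Tw.instDistribMulActionG (L := L.sub H) (κ := κ)

variable [Finite M]

/-- The projection formula for classes. -/
theorem cup_corSym (hH : L.IsOpen H) (hM : L.Smooth M) (x : L.Z1 M) (κ : (L.sub H).SymZ M C) :
    L.IsB2 C (L.cup M C x.1 (corSym (H := H) κ.1) -
      L.cor₂ C H ((L.sub H).cup M C (fun h => x.1 (h : H).1) κ.1)) := by
  have := hH.finite_quotient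
  have := Fintype.ofFinite (L.G ⧸ H)
  let e : M → Tw κ := Tw.sec κ
  let Dg : L.G → L.G ⧸ H → M := fun g s => (g • s).out⁻¹ • x.1 g
  let w : L.G ⧸ H → M := fun s => x.1 s.out⁻¹
  have hproj : ∀ g s, Dg g s + w (g • s) =
      x.1 (L.eta H g s : L.G) + (L.eta H g s : L.G) • w s := fun g s => by
    show _ + x.1 _ = _
    rw [← x.2.2 (L.eta H g s : L.G), show (L.eta H g s : L.G) * s.out⁻¹ = (g • s).out⁻¹ * g by
      rw [L.coe_eta]; group, x.2.2, add_comm]
  have hφ : ∀ g s, ∃ c, Tw.incl κ c = e (Dg g s) + e (w (g • s)) -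
      e (x.1 (L.eta H g s : L.G)) - (L.eta H g s) • e (w s) := fun g s =>
    (Tw.isExtension κ).mem_range (by
      simp only [map_sub, map_add]
      show Dg g s + w (g • s) - x.1 _ - (L.eta H g s : L.G) • w s = 0
      rw [hproj, add_sub_cancel_left, sub_self])
  choose φ hφ using hφ
  refine ⟨fun g => ∑ s : L.G ⧸ H, (g • s).out • φ g s, ?_, funext fun ⟨g, g'⟩ => ?_⟩
  · obtain ⟨N, hN, hxN⟩ := x.2.1
    obtain ⟨N₀, hN₀, hfix⟩ := hM.exists_level
    obtain ⟨N', hN', h1, h2⟩ := exists_level_le hH (L.inf N N₀ hN hN₀)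
    refine ⟨N', hN', fun g n hn => Finset.sum_congr rfl fun s _ => ?_⟩
    obtain ⟨he, n', hn', heta⟩ := L.eta_mul_level hN' h2 g hn s
    rw [he]
    refine congrArg _ (Tw.incl_injective κ ?_)
    rw [hφ, hφ, he, heta]
    have e1 : x.1 ((L.eta H g s * n' : H) : L.G) = x.1 (L.eta H g s : L.G) :=
      hxN _ _ (h1 hn').1
    have e2 : n' • e (w s) = e (w s) :=
      ((Tw.sec_smul κ n' (w s)).symm).trans (congrArg e (hfix _ (h1 hn').2 (w s)))
    rw [e1, mul_smul, e2]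
    congr 4
    show ((g * n) • s).out⁻¹ • x.1 (g * n) = _
    rw [he, hxN _ _ (h1 hn).1]
  · rw [L.d₁_apply, Pi.sub_apply, cor₂_apply]
    show g • (∑ s : L.G ⧸ H, (g' • s).out • φ g' s) - ∑ s : L.G ⧸ H, ((g * g') • s).out • φ (g * g') s +
        ∑ s : L.G ⧸ H, (g • s).out • φ g s =
      corSym κ.1 (x.1 g) (g • x.1 g') - _
    rw [corSym_apply, ← Equiv.sum_comp (MulAction.toPerm (g * g')) (fun t : L.G ⧸ H =>
        t.out • κ.1 (t.out⁻¹ • x.1 g) (t.out⁻¹ • g • x.1 g')),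
      ← Equiv.sum_comp (MulAction.toPerm g') (fun s : L.G ⧸ H => (g • s).out • φ g s),
      Finset.smul_sum, ← Finset.sum_sub_distrib, ← Finset.sum_add_distrib,
      ← Finset.sum_sub_distrib]
    refine Finset.sum_congr rfl fun s _ => ?_
    simp only [MulAction.toPerm_apply, mul_smul g g' s]
    rw [← mul_smul g (g' • s).out, ← L.out_mul_eta H g (g' • s), mul_smul (g • g' • s).out, ← smul_sub,
      ← smul_add, ← smul_sub]
    refine congrArg _ (Tw.incl_injective κ ?_)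
    have hD' : (g • g' • s).out⁻¹ • g • x.1 g' =
        (L.eta H g (g' • s) : L.G) • Dg g' s := by
      show _ = _ • (g' • s).out⁻¹ • x.1 g'
      rw [← mul_smul _ g (x.1 g'), ← mul_smul _ (g' • s).out⁻¹ (x.1 g'), L.coe_eta]
      congr 1
      group
    have hD : Dg (g * g') s =
        Dg g (g' • s) + (L.eta H g (g' • s) : L.G) • Dg g' s := by
      show ((g * g') • s).out⁻¹ • x.1 (g * g') = _
      rw [x.2.2, smul_add, mul_smul g g' s, hD']
    rw [map_add, map_sub, map_sub,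
      show Tw.incl κ ((L.eta H g (g' • s) : L.G) • φ g' s) =
        (L.eta H g (g' • s)) • Tw.incl κ (φ g' s) from Tw.incl_smul κ (L.eta H g (g' • s)) _,
      hφ, hφ, hφ, hD']
    have hsum := Tw.sec_add κ (Dg g (g' • s)) ((L.eta H g (g' • s) : L.G) • Dg g' s)
    have hcup := cup_eq_lift (L := L.sub H) (Tw.sec_smul κ) (Tw.sec_add κ)
      (res_mem_Z1 x.2).2 (L.eta H g (g' • s)) (L.eta H g' s)
    have hsec := Tw.sec_smul κ (L.eta H g (g' • s)) (Dg g' s)
    rw [hcup, mul_smul g g' s, L.eta_mul, hD, mul_smul]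
    simp only [smul_sub, smul_add]
    show _ = Tw.incl κ (κ.1 (Dg g (g' • s)) _) - _
    rw [← sub_eq_iff_eq_add'.mpr hsum]
    show _ = Tw.sec κ _ + Tw.sec κ (L.eta H g (g' • s) • Dg g' s) - _ - _
    rw [hsec]
    simp only [e]
    abel

/-- The projection formula for extensions. -/
theorem cup_cor₁ (hH : L.IsOpen H) (hM : L.Smooth M) (hC : L.Smooth C) (x : (L.sub H).Z1 M)
    (κ : L.SymZ M C) (y : L.Z1 M) (hy : y.1 = cor₁ H x.1) :
    L.IsB2 C (L.cup M C y.1 κ.1 - L.cor₂ C H ((L.sub H).cup M C x.1 κ.1)) := by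
  have := hH.finite_quotient
  have := Fintype.ofFinite (L.G ⧸ H)
  refine (Tw.isExtension κ).isB2_sub (l := fun g => Tw.sec κ (y.1 g))
    (l' := cor₁ H (fun h : H => Tw.sec κ (x.1 h))) (y.2.1.comp (Tw.sec κ))
    (const₁_cor₁ hH (x.2.1.comp (Tw.sec κ))) (fun g => ?_)
    (fun g g' => cup_eq_lift (Tw.sec_smul κ) (Tw.sec_add κ) y.2.2 g g') fun g g' => ?_
  · rw [Tw.proj_sec, hy, cor₁_apply, cor₁_apply, map_sum]
    exact Finset.sum_congr rfl fun s _ => rfl
  · rw [cor₂_apply, cor₁_apply, cor₁_apply, cor₁_apply, Finset.smul_sum,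
      ← Equiv.sum_comp (MulAction.toPerm g')
        (fun s : L.G ⧸ H => (g • s).out • Tw.sec κ (x.1 (L.eta H g s))),
      ← Finset.sum_sub_distrib, ← Finset.sum_add_distrib, map_sum]
    refine Finset.sum_congr rfl fun s _ => ?_
    simp only [MulAction.toPerm_apply, mul_smul g g' s]
    rw [Tw.incl_smul, ← mul_smul g (g' • s).out, ← L.out_mul_eta H g (g' • s), mul_smul, ← smul_sub, ← smul_add,
      L.eta_mul]
    exact congrArg _ (cup_eq_lift (L := L.sub H) (e := Tw.sec κ)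
      (fun h m => Tw.sec_smul κ (h : H).1 m) (Tw.sec_add κ) x.2.2 _ _)

theorem cor₁_mem_Z1 (hH : L.IsOpen H) (x : (L.sub H).Z1 M) : cor₁ H x.1 ∈ L.Z1 M := by
  have := hH.finite_quotient
  have := Fintype.ofFinite (L.G ⧸ H)
  refine ⟨const₁_cor₁ hH x.2.1, fun g g' => ?_⟩
  rw [cor₁_apply, cor₁_apply, cor₁_apply, Finset.smul_sum,
    ← Equiv.sum_comp (MulAction.toPerm g') (fun s : L.G ⧸ H => (g • s).out • x.1 (L.eta H g s)),
    ← Finset.sum_add_distrib]
  refine Finset.sum_congr rfl fun s _ => ?_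
  simp only [MulAction.toPerm_apply, mul_smul g g' s]
  rw [← mul_smul g (g' • s).out, ← L.out_mul_eta H g (g' • s), mul_smul, ← smul_add, L.eta_mul]
  exact congrArg _ (x.2.2 _ _)

end Fermat.Agent.GD
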