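import Fermat.Agent.GD.Defs

/-!
# Class modules
-/

set_option autoImplicit false

noncomputable section

namespace Fermat.Agent.GD

universe u v w

variable (L : LevelGroup.{u}) (C : Type w) [AddCommGroup C] [DistribMulAction L.G C]

/-- A module with no `p`-torsion first cohomology and an invariant map, injective on `p`-torsion
classes. -/
structure PreClassModule (p : ℕ) where
  smooth : L.Smooth C
  inv : L.Z2 C →+ AddCircle (1 : ℚ)
  inv_d₁ : ∀ z : L.Z2 C, L.IsB2 C (z : L.G × L.G → C) → inv z = 0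
  inv_inj : ∀ z : L.Z2 C, L.IsB2 C (p • (z : L.G × L.G → C)) → inv z = 0 →
    L.IsB2 C (z : L.G × L.G → C)
  h1 : ∀ (H : Subgroup L.G), L.IsOpen H → ∀ f ∈ (L.sub H).Z1 C,
    (p • f) ∈ (L.sub H).B1 C → f ∈ (L.sub H).B1 C

/-- A class module at `p`: the invariant map is injective on `p`-torsion classes of all open
subgroups, through corestriction. -/
structure ClassModule (p : ℕ) extends PreClassModule L C p where
  inv_cor_inj : ∀ (H : Subgroup L.G), L.IsOpen H → ∀ z : H × H → C, z ∈ (L.sub H).Z2 C →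
    (L.sub H).IsB2 C (p • z) → ∀ hz : L.cor₂ C H z ∈ L.Z2 C, inv ⟨_, hz⟩ = 0 →
    (L.sub H).IsB2 C z

end Fermat.Agent.GD
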