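import Fermat.Agent.GD.Engine.Cor

/-!
# Duality and its descent along a subgroup of index prime to `p`
-/

set_option autoImplicit false

noncomputable section

namespace Fermat.Agent.GD

universe u v w

variable (L : LevelGroup.{u}) {C : Type w} [AddCommGroup C] [DistribMulAction L.G C] {p : ℕ}
  (D : PreClassModule L C p)
variable (M : Type v) [AddCommGroup M] [DistribMulAction L.G M]

/-- The cup product is a cocycle. -/
theorem LevelGroup.cup_mem_Z2 [Finite M] (hM : L.Smooth M) {x : L.G → M} (hx : x ∈ L.Z1 M)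
    {κ : M → M → C} (hκ : κ ∈ L.SymZ M C) : L.cup M C x κ ∈ L.Z2 C :=
  (cupZ2 hM ⟨x, hx⟩ ⟨κ, hκ⟩).2

/-- The pairing of a cocycle and an extension. -/
def PreClassModule.pair [Finite M] (hM : L.Smooth M) (x : L.Z1 M) (κ : L.SymZ M C) :
    AddCircle (1 : ℚ) :=
  D.inv ⟨L.cup M C x κ, L.cup_mem_Z2 M hM x.2 κ.2⟩

variable {L M} in
theorem PreClassModule.pair_eq [Finite M] (hM : L.Smooth M) (x : L.Z1 M) (κ : L.SymZ M C) :
    D.pair L M hM x κ = D.pairHom hM x κ := rfl

/-- Duality for one module. -/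
structure PreClassModule.Duality [Finite M] (hM : L.Smooth M) : Prop where
  left : ∀ x : L.Z1 M, (∀ κ, D.pair L M hM x κ = 0) → (x : L.G → M) ∈ L.B1 M
  right : ∀ κ : L.SymZ M C, (∀ x, D.pair L M hM x κ = 0) → (κ : M → M → C) ∈ L.SymB M C

/-- The base hypotheses, at the trivial module with `p` elements. -/
structure PreClassModule.Base [Fact p.Prime] [DistribMulAction L.G (ZMod p)] : Prop where
  trivial : ∀ (g : L.G) (m : ZMod p), g • m = m
  finite_hom : Finite (L.HomC (ZMod p) C)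
  duality : ∀ hM : L.Smooth (ZMod p), D.Duality L (ZMod p) hM
  detect : ∀ c : L.Z2 (ZMod p), (∀ φ : ZMod p →+ C, φ ∈ L.HomC (ZMod p) C →
      ∀ hz : φ ∘ (c : L.G × L.G → ZMod p) ∈ L.Z2 C, D.inv ⟨_, hz⟩ = 0) →
    L.IsB2 (ZMod p) (c : L.G × L.G → ZMod p)

variable {L M}

theorem mem_B1_of_index {H : Subgroup L.G} (hH : L.IsOpen H) (hidx : H.index.Coprime p)
    (hp : ∀ m : M, p • m = 0) {x : L.G → M} (hx : L.IsCocycle₁ M x)
    (hres : (fun h : (L.sub H).G => x (h : H).1) ∈ (L.sub H).B1 M) : x ∈ L.B1 M := by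
  have := hH.finite_quotient
  have := Fintype.ofFinite (L.G ⧸ H)
  obtain ⟨m, hm⟩ := hres
  let x' : L.G → M := fun g => x g - (g • m - m)
  have hx'0 : ∀ h : H, x' h = 0 := fun h => sub_eq_zero.mpr (congrFun hm h).symm
  have hx'c : ∀ g g', x' (g * g') = x' g + g • x' g' := fun g g' => by
    simp only [x', hx g g', mul_smul, smul_sub]; abel
  have hout : ∀ g (s : L.G ⧸ H), x' (g * s.out) = x' (g • s).out := fun g s => by
    rw [← L.out_mul_eta H g s, hx'c, hx'0, smul_zero, add_zero]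
  set m' : M := ∑ s : L.G ⧸ H, x' s.out
  have key : ∀ g, H.index • x' g = m' - g • m' := fun g => by
    have h1 : g • m' = ∑ s : L.G ⧸ H, (x' (g • s).out - x' g) := by
      rw [Finset.smul_sum]
      exact Finset.sum_congr rfl fun s _ => by rw [← hout, hx'c, add_sub_cancel_left]
    rw [h1, Finset.sum_sub_distrib,
      show ∑ s : L.G ⧸ H, x' (g • s).out = m' from
        Equiv.sum_comp (MulAction.toPerm g) (fun s : L.G ⧸ H => x' s.out),
      Finset.sum_const, Finset.card_univ, sub_sub_cancel, H.index_eq_card,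
      Nat.card_eq_fintype_card]
  obtain ⟨a, b, hab⟩ := Nat.isCoprime_iff_coprime.mpr hidx
  refine ⟨m - a • m', funext fun g => ?_⟩
  show g • (m - a • m') - (m - a • m') = x g
  have h1 : x' g = a • (H.index • x' g) + b • (p • x' g) := by
    rw [← natCast_zsmul, ← natCast_zsmul (x' g) p, smul_smul, smul_smul, ← add_smul, hab, one_smul]
  rw [key, hp, smul_zero, add_zero, smul_sub a m'] at h1
  rw [show x g = x' g + (g • m - m) from (sub_add_cancel _ _).symm, h1, smul_sub g,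
    smul_comm g a m']
  abel

theorem nsmul_mem_symB (hp : ∀ m : M, p • m = 0) {κ : M → M → C} (hκ : κ ∈ L.SymZ M C) :
    p • κ ∈ L.SymB M C := by
  let κ' : L.SymZ M C := ⟨κ, hκ⟩
  have hP : ∀ a, ∃ c, Tw.incl κ' c = p • Tw.sec κ' a := fun a =>
    (Tw.isExtension κ').mem_range (by rw [map_nsmul, Tw.proj_sec, hp])
  choose P hP using hP
  refine ⟨P, fun g a => Tw.incl_injective κ' ?_,
    funext fun a => funext fun b => Tw.incl_injective κ' ?_⟩
  · rw [Tw.incl_smul, hP, hP, Tw.sec_smul, smul_comm]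
  · show Tw.incl κ' (P a + P b - P (a + b)) = Tw.incl κ' (p • κ a b)
    rw [map_sub, map_add, hP, hP, hP, map_nsmul, ← smul_add, ← smul_sub, Tw.sec_add,
      add_sub_cancel_left]

theorem mem_symB_of_index {H : Subgroup L.G} (hH : L.IsOpen H) (hidx : H.index.Coprime p)
    (hp : ∀ m : M, p • m = 0) {κ : M → M → C} (hκ : κ ∈ L.SymZ M C)
    (hres : κ ∈ (L.sub H).SymB M C) : κ ∈ L.SymB M C := by
  have := hH.finite_quotient
  have := Fintype.ofFinite (L.G ⧸ H)
  obtain ⟨h, hh, hκh⟩ := hres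
  have key : H.index • κ ∈ L.SymB M C := by
    refine ⟨fun a => ∑ s : L.G ⧸ H, s.out • h (s.out⁻¹ • a), fun g a => ?_,
      funext fun a => funext fun b => ?_⟩
    · rw [Finset.smul_sum]
      refine (Equiv.sum_comp (MulAction.toPerm g)
        (fun s : L.G ⧸ H => s.out • h (s.out⁻¹ • g • a))).symm.trans
        (Finset.sum_congr rfl fun s _ => ?_)
      show (g • s).out • h ((g • s).out⁻¹ • g • a) = g • s.out • h (s.out⁻¹ • a)
      rw [← mul_smul _ g a,
        show (g • s).out⁻¹ * g = (L.eta H g s : L.G) * s.out⁻¹ by rw [L.coe_eta]; group, mul_smul,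
        show h ((L.eta H g s : L.G) • s.out⁻¹ • a) = (L.eta H g s : L.G) • h (s.out⁻¹ • a) from
          hh (L.eta H g s) _, ← mul_smul, L.out_mul_eta, mul_smul]
    · show _ + _ - _ = H.index • κ a b
      rw [← Finset.sum_add_distrib, ← Finset.sum_sub_distrib, H.index_eq_card,
        Nat.card_eq_fintype_card, ← Finset.card_univ, ← Finset.sum_const]
      refine Finset.sum_congr rfl fun s _ => ?_
      rw [← smul_add, ← smul_sub, smul_add s.out⁻¹ a b]
      show s.out • (LevelGroup.dSym M C h) (s.out⁻¹ • a) (s.out⁻¹ • b) = _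
      rw [hκh, hκ.1, smul_inv_smul]
  obtain ⟨a, b, hab⟩ := Nat.isCoprime_iff_coprime.mpr hidx
  rw [show κ = a • (H.index • κ) + b • (p • κ) by
    rw [← natCast_zsmul, ← natCast_zsmul κ p, smul_smul, smul_smul, ← add_smul, hab, one_smul]]
  exact add_mem (zsmul_mem key a) (zsmul_mem (nsmul_mem_symB hp hκ) b)

/-- Descent of duality along a subgroup of index prime to `p`. -/
theorem PreClassModule.duality_descent (H : Subgroup L.G) (hH : L.IsOpen H)
    (hidx : H.index.Coprime p) (DH : PreClassModule (L.sub H) C p)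
    (hcor : ∀ (z : (L.sub H).Z2 C) (hz : L.cor₂ C H z.1 ∈ L.Z2 C),
      DH.inv z = D.inv ⟨_, hz⟩)
    [Finite M] (hp : ∀ m : M, p • m = 0) (hM : L.Smooth M) (hMH : (L.sub H).Smooth M)
    (hd : DH.Duality (L.sub H) M hMH) : D.Duality L M hM where
  left x hx := by
    refine mem_B1_of_index hH hidx hp x.2.2 (hd.left ⟨_, res_mem_Z1 x.2⟩ fun κ => ?_)
    have h := hx ⟨_, corSym_mem hH κ.2⟩
    refine (hcor (cupZ2 hMH ⟨_, res_mem_Z1 x.2⟩ κ)
      (cor₂_mem_Z2 hH D.smooth (cupZ2 hMH ⟨_, res_mem_Z1 x.2⟩ κ).2)).trans ?_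
    rw [← h]
    exact (D.inv_congr _ _ (cup_corSym hH hM x κ)).symm
  right κ hκ := by
    refine mem_symB_of_index hH hidx hp κ.2 (hd.right ⟨κ.1, res_mem_SymZ κ.2⟩ fun x => ?_)
    have h := hκ ⟨_, cor₁_mem_Z1 hH x⟩
    refine (hcor (cupZ2 hMH x ⟨κ.1, res_mem_SymZ κ.2⟩)
      (cor₂_mem_Z2 hH D.smooth (cupZ2 hMH x ⟨κ.1, res_mem_SymZ κ.2⟩).2)).trans ?_
    rw [← h]
    exact (D.inv_congr _ _ (cup_cor₁ hH hM D.smooth x κ ⟨_, cor₁_mem_Z1 hH x⟩ rfl)).symm

/-- The class module of an open subgroup. -/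
def ClassModule.sub (D : ClassModule L C p) (H : Subgroup L.G) (hH : L.IsOpen H) :
    PreClassModule (L.sub H) C p where
  smooth := D.smooth.sub
  inv :=
    AddMonoidHom.mk' (fun z => D.inv ⟨L.cor₂ C H z.1, cor₂_mem_Z2 hH D.smooth z.2⟩) fun z z' => by
      rw [← map_add]
      congr 1
      refine Subtype.ext ?_
      have h : L.cor₂ C H ((z + z').1 - z'.1) = L.cor₂ C H (z + z').1 - L.cor₂ C H z'.1 :=
        cor₂_sub hH _ _
      rw [show (z + z').1 - z'.1 = z.1 from add_sub_cancel_right _ _] at h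
      show _ = L.cor₂ C H z.1 + L.cor₂ C H z'.1
      rw [h, sub_add_cancel]
  inv_d₁ z hz := D.inv_d₁ _ (isB2_cor₂ hH hz)
  inv_inj z hpz hz := D.inv_cor_inj H hH z.1 z.2 hpz _ hz
  h1 := by
    rintro H' ⟨_, ⟨N, hN, rfl⟩, hle⟩ f hf hpf
    obtain ⟨N₁, hN₁, h1, h2⟩ := exists_level_le hH hN
    let K : Subgroup L.G := H'.map H.subtype
    have hK : L.IsOpen K := ⟨N₁, hN₁, fun n hn =>
      Subgroup.mem_map.mpr ⟨⟨n, h2 hn⟩, hle (h1 hn), rfl⟩⟩
    let e : H' ≃* K := Subgroup.equivMapOfInjective H' H.subtype Subtype.val_injective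
    have hco : ∀ k : K, ((e.symm k : H') : H).1 = (k : L.G) := fun k => by
      conv_rhs => rw [← e.apply_symm_apply k]
      rfl
    obtain ⟨_, ⟨_, ⟨N', hN', rfl⟩, rfl⟩, hfN⟩ := hf.1
    obtain ⟨m, hm⟩ := hpf
    obtain ⟨c, hc⟩ := D.h1 K hK (fun k => f (e.symm k))
      ⟨⟨_, ⟨N', hN', rfl⟩, fun g s hs => by
        show f (e.symm (g * s)) = f (e.symm g)
        rw [map_mul]
        exact hfN _ _ (by show ((e.symm s : H') : H).1 ∈ N'; rw [hco]; exact hs)⟩,
        fun g g' => by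
          show f (e.symm (g * g')) = f (e.symm g) + (g : K).1 • f (e.symm g')
          rw [map_mul, hf.2, ← hco g]
          rfl⟩
      ⟨m, funext fun k => by
        show (k : K).1 • m - m = p • f (e.symm k)
        rw [← hco k]
        exact congrFun hm _⟩
    refine ⟨c, funext fun k => ?_⟩
    have := congrFun hc (e k)
    simpa [e] using! this

theorem ClassModule.sub_inv (D : ClassModule L C p) (H : Subgroup L.G) (hH : L.IsOpen H)
    (z : (L.sub H).Z2 C) (hz : L.cor₂ C H z.1 ∈ L.Z2 C) :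
    (D.sub H hH).inv z = D.inv ⟨_, hz⟩ := rfl

end Fermat.Agent.GD
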