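import Fermat.Agent.GD.Engine.Core

/-!
# Extensions by a class module and their symmetric cocycles
-/

set_option autoImplicit false

noncomputable section

namespace Fermat.Agent.GD

universe u v w x

variable {L : LevelGroup.{u}}

theorem LevelGroup.Smooth.isOpen_stabilizer {M : Type v} [AddCommGroup M]
    [DistribMulAction L.G M] (hM : L.Smooth M) (m : M) :
    L.IsOpen (MulAction.stabilizer L.G m) := by
  obtain ⟨N, hN, h⟩ := hM m
  exact ⟨N, hN, fun s hs => MulAction.mem_stabilizer_iff.mpr (h s hs)⟩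

/-- A finite smooth module is fixed by one level. -/
theorem LevelGroup.Smooth.exists_level {M : Type v} [AddCommGroup M] [DistribMulAction L.G M]
    [Finite M] (hM : L.Smooth M) : ∃ N, L.IsLevel N ∧ ∀ s ∈ N, ∀ m : M, s • m = m := by
  have := Fintype.ofFinite M
  classical
  suffices h : ∀ S : Finset M, ∃ N, L.IsLevel N ∧ ∀ s ∈ N, ∀ m ∈ S, s • m = m by
    obtain ⟨N, hN, h'⟩ := h Finset.univ
    exact ⟨N, hN, fun s hs m => h' s hs m (Finset.mem_univ m)⟩
  intro S
  induction S using Finset.induction with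
  | empty => exact ⟨_, L.exists_level.choose_spec, by simp⟩
  | insert m S _ ih =>
    obtain ⟨N, hN, h'⟩ := ih
    obtain ⟨N₀, hN₀, h₀⟩ := hM m
    refine ⟨N₀ ⊓ N, L.inf _ _ hN₀ hN, fun s hs m' hm' => ?_⟩
    rcases Finset.mem_insert.mp hm' with rfl | hm'
    · exact h₀ s hs.1
    · exact h' s hs.2 m' hm'

theorem LevelGroup.Const₁.comp {X Y : Type*} {f : L.G → X} (hf : L.Const₁ f) (φ : X → Y) :
    L.Const₁ (φ ∘ f) := by
  obtain ⟨N, hN, h⟩ := hf
  exact ⟨N, hN, fun g s hs => congrArg φ (h g s hs)⟩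

variable {M : Type v} [AddCommGroup M] [DistribMulAction L.G M]
variable {C : Type w} [AddCommGroup C] [DistribMulAction L.G C]

theorem LevelGroup.symZ_zero_right {κ : M → M → C} (hκ : κ ∈ L.SymZ M C) (a : M) :
    κ a 0 = κ 0 0 := by
  have := hκ.2.2 a 0 0
  rw [add_zero, add_zero] at this
  exact add_right_cancel this

theorem LevelGroup.smul_symZ_zero {κ : M → M → C} (hκ : κ ∈ L.SymZ M C) (g : L.G) :
    g • κ 0 0 = κ 0 0 := by rw [← hκ.1, smul_zero]

/-- The extension given by a symmetric cocycle. -/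
@[ext]
structure Tw (κ : L.SymZ M C) where
  c : C
  a : M

namespace Tw

variable {κ : L.SymZ M C}

instance : Add (Tw κ) := ⟨fun e e' => ⟨e.c + e'.c + κ.1 e.a e'.a, e.a + e'.a⟩⟩
instance : Zero (Tw κ) := ⟨⟨-κ.1 0 0, 0⟩⟩
instance : Neg (Tw κ) := ⟨fun e => ⟨-e.c - κ.1 e.a (-e.a) - κ.1 0 0, -e.a⟩⟩

theorem add_c (e e' : Tw κ) : (e + e').c = e.c + e'.c + κ.1 e.a e'.a := rfl
theorem add_a (e e' : Tw κ) : (e + e').a = e.a + e'.a := rfl
theorem zero_c : (0 : Tw κ).c = -κ.1 0 0 := rfl
theorem zero_a : (0 : Tw κ).a = 0 := rfl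
theorem neg_c (e : Tw κ) : (-e).c = -e.c - κ.1 e.a (-e.a) - κ.1 0 0 := rfl
theorem neg_a (e : Tw κ) : (-e).a = -e.a := rfl

instance : AddCommGroup (Tw κ) where
  add_assoc e e' e'' := by
    ext
    · simp only [add_c, add_a]
      linear_combination (norm := abel) κ.2.2.2 e.a e'.a e''.a
    · simp only [add_a, add_assoc]
  zero_add e := by
    ext
    · simp only [add_c, zero_c, zero_a, κ.2.2.1 0 e.a, L.symZ_zero_right κ.2]; abel
    · simp only [add_a, zero_a, zero_add]
  add_zero e := by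
    ext
    · simp only [add_c, zero_c, zero_a, L.symZ_zero_right κ.2]; abel
    · simp only [add_a, zero_a, add_zero]
  neg_add_cancel e := by
    ext
    · simp only [add_c, neg_c, neg_a, zero_c, κ.2.2.1 (-e.a) e.a]; abel
    · simp only [add_a, neg_a, zero_a, neg_add_cancel]
  add_comm e e' := by
    ext
    · simp only [add_c, κ.2.2.1 e.a e'.a]; abel
    · simp only [add_a, add_comm]
  nsmul := nsmulRec
  zsmul := zsmulRec

instance : DistribMulAction L.G (Tw κ) where
  smul g e := ⟨g • e.c, g • e.a⟩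
  one_smul e := Tw.ext (one_smul _ _) (one_smul _ _)
  mul_smul g h e := Tw.ext (mul_smul _ _ _) (mul_smul _ _ _)
  smul_zero g := Tw.ext (by
    show g • -κ.1 0 0 = -κ.1 0 0
    rw [smul_neg, L.smul_symZ_zero κ.2]) (smul_zero g)
  smul_add g e e' := Tw.ext (by
    show g • (e.c + e'.c + κ.1 e.a e'.a) = g • e.c + g • e'.c + κ.1 (g • e.a) (g • e'.a)
    rw [smul_add, smul_add, κ.2.1]) (smul_add g e.a e'.a)

variable (κ)

/-- The inclusion of the class module. -/
def incl : C →+ Tw κ where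
  toFun c := ⟨c - κ.1 0 0, 0⟩
  map_zero' := Tw.ext (zero_sub _) rfl
  map_add' c c' := Tw.ext (by simp only [add_c]; abel) (zero_add (0 : M)).symm

/-- The projection. -/
def proj : Tw κ →+ M where
  toFun e := e.a
  map_zero' := rfl
  map_add' _ _ := rfl

/-- The tautological section. -/
def sec (a : M) : Tw κ := ⟨0, a⟩

theorem incl_smul (g : L.G) (c : C) : incl κ (g • c) = g • incl κ c :=
  Tw.ext (by
    show g • c - κ.1 0 0 = g • (c - κ.1 0 0)
    rw [smul_sub, L.smul_symZ_zero κ.2]) (smul_zero g).symm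

theorem incl_injective : Function.Injective (incl κ) := fun c c' h => by
  have := congrArg Tw.c h
  exact sub_left_injective (b := κ.1 0 0) this

theorem proj_smul (g : L.G) (e : Tw κ) : proj κ (g • e) = g • proj κ e := rfl

theorem proj_sec (a : M) : proj κ (sec κ a) = a := rfl

theorem sec_smul (g : L.G) (a : M) : sec κ (g • a) = g • sec κ a :=
  Tw.ext (smul_zero g).symm rfl

theorem exact : Function.Exact (incl κ) (proj κ) := fun e => by
  refine ⟨fun h => ⟨e.c + κ.1 0 0, Tw.ext (add_sub_cancel_right _ _) ?_⟩, ?_⟩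
  · exact (h : e.a = 0).symm
  · rintro ⟨c, rfl⟩; rfl

theorem sec_add (a b : M) : sec κ a + sec κ b = sec κ (a + b) + incl κ (κ.1 a b) :=
  Tw.ext (by
    show (0 : C) + 0 + κ.1 a b = 0 + (κ.1 a b - κ.1 0 0) + κ.1 (a + b) 0
    rw [L.symZ_zero_right κ.2 (a + b)]; abel) (add_zero (a + b)).symm

theorem smooth (hM : L.Smooth M) (hC : L.Smooth C) : L.Smooth (Tw κ) := fun e => by
  obtain ⟨N, hN, h⟩ := hM e.a
  obtain ⟨N', hN', h'⟩ := hC e.c
  exact ⟨N ⊓ N', L.inf N N' hN hN', fun s hs => Tw.ext (h' s hs.2) (h s hs.1)⟩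

end Tw

variable (L) in
/-- An extension of `M` by `C`. -/
structure IsExtension {E : Type x} [AddCommGroup E] [DistribMulAction L.G E] (j : C →+ E)
    (q : E →+ M) : Prop where
  inj : Function.Injective j
  surj : Function.Surjective q
  exact : Function.Exact j q
  j_smul : ∀ (g : L.G) c, j (g • c) = g • j c
  q_smul : ∀ (g : L.G) e, q (g • e) = g • q e

theorem Tw.isExtension (κ : L.SymZ M C) : IsExtension L (Tw.incl κ) (Tw.proj κ) :=
  ⟨Tw.incl_injective κ, fun a => ⟨Tw.sec κ a, rfl⟩, Tw.exact κ, Tw.incl_smul κ, Tw.proj_smul κ⟩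

variable {E : Type x} [AddCommGroup E] [DistribMulAction L.G E] {j : C →+ E} {q : E →+ M}

theorem IsExtension.mem_range (h : IsExtension L j q) {e : E} (he : q e = 0) : ∃ c, j c = e :=
  (h.exact e).mp he

variable {p : ℕ}

/-- An element fixed by a subgroup lifts to an element fixed by it. -/
theorem IsExtension.exists_fixed (h : IsExtension L j q) (D : PreClassModule L C p)
    (hE : L.Smooth E) (hp : ∀ m : M, p • m = 0) (m : M) :
    ∃ e, q e = m ∧ ∀ g ∈ MulAction.stabilizer L.G m, g • e = e := by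
  obtain ⟨e₀, he₀⟩ := h.surj m
  obtain ⟨N, hN, hfix⟩ := hE e₀
  let H := MulAction.stabilizer L.G m
  have hH : L.IsOpen H := ⟨N, hN, fun s hs => by
    rw [MulAction.mem_stabilizer_iff, ← he₀, ← h.q_smul, hfix s hs]⟩
  have hf : ∀ g : (L.sub H).G, ∃ c, j c = (g : H).1 • e₀ - e₀ := fun g => h.mem_range (by
    rw [map_sub, h.q_smul, he₀, sub_eq_zero]; exact (g : H).2)
  choose f hf using hf
  have hf1 : f ∈ (L.sub H).Z1 C := by
    refine ⟨⟨_, ⟨N, hN, rfl⟩, fun g s hs => h.inj ((hf _).trans (Eq.trans ?_ (hf g).symm))⟩,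
      fun g g' => h.inj ((hf _).trans ?_)⟩
    · show ((g : H).1 * (s : H).1) • e₀ - e₀ = _
      rw [mul_smul, show (s : H).1 • e₀ = e₀ from hfix _ hs]
    · show ((g : H).1 * (g' : H).1) • e₀ - e₀ = j (f g + (g : H).1 • f g')
      rw [map_add, h.j_smul, hf, hf, smul_sub, mul_smul]
      abel
  obtain ⟨c, hc⟩ := h.mem_range (e := p • e₀) (by rw [map_nsmul, he₀, hp])
  have hpf : p • f ∈ (L.sub H).B1 C := ⟨c, funext fun g => h.inj (by
    show j ((g : H).1 • c - c) = j (p • f g)
    rw [map_sub, map_nsmul, h.j_smul, hc, hf, smul_sub p, smul_comm])⟩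
  obtain ⟨c', hc'⟩ := D.h1 H hH f hf1 hpf
  refine ⟨e₀ - j c', by rw [map_sub, he₀, h.exact.apply_apply_eq_zero, sub_zero], fun g hg => ?_⟩
  have h1 : j (g • c' - c') = g • e₀ - e₀ := (congrArg j (congrFun hc' ⟨g, hg⟩)).trans (hf ⟨g, hg⟩)
  rw [map_sub, h.j_smul] at h1
  rw [smul_sub]
  linear_combination (norm := abel) -h1

/-- Every extension has an equivariant section. -/
theorem IsExtension.exists_section (h : IsExtension L j q) (D : PreClassModule L C p)
    (hE : L.Smooth E) (hp : ∀ m : M, p • m = 0) :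
    ∃ e : M → E, (∀ m, q (e m) = m) ∧ ∀ (g : L.G) m, e (g • m) = g • e m := by
  choose e₀ he₀ hfix using h.exists_fixed D hE hp
  let r : M → M := fun m => (Quotient.mk (MulAction.orbitRel L.G M) m).out
  have hr : ∀ m, ∃ g : L.G, g • r m = m := fun m =>
    MulAction.mem_orbit_symm.mp (Quotient.mk_out (s := MulAction.orbitRel L.G M) m)
  choose γ hγ using hr
  refine ⟨fun m => γ m • e₀ (r m), fun m => by rw [h.q_smul, he₀, hγ], fun g m => ?_⟩
  have hrr : r (g • m) = r m := congrArg Quotient.out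
    (Quotient.sound (s := MulAction.orbitRel L.G M) (MulAction.mem_orbit m g))
  show γ (g • m) • e₀ (r (g • m)) = g • γ m • e₀ (r m)
  have hst : (γ m)⁻¹ * g⁻¹ * γ (g • m) ∈ MulAction.stabilizer L.G (r m) := by
    have h1 := hγ (g • m)
    rw [hrr] at h1
    rw [MulAction.mem_stabilizer_iff, mul_smul, mul_smul, h1, inv_smul_smul]
    exact inv_smul_eq_iff.mpr (hγ m).symm
  have h2 := hfix (r m) _ hst
  rw [mul_smul, mul_smul, inv_smul_eq_iff, inv_smul_eq_iff] at h2
  rw [hrr, h2]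

/-- The cocycle of an equivariant section. -/
theorem IsExtension.exists_class (h : IsExtension L j q) (e : M → E) (he : ∀ m, q (e m) = m)
    (heG : ∀ (g : L.G) m, e (g • m) = g • e m) :
    ∃ κ ∈ L.SymZ M C, ∀ a b, e a + e b = e (a + b) + j (κ a b) := by
  have hk : ∀ a b, ∃ c, j c = e a + e b - e (a + b) := fun a b => h.mem_range (by
    simp only [map_sub, map_add, he]; abel)
  choose κ hκ using hk
  refine ⟨κ, ⟨fun g a b => h.inj ?_, fun a b => h.inj ?_, fun a b c => h.inj ?_⟩,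
    fun a b => by rw [hκ]; abel⟩
  · rw [h.j_smul, hκ, hκ, ← smul_add g a b, heG, heG, heG, smul_sub, smul_add]
  · rw [hκ, hκ, add_comm a b, add_comm (e a)]
  · simp only [map_add, hκ, add_assoc]
    abel

/-- Lifts of the same cochain to an extension have cohomologous differentials. -/
theorem IsExtension.isB2_sub (h : IsExtension L j q) {l l' : L.G → E} (hl : L.Const₁ l)
    (hl' : L.Const₁ l') (hq : ∀ g, q (l g) = q (l' g)) {z z' : L.G × L.G → C}
    (hz : ∀ g g', j (z (g, g')) = g • l g' - l (g * g') + l g)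
    (hz' : ∀ g g', j (z' (g, g')) = g • l' g' - l' (g * g') + l' g) : L.IsB2 C (z - z') := by
  have hb : ∀ g, ∃ c, j c = l g - l' g := fun g => h.mem_range (by rw [map_sub, hq, sub_self])
  choose b hb using hb
  obtain ⟨N, hN, hc⟩ := hl.comp₂ L hl' (fun a b => a - b)
  refine ⟨b, ⟨N, hN, fun g s hs => h.inj (by rw [hb, hb]; exact hc g s hs)⟩, ?_⟩
  funext y
  refine h.inj ?_
  show j (y.1 • b y.2 - b (y.1 * y.2) + b y.1) = j (z (y.1, y.2) - z' (y.1, y.2))
  simp only [map_add, map_sub, h.j_smul, hb, hz, hz', smul_sub]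
  abel

end Fermat.Agent.GD
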