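import Fermat.Agent.GD.Engine.Pairing

/-!
# Extensions modulo a stable subgroup
-/

set_option autoImplicit false

noncomputable section

namespace Fermat.Agent.GD

universe u v w x y

/-- The action on a quotient by a stable subgroup. -/
@[reducible]
def quotAction {G : Type*} [Group G] {E : Type*} [AddCommGroup E] [DistribMulAction G E]
    (S : AddSubgroup E) (hS : ∀ (g : G), ∀ e ∈ S, g • e ∈ S) : DistribMulAction G (E ⧸ S) where
  smul g := QuotientAddGroup.map S S (DistribSMul.toAddMonoidHom E g) fun e he => hS g e he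
  one_smul := by
    rintro ⟨e⟩
    exact congrArg QuotientAddGroup.mk (one_smul G e)
  mul_smul g h := by
    rintro ⟨e⟩
    exact congrArg QuotientAddGroup.mk (mul_smul g h e)
  smul_zero g := map_zero _
  smul_add g a b := map_add _ a b

variable {L : LevelGroup.{u}} {C : Type w} [AddCommGroup C] [DistribMulAction L.G C]
variable {M : Type v} [AddCommGroup M] [DistribMulAction L.G M]
variable {E : Type x} [AddCommGroup E] [DistribMulAction L.G E]

variable (L) in
/-- An extension of `M` by `C` modulo a stable subgroup `S` of `E`. -/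
structure IsExtMod (S : AddSubgroup E) (j : C →+ E) (q : E →+ M) : Prop where
  stable : ∀ (g : L.G), ∀ e ∈ S, g • e ∈ S
  inj : ∀ c, j c ∈ S → c = 0
  surj : Function.Surjective q
  q_S : ∀ e ∈ S, q e = 0
  q_j : ∀ c, q (j c) = 0
  ker : ∀ e, q e = 0 → ∃ c, e - j c ∈ S
  j_smul : ∀ (g : L.G) c, j (g • c) = g • j c
  q_smul : ∀ (g : L.G) e, q (g • e) = g • q e

variable {S : AddSubgroup E} {j : C →+ E} {q : E →+ M}

theorem IsExtMod.eq_of_mem (h : IsExtMod L S j q) {c c' : C} (hc : j c - j c' ∈ S) : c = c' :=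
  sub_eq_zero.mp (h.inj _ (by rwa [map_sub]))

/-- An equivariant section modulo `S` and its cocycle. -/
theorem IsExtMod.exists_class {p : ℕ} (h : IsExtMod L S j q) (D : PreClassModule L C p)
    (hE : L.Smooth E) (hp : ∀ m : M, p • m = 0) :
    ∃ κ ∈ L.SymZ M C, ∃ e : M → E, (∀ m, q (e m) = m) ∧
      (∀ (g : L.G) m, e (g • m) - g • e m ∈ S) ∧
      ∀ a b, e a + e b - (e (a + b) + j (κ a b)) ∈ S := by
  let := quotAction S h.stable
  let j' : C →+ E ⧸ S := (QuotientAddGroup.mk' S).comp j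
  let q' : E ⧸ S →+ M := QuotientAddGroup.lift S q h.q_S
  have hext : IsExtension L j' q' := by
    refine ⟨fun c c' hc => h.eq_of_mem (QuotientAddGroup.eq_iff_sub_mem.mp hc), fun m => ?_,
      fun e => ?_, fun g c => congrArg QuotientAddGroup.mk (h.j_smul g c), ?_⟩
    · obtain ⟨e, rfl⟩ := h.surj m
      exact ⟨e, rfl⟩
    · obtain ⟨e, rfl⟩ := QuotientAddGroup.mk_surjective e
      refine ⟨fun he => ?_, ?_⟩
      · obtain ⟨c, hc⟩ := h.ker e he
        exact ⟨c, (QuotientAddGroup.eq_iff_sub_mem.mpr hc).symm⟩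
      · rintro ⟨c, hc⟩
        rw [← hc]
        exact h.q_j c
    · rintro g ⟨e⟩
      exact h.q_smul g e
  have hE' : L.Smooth (E ⧸ S) := by
    rintro ⟨e⟩
    obtain ⟨N, hN, hfix⟩ := hE e
    exact ⟨N, hN, fun s hs => congrArg QuotientAddGroup.mk (hfix s hs)⟩
  obtain ⟨e, he, heG⟩ := hext.exists_section D hE' hp
  obtain ⟨κ, hκ, hadd⟩ := hext.exists_class e he heG
  choose e₀ he₀ using fun m => QuotientAddGroup.mk_surjective (e m)
  refine ⟨κ, hκ, e₀, fun m => ?_, fun g m => ?_, fun a b => ?_⟩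
  · have := he m
    rw [← he₀ m] at this
    exact this
  · rw [← QuotientAddGroup.eq_iff_sub_mem, he₀, heG, ← he₀]
    rfl
  · rw [← QuotientAddGroup.eq_iff_sub_mem, QuotientAddGroup.mk_add, QuotientAddGroup.mk_add, he₀,
      he₀, he₀]
    exact hadd a b

/-- Lifts of the same cochain modulo `S` have cohomologous differentials. -/
theorem IsExtMod.isB2_sub (h : IsExtMod L S j q) {l l' : L.G → E} (hl : L.Const₁ l)
    (hl' : L.Const₁ l') (hq : ∀ g, q (l g) = q (l' g)) {z z' : L.G × L.G → C}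
    (hz : ∀ g g', j (z (g, g')) - (g • l g' - l (g * g') + l g) ∈ S)
    (hz' : ∀ g g', j (z' (g, g')) - (g • l' g' - l' (g * g') + l' g) ∈ S) :
    L.IsB2 C (z - z') := by
  have hb : ∀ g, ∃ c, l g - l' g - j c ∈ S := fun g => h.ker _ (by rw [map_sub, hq, sub_self])
  choose b hb using hb
  obtain ⟨N, hN, hc⟩ := hl.comp₂ L hl' (fun a b => a - b)
  refine ⟨b, ⟨N, hN, fun g s hs => h.eq_of_mem ?_⟩, funext fun y => h.eq_of_mem ?_⟩
  · convert sub_mem (hb g) (hb (g * s)) using 1
    rw [show l (g * s) - l' (g * s) = l g - l' g from hc g s hs]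
    abel
  · show j (y.1 • b y.2 - b (y.1 * y.2) + b y.1) - j (z (y.1, y.2) - z' (y.1, y.2)) ∈ S
    convert sub_mem (sub_mem (hz' y.1 y.2) (hz y.1 y.2))
      (add_mem (sub_mem (h.stable y.1 _ (hb y.2)) (hb (y.1 * y.2))) (hb y.1)) using 1
    simp only [map_add, map_sub, h.j_smul, smul_sub]
    abel

/-- Two equivariant lifts modulo `S` of the same map have cohomologous cocycles. -/
theorem IsExtMod.symB_sub {A : Type y} [AddCommGroup A] [DistribMulAction L.G A]
    (h : IsExtMod L S j q) {e e' : A → E} (hq : ∀ a, q (e a) = q (e' a))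
    (heG : ∀ (g : L.G) a, e (g • a) - g • e a ∈ S)
    (he'G : ∀ (g : L.G) a, e' (g • a) - g • e' a ∈ S) {κ κ' : A → A → C}
    (hκ : ∀ a b, e a + e b - (e (a + b) + j (κ a b)) ∈ S)
    (hκ' : ∀ a b, e' a + e' b - (e' (a + b) + j (κ' a b)) ∈ S) :
    ∃ t ∈ L.equivariant A C, (∀ a, e a - e' a - j (t a) ∈ S) ∧
      LevelGroup.dSym A C t = κ - κ' := by
  have ht : ∀ a, ∃ c, e a - e' a - j c ∈ S := fun a => h.ker _ (by rw [map_sub, hq, sub_self])
  choose t ht using ht
  refine ⟨t, fun g a => h.eq_of_mem ?_, ht,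
    funext fun a => funext fun b => h.eq_of_mem ?_⟩
  · rw [h.j_smul]
    convert add_mem (sub_mem (h.stable g _ (ht a)) (ht (g • a)))
      (sub_mem (heG g a) (he'G g a)) using 1
    simp only [smul_sub]
    abel
  · show j (t a + t b - t (a + b)) - j (κ a b - κ' a b) ∈ S
    convert add_mem (sub_mem (ht (a + b)) (add_mem (ht a) (ht b)))
      (sub_mem (hκ a b) (hκ' a b)) using 1
    simp only [map_add, map_sub]
    abel

/-- The module `E × ℤ` twisted by a cocycle. -/
def Twist (_f : L.Z1 E) : Type x := E × ℤ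

namespace Twist

variable {f : L.Z1 E}

instance : AddCommGroup (Twist f) := inferInstanceAs (AddCommGroup (E × ℤ))

/-- A pair, as an element of the twisted module. -/
def mk (f : L.Z1 E) (e : E) (n : ℤ) : Twist f := (e, n)

theorem cocycle_one (f : L.Z1 E) : f.1 1 = 0 := by
  have := f.2.2 1 1
  rwa [one_mul, one_smul, left_eq_add] at this

instance : DistribMulAction L.G (Twist f) where
  smul g a := mk f (g • a.1 + a.2 • f.1 g) a.2
  one_smul a := Prod.ext (by
    show (1 : L.G) • a.1 + a.2 • f.1 1 = a.1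
    rw [one_smul, cocycle_one, smul_zero, add_zero]) rfl
  mul_smul g h a := Prod.ext (by
    show (g * h) • a.1 + a.2 • f.1 (g * h) = g • (h • a.1 + a.2 • f.1 h) + a.2 • f.1 g
    rw [f.2.2, smul_add g, mul_smul, smul_add a.2, smul_comm g a.2]
    abel) rfl
  smul_zero g := Prod.ext (by
    show g • (0 : E) + (0 : ℤ) • f.1 g = 0
    rw [smul_zero, zero_smul, add_zero]) rfl
  smul_add g a b := Prod.ext (by
    show g • (a.1 + b.1) + (a.2 + b.2) • f.1 g =
      (g • a.1 + a.2 • f.1 g) + (g • b.1 + b.2 • f.1 g)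
    rw [smul_add, add_smul]
    abel) rfl

theorem smooth (hE : L.Smooth E) : L.Smooth (Twist f) := fun a => by
  obtain ⟨N, hN, h⟩ := hE a.1
  obtain ⟨N', hN', h'⟩ := f.2.1
  refine ⟨N ⊓ N', L.inf N N' hN hN', fun s hs => Prod.ext ?_ rfl⟩
  show s • a.1 + a.2 • f.1 s = a.1
  have := h' 1 s hs.2
  rw [one_mul, cocycle_one] at this
  rw [h s hs.1, this, smul_zero, add_zero]

end Twist

section Pullback

variable {A : Type y} {B : Type v} [AddCommGroup A] [AddCommGroup B] [DistribMulAction L.G A]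
  [DistribMulAction L.G B] (i : A →+ B) (hi : ∀ (g : L.G) a, i (g • a) = g • i a)

/-- Pullback of symmetric cocycles. -/
def pullSym : L.SymZ B C →+ L.SymZ A C where
  toFun κ := ⟨fun a b => κ.1 (i a) (i b), fun g a b => by simp only [hi, κ.2.1],
    fun a b => κ.2.2.1 _ _, fun a b c => by simp only [map_add]; exact κ.2.2.2 _ _ _⟩
  map_zero' := rfl
  map_add' _ _ := rfl

/-- The image of a cocycle. -/
def mapZ1 : L.Z1 A →+ L.Z1 B where
  toFun x := ⟨fun g => i (x.1 g), x.2.1.comp i, fun g h => by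
    show i (x.1 (g * h)) = i (x.1 g) + g • i (x.1 h)
    rw [x.2.2 g h, map_add, hi]⟩
  map_zero' := Subtype.ext (funext fun _ => map_zero i)
  map_add' x y := Subtype.ext (funext fun g => map_add i (x.1 g) (y.1 g))

theorem pullSym_symB {κ : L.SymZ B C} (h : κ.1 ∈ L.SymB B C) :
    (pullSym i hi κ).1 ∈ L.SymB A C := by
  obtain ⟨t, ht, hκ⟩ := h
  refine ⟨fun a => t (i a), fun g a => by simp only [hi, ht g], ?_⟩
  funext a b
  show t (i a) + t (i b) - t (i (a + b)) = κ.1 (i a) (i b)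
  rw [← hκ, map_add]
  rfl

theorem mapZ1_mem_B1 {x : L.Z1 A} (h : x.1 ∈ L.B1 A) : (mapZ1 i hi x).1 ∈ L.B1 B := by
  obtain ⟨a, ha⟩ := h
  refine ⟨i a, funext fun g => ?_⟩
  show g • i a - i a = i (x.1 g)
  rw [← ha, ← hi, ← map_sub]
  rfl

variable [Finite A] [Finite B] {p : ℕ} (D : PreClassModule L C p)

/-- The pairing is natural. -/
theorem pair_mapZ1 (hA : L.Smooth A) (hB : L.Smooth B) (x : L.Z1 A) (κ : L.SymZ B C) :
    D.pair L B hB (mapZ1 i hi x) κ = D.pair L A hA x (pullSym i hi κ) := by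
  refine congrArg D.inv (Subtype.ext (funext fun y => ?_))
  show κ.1 (i (x.1 y.1)) (y.1 • i (x.1 y.2)) = κ.1 (i (x.1 y.1)) (i (y.1 • x.1 y.2))
  rw [hi]

end Pullback

end Fermat.Agent.GD
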