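import Fermat.Agent.GD.Engine.Duality

/-!
# Pairings with values in the rationals modulo one
-/

set_option autoImplicit false

noncomputable section

namespace Fermat.Agent.GD

universe u v w x

variable {p : ℕ} [hp : Fact p.Prime]

local notation "AC" => AddCircle (1 : ℚ)

/-- The `p`-torsion of the circle is generated by one element. -/
theorem exists_zsmul_of_torsion {t : AC} (ht : p • t = 0) :
    ∃ k : ℤ, t = k • ((((p : ℚ)⁻¹ : ℚ)) : AC) := by
  obtain ⟨q, rfl⟩ := QuotientAddGroup.mk_surjective t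
  rw [← AddCircle.coe_nsmul, AddCircle.coe_eq_zero_iff] at ht
  obtain ⟨k, hk⟩ := ht
  refine ⟨k, ?_⟩
  rw [← AddCircle.coe_zsmul]
  congr 1
  rw [zsmul_eq_mul, nsmul_eq_mul] at hk
  rw [zsmul_eq_mul, ← div_eq_mul_inv, eq_div_iff (by exact_mod_cast hp.out.ne_zero)]
  linear_combination -hk

theorem zsmul_inv_prime : (p : ℤ) • ((((p : ℚ)⁻¹ : ℚ)) : AC) = 0 := by
  rw [← AddCircle.coe_zsmul, AddCircle.coe_eq_zero_iff]
  exact ⟨1, by simp [hp.out.ne_zero]⟩

/-- Every `p`-torsion value is a multiple of a nonzero one. -/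
theorem exists_zsmul_eq {t₀ t : AC} (h₀ : t₀ ≠ 0) (hp₀ : p • t₀ = 0) (ht : p • t = 0) :
    ∃ k : ℤ, t = k • t₀ := by
  obtain ⟨a, rfl⟩ := exists_zsmul_of_torsion hp₀
  obtain ⟨b, rfl⟩ := exists_zsmul_of_torsion ht
  have hz := zsmul_inv_prime (p := p)
  have ha : ¬(p : ℤ) ∣ a := by
    rintro ⟨c, rfl⟩
    exact h₀ (by rw [mul_comm, mul_smul, hz, smul_zero])
  obtain ⟨x, y, hxy⟩ := ((Nat.prime_iff_prime_int.mp hp.out).coprime_iff_not_dvd.mpr ha).symm
  refine ⟨b * x, ?_⟩
  have hb : b = b * x * a + b * y * (p : ℤ) := by linear_combination -b * hxy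
  conv_lhs => rw [hb]
  rw [add_smul, mul_smul (b * y), hz, smul_zero, add_zero, mul_smul]

/-- A finite group killed by `p` has at most as many characters as elements. -/
theorem finite_card_character {V : Type*} [AddCommGroup V] [Finite V]
    (hV : ∀ v : V, p • v = 0) : Finite (V →+ AC) ∧ Nat.card (V →+ AC) ≤ Nat.card V := by
  let := AddCommGroup.zmodModule (n := p) hV
  have : Module.Finite (ZMod p) V := Module.Finite.of_finite
  let b := Module.finBasis (ZMod p) V
  have hval : ∀ (f : V →+ AC) i, ∃ k : ZMod p, f (b i) = (k.val : ℤ) • (((p : ℚ)⁻¹ : ℚ) : AC) :=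
    fun f i => by
    obtain ⟨k, hk⟩ := exists_zsmul_of_torsion (t := f (b i)) (by rw [← map_nsmul, hV, map_zero])
    refine ⟨k, ?_⟩
    rw [hk, ZMod.val_intCast]
    conv_lhs => rw [← Int.emod_add_mul_ediv k p, mul_comm]
    rw [add_smul, mul_smul, zsmul_inv_prime, smul_zero, add_zero]
  choose k hk using hval
  have hinj : Function.Injective k := fun f g h => by
    refine AddMonoidHom.ext fun v => ?_
    have hb : ∀ i, f (b i) = g (b i) := fun i => by rw [hk, hk, h]
    rw [← b.sum_repr v, map_sum, map_sum]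
    refine Finset.sum_congr rfl fun i _ => ?_
    rw [← ZMod.natCast_zmod_val (b.repr v i), Nat.cast_smul_eq_nsmul, map_nsmul, map_nsmul, hb]
  refine ⟨Finite.of_injective k hinj, (Nat.card_le_card_of_injective k hinj).trans (le_of_eq ?_)⟩
  exact Nat.card_congr b.equivFun.toEquiv.symm

omit hp in
theorem nsmul_character {V : Type*} [AddCommGroup V] (hV : ∀ v : V, p • v = 0) (f : V →+ AC) :
    p • f = 0 :=
  AddMonoidHom.ext fun v => by rw [AddMonoidHom.nsmul_apply, ← map_nsmul, hV, map_zero]; rfl

/-- A character killing the left kernel of a pairing is given by the pairing. -/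
theorem exists_eq_pairing {X : Type v} {V : Type w} [AddCommGroup X] [AddCommGroup V] [Finite V]
    (hV : ∀ v : V, p • v = 0) (β : X →+ V →+ AC) (f : X →+ AC)
    (hf : ∀ x, β x = 0 → f x = 0) : ∃ v, ∀ x, f x = β x v := by
  obtain ⟨hfin, hcard⟩ := finite_card_character hV
  obtain ⟨hfin2, hcard2⟩ := finite_card_character (nsmul_character hV)
  let ev : V →+ ((V →+ AC) →+ AC) := AddMonoidHom.eval
  have hev : Function.Bijective ev := by
    have hinj : Function.Injective ev := by
      rw [injective_iff_map_eq_zero]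
      intro v hv
      by_contra hne
      obtain ⟨c, hc⟩ := CharacterModule.exists_character_apply_ne_zero_of_ne_zero hne
      exact hc (DFunLike.congr_fun hv c)
    exact (Nat.bijective_iff_injective_and_card ev).mpr
      ⟨hinj, (Nat.card_le_card_of_injective ev hinj).antisymm (hcard2.trans hcard)⟩
  let f' : X ⧸ β.ker →+ AC := QuotientAddGroup.lift β.ker f hf
  let β' : X ⧸ β.ker →+ (V →+ AC) := QuotientAddGroup.kerLift β
  obtain ⟨F, hF⟩ := CharacterModule.dual_surjective_of_injective (R := ℤ)
    β'.toIntLinearMap (QuotientAddGroup.kerLift_injective β) f'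
  obtain ⟨v, rfl⟩ := hev.2 F
  exact ⟨v, fun x => (DFunLike.congr_fun hF (x : X ⧸ β.ker)).symm⟩

omit hp in
theorem eq_zero_of_flip {X : Type v} {Y : Type w} [AddCommGroup X] [AddCommGroup Y]
    (β : X →+ Y →+ AC) (y : Y) (hy : ∀ x, β x y = 0) : β.flip y = 0 :=
  AddMonoidHom.ext hy

/-- The two sides of a nondegenerate pairing have the same size. -/
theorem card_range_eq {X : Type*} {Y : Type*} {U : Type*} {W : Type*} [AddCommGroup X]
    [AddCommGroup Y] [AddCommGroup U] [AddCommGroup W] (β : X →+ Y →+ AC) (u : X →+ U)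
    (v : Y →+ W) (hu : ∀ x, u x = 0 ↔ ∀ y, β x y = 0) (hv : ∀ y, v y = 0 ↔ ∀ x, β x y = 0)
    [Finite u.range] (hU : ∀ z : U, p • z = 0) (hW : ∀ z : W, p • z = 0) :
    Finite v.range ∧ Nat.card u.range = Nat.card v.range := by
  have hru : ∀ z : u.range, ∃ x, u x = z := fun z => z.2
  choose su hsu using hru
  have hrv : ∀ z : v.range, ∃ y, v y = z := fun z => z.2
  choose sv hsv using hrv
  have hcx : ∀ x x', u x = u x' → ∀ y, β x y = β x' y := fun x x' h y => by
    rw [← sub_eq_zero, ← AddMonoidHom.sub_apply, ← map_sub]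
    exact (hu _).mp (by rw [map_sub, h, sub_self]) y
  have hcy : ∀ y y', v y = v y' → ∀ x, β x y = β x y' := fun y y' h x => by
    rw [← sub_eq_zero, ← map_sub]
    exact (hv _).mp (by rw [map_sub, h, sub_self]) x
  let Fv : v.range → (u.range →+ AC) := fun z => AddMonoidHom.mk' (fun x => β (su x) (sv z))
    fun x x' => by
      rw [← AddMonoidHom.add_apply, ← map_add]
      exact hcx _ _ (by rw [map_add, hsu, hsu, hsu]; rfl) _
  have hFv : Function.Injective Fv := fun z z' h => by
    refine Subtype.ext ?_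
    rw [← hsv z, ← hsv z', ← sub_eq_zero, ← map_sub, hv]
    intro x
    have hx : u (su ⟨u x, x, rfl⟩) = u x := hsu _
    rw [map_sub, sub_eq_zero, ← hcx _ _ hx, ← hcx _ _ hx]
    exact DFunLike.congr_fun h _
  obtain ⟨hfu, hleu⟩ := finite_card_character (p := p) (V := u.range)
    fun z => Subtype.ext (hU _)
  have hfinv : Finite v.range := Finite.of_injective Fv hFv
  refine ⟨hfinv, ?_⟩
  let Fu : u.range → (v.range →+ AC) := fun z => AddMonoidHom.mk' (fun y => β (su z) (sv y))
    fun y y' => by
      rw [← map_add]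
      exact hcy _ _ (by rw [map_add, hsv, hsv, hsv]; rfl) _
  have hFu : Function.Injective Fu := fun z z' h => by
    refine Subtype.ext ?_
    rw [← hsu z, ← hsu z', ← sub_eq_zero, ← map_sub, hu]
    intro y
    have hy : v (sv ⟨v y, y, rfl⟩) = v y := hsv _
    rw [map_sub, AddMonoidHom.sub_apply, sub_eq_zero, ← hcy _ _ hy, ← hcy _ _ hy]
    exact DFunLike.congr_fun h _
  obtain ⟨hfv, hlev⟩ := finite_card_character (p := p) (V := v.range)
    fun z => Subtype.ext (hW _)
  exact ((Nat.card_le_card_of_injective Fu hFu).trans hlev).antisymm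
    ((Nat.card_le_card_of_injective Fv hFv).trans hleu)

/-- The order of a group is the order of the kernel times that of the range. -/
theorem card_ker_mul_range {X : Type*} {U : Type*} [AddCommGroup X] [AddCommGroup U]
    (u : X →+ U) : Nat.card u.ker * Nat.card u.range = Nat.card X := by
  rw [mul_comm, AddSubgroup.card_eq_card_quotient_mul_card_addSubgroup u.ker,
    Nat.card_congr (QuotientAddGroup.quotientKerEquivRange u).toEquiv]

end Fermat.Agent.GD
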