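import Fermat.Agent.GD.Engine.Mod

/-!
# Short exact sequences: connecting cochains and pushouts
-/

set_option autoImplicit false

noncomputable section

namespace Fermat.Agent.GD

universe u v w x y

variable {L : LevelGroup.{u}} {C : Type w} [AddCommGroup C] [DistribMulAction L.G C]
variable {A : Type x} {B : Type y} {M : Type v}
variable [AddCommGroup A] [AddCommGroup B] [AddCommGroup M]
variable [DistribMulAction L.G A] [DistribMulAction L.G B] [DistribMulAction L.G M]

variable (L) in
/-- A short exact sequence of modules. -/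
structure IsShort (i : A →+ B) (π : B →+ M) : Prop where
  inj : Function.Injective i
  surj : Function.Surjective π
  exact : Function.Exact i π
  i_smul : ∀ (g : L.G) a, i (g • a) = g • i a
  π_smul : ∀ (g : L.G) b, π (g • b) = g • π b

variable {i : A →+ B} {π : B →+ M}

theorem IsShort.mem_range (h : IsShort L i π) {b : B} (hb : π b = 0) : ∃ a, i a = b :=
  (h.exact b).mp hb

theorem IsShort.killed_left (h : IsShort L i π) {p : ℕ} (hp : ∀ b : B, p • b = 0) (a : A) :
    p • a = 0 :=
  h.inj (by rw [map_nsmul, hp, map_zero])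

theorem IsShort.killed_right (h : IsShort L i π) {p : ℕ} (hp : ∀ b : B, p • b = 0) (m : M) :
    p • m = 0 := by
  obtain ⟨b, rfl⟩ := h.surj m
  rw [← map_nsmul, hp, map_zero]

/-- The pushout of a short exact sequence along a map to the class module. -/
theorem IsShort.exists_pushout (h : IsShort L i π) {p : ℕ} (D : PreClassModule L C p)
    (hB : L.Smooth B) (hp : ∀ b : B, p • b = 0) {φ : A →+ C} (hφ : φ ∈ L.HomC A C) :
    ∃ κ : L.SymZ M C, ∃ t ∈ L.equivariant B C,
      LevelGroup.dSym B C t = (pullSym π h.π_smul κ).1 ∧ (∀ a, κ.1 0 0 - t (i a) = φ a) ∧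
      ∀ (x : L.Z1 M) (r : L.G → B), L.Const₁ r → (∀ g, π (r g) = x.1 g) →
        ∀ w : L.G × L.G → A, (∀ g g', i (w (g, g')) = g • r g' - r (g * g') + r g) →
          L.IsB2 C (φ ∘ w - L.cup M C x.1 κ.1) := by
  let ν : A →+ C × B := (-φ).prod i
  let S : AddSubgroup (C × B) := ν.range
  let j : C →+ C × B := AddMonoidHom.inl C B
  let q : C × B →+ M := π.comp (AddMonoidHom.snd C B)
  have hext : IsExtMod L S j q := by
    refine ⟨?_, ?_, fun m => ?_, ?_, fun c => map_zero π, fun e he => ?_, fun g c => ?_,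
      fun g e => h.π_smul g e.2⟩
    · rintro g _ ⟨a, rfl⟩
      exact ⟨g • a, Prod.ext (by
        show -φ (g • a) = g • -φ a
        rw [hφ g a, smul_neg]) (h.i_smul g a)⟩
    · rintro c ⟨a, ha⟩
      obtain rfl : a = 0 := h.inj ((congrArg Prod.snd ha).trans (map_zero i).symm)
      exact (congrArg Prod.fst ha).symm.trans (by simp [ν])
    · obtain ⟨b, rfl⟩ := h.surj m
      exact ⟨(0, b), rfl⟩
    · rintro _ ⟨a, rfl⟩
      exact h.exact.apply_apply_eq_zero a
    · obtain ⟨a, ha⟩ := h.mem_range he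
      exact ⟨e.1 + φ a, a, Prod.ext (by show -φ a = e.1 - (e.1 + φ a); abel) (by
        show i a = e.2 - 0; rw [ha, sub_zero]; rfl)⟩
    · exact Prod.ext rfl (smul_zero g).symm
  have hsm : L.Smooth (C × B) := fun e => by
    obtain ⟨N, hN, h1⟩ := D.smooth e.1
    obtain ⟨N', hN', h2⟩ := hB e.2
    exact ⟨N ⊓ N', L.inf N N' hN hN', fun s hs => Prod.ext (h1 s hs.1) (h2 s hs.2)⟩
  obtain ⟨κ, hκ, e, he, heG, hadd⟩ := hext.exists_class D hsm (h.killed_right hp)
  obtain ⟨t, ht, htS, htd⟩ := hext.symB_sub (e := fun b : B => ((0 : C), b))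
    (e' := fun b => e (π b)) (fun b => (he (π b)).symm)
    (fun g b => by
      rw [show g • ((0 : C), b) = ((0 : C), g • b) from Prod.ext (smul_zero g) rfl, sub_self]
      exact zero_mem S)
    (fun g b => by rw [h.π_smul]; exact heG g (π b))
    (κ := 0) (κ' := fun a b => κ (π a) (π b))
    (fun a b => by
      rw [Pi.zero_apply, Pi.zero_apply, map_zero, add_zero, Prod.mk_add_mk, add_zero, sub_self]
      exact zero_mem S)
    (fun a b => by rw [map_add]; exact hadd (π a) (π b))
  refine ⟨⟨κ, hκ⟩, -t, neg_mem ht, by rw [map_neg, htd, zero_sub, neg_neg]; rfl, fun a => ?_,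
    fun x r hr hrx w hw => ?_⟩
  · show κ 0 0 - -t (i a) = φ a
    refine hext.eq_of_mem ?_
    have h1 := htS (i a)
    rw [h.exact.apply_apply_eq_zero] at h1
    have h2 : e 0 - j (κ 0 0) ∈ S := by
      have := hadd 0 0
      rw [add_zero] at this
      convert this using 1
      abel
    have h3 : ν a ∈ S := ⟨a, rfl⟩
    convert sub_mem h3 (add_mem h1 h2) using 1
    have hνa : ν a = ((0 : C), i a) - j (φ a) := Prod.ext (by simp [ν, j]) (by simp [ν, j])
    rw [hνa, sub_neg_eq_add, map_add]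
    abel
  · refine hext.isB2_sub (l := fun g => ((0 : C), r g)) (l' := fun g => e (x.1 g))
      (hr.comp fun b => ((0 : C), b)) (x.2.1.comp e) (fun g => (hrx g).trans (he _).symm)
      (fun g g' => ?_) fun g g' => ?_
    · refine ⟨-w (g, g'), Prod.ext ?_ ?_⟩
      · simp [ν, j]
      · simp [ν, j, hw g g']
    · show j (κ (x.1 g) (g • x.1 g')) - _ ∈ S
      have h1 := hadd (x.1 g) (g • x.1 g')
      have h2 := heG g (x.1 g')
      rw [← x.2.2 g g'] at h1
      convert sub_mem h2 h1 using 1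
      abel

/-- A lift of a cocycle and its differential. -/
theorem IsShort.exists_lift (h : IsShort L i π) [Finite B] (hB : L.Smooth B) (x : L.Z1 M) :
    ∃ r : L.G → B, L.Const₁ r ∧ (∀ g, π (r g) = x.1 g) ∧
      ∃ w ∈ L.Z2 A, ∀ g g', i (w (g, g')) = g • r g' - r (g * g') + r g := by
  choose sB hsB using h.surj
  refine ⟨fun g => sB (x.1 g), x.2.1.comp sB, fun g => hsB _, ?_⟩
  have hw : ∀ y : L.G × L.G, ∃ a, i a =
      y.1 • sB (x.1 y.2) - sB (x.1 (y.1 * y.2)) + sB (x.1 y.1) := fun y => h.mem_range (by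
    rw [map_add, map_sub, h.π_smul, hsB, hsB, hsB, x.2.2]
    abel)
  choose w hw using hw
  refine ⟨w, ⟨?_, fun g g' g'' => h.inj ?_⟩, fun g g' => hw (g, g')⟩
  · obtain ⟨N, hN, hx⟩ := x.2.1
    obtain ⟨N', hN', hfix⟩ := hB.exists_level
    refine ⟨N ⊓ N', L.inf N N' hN hN', fun g g' s hs s' hs' => h.inj ?_⟩
    rw [hw, hw]
    show (g * s) • sB (x.1 (g' * s')) - sB (x.1 ((g * s) * (g' * s'))) + sB (x.1 (g * s)) = _
    have hnorm := L.normal N hN
    have e1 : (g * s) * (g' * s') = (g * g') * ((g'⁻¹ * s * g') * s') := by group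
    rw [hx g' s' hs'.1, hx g s hs.1, mul_smul, hfix s hs.2, e1, hx (g * g') _
      (N.mul_mem (by simpa using! hnorm.conj_mem s hs.1 g'⁻¹) hs'.1)]
  · simp only [map_add, h.i_smul, hw, smul_add, smul_sub, mul_smul, mul_assoc]
    abel

end Fermat.Agent.GD
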