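import Fermat.Agent.GD.Engine.Unipotent
import Fermat.Agent.GD.Global.ClassFormation.Cyclic

/-!
# The trivial module with `p` elements on an open subgroup
-/

set_option autoImplicit false
set_option linter.unusedSectionVars false
set_option linter.style.haveILetI false

noncomputable section

namespace Fermat.Agent.GD

universe u w

variable {L : LevelGroup.{u}} {C : Type w} [AddCommGroup C] [DistribMulAction L.G C] {p : ℕ}
  [hp : Fact p.Prime]

/-- The extension given by the carry of addition. -/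
def carryExt (a : C) : ZMod p → ZMod p → C := fun u v => ((u.val + v.val) / p) • a

theorem carryExt_mem [DistribMulAction L.G (ZMod p)]
    (htriv : ∀ (g : L.G) (m : ZMod p), g • m = m) {a : C} (ha : ∀ g : L.G, g • a = a) :
    (carryExt a : ZMod p → ZMod p → C) ∈ L.SymZ (ZMod p) C := by
  refine ⟨fun g u v => ?_, fun u v => ?_, fun u v x => ?_⟩
  · simp only [carryExt, htriv]
    rw [smul_comm, ha]
  · simp only [carryExt, add_comm u.val v.val]
  · simp only [carryExt, ← add_smul, ZMod.val_add]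
    congr 1
    rw [carry_assoc, add_comm u.val ((v.val + x.val) % p), carry_assoc]
    congr 1
    omega

/-- The partial sums of an extension along the powers of the generator. -/
def extSum (κ : ZMod p → ZMod p → C) (n : ℕ) : C :=
  -κ 0 0 + ∑ i ∈ Finset.range n, κ (i : ZMod p) 1

theorem extSum_add [DistribMulAction L.G (ZMod p)] {κ : ZMod p → ZMod p → C}
    (hκ : κ ∈ L.SymZ (ZMod p) C) (m n : ℕ) :
    extSum κ (m + n) = extSum κ m + extSum κ n + κ (m : ZMod p) (n : ZMod p) := by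
  induction n with
  | zero =>
    have h1 := hκ.2.2 (m : ZMod p) 0 0
    rw [add_zero, add_zero] at h1
    have h2 : κ (m : ZMod p) 0 = κ 0 0 := add_right_cancel h1
    rw [Nat.cast_zero, h2]
    simp [extSum]
  | succ n ih =>
    have hs : ∀ k, extSum κ (k + 1) = extSum κ k + κ (k : ZMod p) 1 := fun k => by
      rw [extSum, extSum, Finset.sum_range_succ, add_assoc]
    have h1 := hκ.2.2 (m : ZMod p) (n : ZMod p) 1
    rw [← add_assoc, hs, hs, ih, Nat.cast_succ, Nat.cast_add]
    linear_combination (norm := abel) h1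

/-- Every extension is the carry extension of a fixed point, up to a trivial one. -/
theorem exists_carryExt_sub [DistribMulAction L.G (ZMod p)]
    (htriv : ∀ (g : L.G) (m : ZMod p), g • m = m) {κ : ZMod p → ZMod p → C}
    (hκ : κ ∈ L.SymZ (ZMod p) C) :
    ∃ a : C, (∀ g : L.G, g • a = a) ∧ κ - carryExt a ∈ L.SymB (ZMod p) C := by
  have hfix : ∀ (g : L.G) u v, g • κ u v = κ u v := fun g u v => by
    rw [← hκ.1 g u v, htriv, htriv]
  have hS : ∀ (g : L.G) n, g • extSum κ n = extSum κ n := fun g n => by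
    rw [extSum, smul_add, smul_neg, hfix, Finset.smul_sum]
    exact congrArg _ (Finset.sum_congr rfl fun i _ => hfix g _ _)
  refine ⟨extSum κ p + κ 0 0, fun g => by rw [smul_add, hS, hfix],
    fun u => -extSum κ u.val, fun g u => ?_, funext fun u => funext fun v => ?_⟩
  · rw [htriv, smul_neg, hS]
  · have h1 := extSum_add hκ u.val v.val
    rw [ZMod.natCast_zmod_val, ZMod.natCast_zmod_val] at h1
    have hper : ∀ r e : ℕ, e ≤ 1 →
        extSum κ (r + p * e) = extSum κ r + e • (extSum κ p + κ 0 0) := fun r e he => by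
      interval_cases e
      · simp
      · rw [mul_one, one_smul, extSum_add hκ, ZMod.natCast_self,
          show κ (r : ZMod p) 0 = κ 0 0 from by
            have h2 := hκ.2.2 (r : ZMod p) 0 0
            rw [add_zero, add_zero] at h2
            exact add_right_cancel h2, add_assoc]
    have hlt : (u.val + v.val) / p ≤ 1 := by
      have := ZMod.val_lt u
      have := ZMod.val_lt v
      exact Nat.lt_succ_iff.mp (Nat.div_lt_of_lt_mul (by omega))
    have h3 := hper ((u.val + v.val) % p) _ hlt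
    rw [Nat.mod_add_div, ← ZMod.val_add] at h3
    show -extSum κ u.val + -extSum κ v.val - -extSum κ (u + v).val = κ u v - carryExt _ u v
    unfold carryExt
    rw [h1] at h3
    linear_combination (norm := abel) -h3

theorem carryExt_nsmul_mem_symB [DistribMulAction L.G (ZMod p)]
    (htriv : ∀ (g : L.G) (m : ZMod p), g • m = m) {b : C} (hb : ∀ g : L.G, g • b = b) :
    (carryExt (p • b) : ZMod p → ZMod p → C) ∈ L.SymB (ZMod p) C := by
  refine ⟨fun u => u.val • b, fun g u => ?_, funext fun u => funext fun v => ?_⟩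
  · rw [htriv, smul_comm, hb]
  · show u.val • b + v.val • b - (u + v).val • b = ((u.val + v.val) / p) • p • b
    rw [sub_eq_iff_eq_add, smul_smul, ← add_smul, ← add_smul, ZMod.val_add, mul_comm,
      Nat.div_add_mod]

/-- Cohomology in degree one of an open subgroup dies after a multiple prime to `p`. -/
theorem PreClassModule.exists_coprime_B1 (D : PreClassModule L C p) {H : Subgroup L.G}
    (hH : L.IsOpen H) {f : H → C} (hf : f ∈ (L.sub H).Z1 C) :
    ∃ m : ℕ, m.Coprime p ∧ m • f ∈ (L.sub H).B1 C := by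
  obtain ⟨N, hN, hfN⟩ := hf.1
  have := (L.sub H).finiteIndex N hN
  have h1 := index_nsmul_mem_B1 (L := L.sub H) (H := N) hf.2 fun h => by
    have := hfN 1 _ h.2
    rw [one_mul] at this
    exact this.trans (Twist.cocycle_one (L := L.sub H) ⟨f, hf⟩)
  obtain ⟨k, m, hm, hkm⟩ :=
    Nat.exists_eq_pow_mul_and_not_dvd (Subgroup.FiniteIndex.index_ne_zero (H := N)) p hp.out.ne_one
  have h2 : ∀ k : ℕ, ∀ f' ∈ (L.sub H).Z1 C, p ^ k • f' ∈ (L.sub H).B1 C →
      f' ∈ (L.sub H).B1 C := by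
    intro k
    induction k with
    | zero => intro f' _ h; rwa [pow_zero, one_smul] at h
    | succ k ih =>
      intro f' hf' h
      rw [pow_succ, mul_smul] at h
      exact D.h1 H hH f' hf' (ih _ (AddSubgroup.nsmul_mem _ hf' p) h)
  refine ⟨m, (hp.out.coprime_iff_not_dvd.mpr hm).symm, h2 k _ (AddSubgroup.nsmul_mem _ hf m) ?_⟩
  rwa [← mul_smul, ← hkm]

variable (L C p) in
/-- Fixed points modulo `p`. -/
def fixPow (H : Subgroup L.G) : AddSubgroup (fixPts C H) :=
  (nsmulAddMonoidHom (α := fixPts C H) p).range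

/-- The character of a homomorphism on an open subgroup. -/
theorem exists_isCyc_of_hom {H : Subgroup L.G} (hH : L.IsOpen H)
    [DistribMulAction (L.sub H).G (ZMod p)]
    (htriv : ∀ (g : (L.sub H).G) (m : ZMod p), g • m = m)
    (x : (L.sub H).Z1 (ZMod p)) (hx : (x : H → ZMod p) ≠ 0) :
    ∃ (H' : Subgroup L.G) (χ : L.G → ZMod p), IsCyc H H' p χ ∧
      ∀ h : H, χ h = (x : H → ZMod p) h := by
  classical
  obtain ⟨⟨_, ⟨N, hN, rfl⟩, hxN⟩, hxc⟩ := x.2
  have hadd : ∀ g g' : H, x.1 (g * g') = x.1 g + x.1 g' := fun g g' => by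
    rw [hxc g g', htriv]
  let χ : L.G → ZMod p := fun g => if hg : g ∈ H then x.1 ⟨g, hg⟩ else 0
  have hχ : ∀ h : H, χ h = x.1 h := fun h => dif_pos h.2
  let φ : H →* Multiplicative (ZMod p) :=
    MonoidHom.mk' (fun g => Multiplicative.ofAdd (x.1 g)) fun g g' => by
      rw [hadd]; rfl
  obtain ⟨N', hN', hleH, hleN⟩ := level_le_of_isOpen hH hN
  refine ⟨φ.ker.map H.subtype, χ, ⟨fun g hg g' hg' => ?_, fun g hg => ?_, ?_, ?_, ?_, ?_⟩, hχ⟩
  · show χ ((⟨g, hg⟩ * ⟨g', hg'⟩ : H) : L.G) = χ ((⟨g, hg⟩ : H) : L.G) + χ ((⟨g', hg'⟩ : H) : L.G)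
    rw [hχ, hχ, hχ, hadd]
  · show χ ((⟨g, hg⟩ : H) : L.G) = 0 ↔ _
    rw [hχ]
    constructor
    · exact fun h => ⟨⟨g, hg⟩, MonoidHom.mem_ker.mpr (congrArg Multiplicative.ofAdd h), rfl⟩
    · rintro ⟨k, hk, e⟩
      obtain rfl : k = ⟨g, hg⟩ := Subtype.ext e
      exact congrArg Multiplicative.toAdd (MonoidHom.mem_ker.mp hk)
  · obtain ⟨g, hg⟩ := Function.ne_iff.mp hx
    have hg' : x.1 g ≠ 0 := hg
    refine ⟨(g ^ (x.1 g)⁻¹.val : H), Subtype.prop _, ?_⟩
    rw [hχ]
    have hpow : ∀ i : ℕ, x.1 (g ^ i) = i * x.1 g := fun i => by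
      induction i with
      | zero => rw [pow_zero, Nat.cast_zero, zero_mul, Twist.cocycle_one x]
      | succ i ih => rw [pow_succ, hadd, ih, Nat.cast_succ, add_mul, one_mul]
    rw [hpow, ZMod.natCast_zmod_val, inv_mul_cancel₀ hg']
  · rintro _ ⟨k, -, rfl⟩
    exact k.2
  · refine ⟨N', hN', fun n hn => ⟨⟨n, hleH hn⟩, MonoidHom.mem_ker.mpr ?_, rfl⟩⟩
    have h1 := hxN 1 ⟨n, hleH hn⟩ (hleN hn)
    rw [one_mul, Twist.cocycle_one x] at h1
    exact congrArg Multiplicative.ofAdd h1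
  · refine ⟨N', hN', fun g s hs => ?_⟩
    by_cases hg : g ∈ H
    · simp only [χ, dif_pos hg, dif_pos (H.mul_mem hg (hleH hs))]
      exact hxN ⟨g, hg⟩ ⟨s, hleH hs⟩ (hleN hs)
    · simp only [χ, dif_neg hg, dif_neg fun h => hg ((H.mul_mem_cancel_right (hleH hs)).mp h)]

variable (D : ClassModule L C p) {H : Subgroup L.G} (hH : L.IsOpen H)
  [DistribMulAction (L.sub H).G (ZMod p)]
  (htriv : ∀ (g : (L.sub H).G) (m : ZMod p), g • m = m)
  (hnorm : ∀ (H' : Subgroup L.G) (χ : L.G → ZMod p), IsCyc H H' p χ →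
    ∃ a ∈ fixPts C H, ∀ y ∈ fixPts C H', nm H H' y ≠ a)

include htriv hnorm

theorem ClassModule.left_triv (hM : (L.sub H).Smooth (ZMod p)) (x : (L.sub H).Z1 (ZMod p))
    (hx : ∀ κ, (D.sub H hH).pair (L.sub H) (ZMod p) hM x κ = 0) :
    (x : H → ZMod p) = 0 := by
  classical
  by_contra hne
  obtain ⟨H', χ, hcyc, hχ⟩ := exists_isCyc_of_hom hH htriv x hne
  obtain ⟨a, ha, hna⟩ := hnorm H' χ hcyc
  have ha' : ∀ g : (L.sub H).G, g • a = a := fun g => ha _ g.2
  let κ : (L.sub H).SymZ (ZMod p) C := ⟨carryExt a, carryExt_mem htriv ha'⟩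
  have hpM : ∀ m : ZMod p, p • m = 0 := fun m => by
    rw [nsmul_eq_mul, ZMod.natCast_self, zero_mul]
  have hb := (D.sub H hH).inv_inj (cupZ2 hM x κ)
    (nsmul_cup hM (D.sub H hH).smooth hpM x κ) (hx κ)
  obtain ⟨b, ⟨_, ⟨N, hN, rfl⟩, hbN⟩, hbd⟩ := hb
  obtain ⟨N', hN', hleH, hleN⟩ := level_le_of_isOpen hH hN
  let b' : L.G → C := fun g => if hg : g ∈ H then b ⟨g, hg⟩ else 0
  have htr : Triv2 H (beta χ a) := by
    refine ⟨b', ⟨N', hN', fun g s hs => ?_⟩, fun g hg g' hg' => ?_⟩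
    · by_cases hg : g ∈ H
      · simp only [b', dif_pos hg, dif_pos (H.mul_mem hg (hleH hs))]
        exact hbN ⟨g, hg⟩ ⟨s, hleH hs⟩ (hleN hs)
      · simp only [b', dif_neg hg, dif_neg fun h => hg ((H.mul_mem_cancel_right (hleH hs)).mp h)]
    · have h1 := congrFun hbd ((⟨g, hg⟩ : H), (⟨g', hg'⟩ : H))
      rw [d₁_apply]
      simp only [b', dif_pos hg, dif_pos hg', dif_pos (H.mul_mem hg hg')]
      refine Eq.trans ?_ h1.symm
      show (((χ g).val + (χ g').val) / p) • a = carryExt a (x.1 ⟨g, hg⟩) ((⟨g, hg⟩ : H) • x.1 ⟨g', hg'⟩)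
      rw [carryExt, htriv, ← hχ ⟨g, hg⟩, ← hχ ⟨g', hg'⟩]
  obtain ⟨m, hm, y, hy, e⟩ := hcyc.exists_nm_of_beta (p := p) (fun f hf hfc => by
    obtain ⟨m, hm, c, hc⟩ := D.toPreClassModule.exists_coprime_B1 hcyc.isOpen
      (f := fun g : H' => f g) ⟨by
        obtain ⟨N, hN, hfN⟩ := hf
        exact ⟨_, ⟨N, hN, rfl⟩, fun g s hs => hfN _ _ hs⟩,
        fun g g' => hfc _ g.2 _ g'.2⟩
    exact ⟨m, hm, c, fun g hg => (congrFun hc ⟨g, hg⟩).symm⟩) ha htr
  -- every multiple of `p` is a norm as well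
  obtain ⟨σ, hσ, hσ1⟩ := hcyc.surj
  have hp' : p • a = nm H H' a := by
    rw [hcyc.nm_eq_range hσ hσ1 (fixPts_anti hcyc.le ha)]
    simp [ha _ (H.pow_mem hσ _)]
  obtain ⟨u, v, huv⟩ := Nat.isCoprime_iff_coprime.mpr hm
  have hopen := hcyc.isOpen
  let nmH : fixPts C H' →+ C :=
    AddMonoidHom.mk' (fun y => nm H H' y.1) fun y y' => nm_add hopen y.1 y'.1
  refine hna (u • y + v • a) (add_mem (zsmul_mem hy u) (zsmul_mem (fixPts_anti hcyc.le ha) v)) ?_
  have h2 := map_add nmH (u • ⟨y, hy⟩) (v • ⟨a, fixPts_anti hcyc.le ha⟩)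
  rw [map_zsmul, map_zsmul] at h2
  refine h2.trans ?_
  show u • nm H H' y + v • nm H H' a = a
  rw [← e, ← hp', ← natCast_zsmul, ← natCast_zsmul a p, smul_smul, smul_smul, ← add_smul, huv,
    one_smul]

/-- Duality for the trivial module from a norm statement and a count. -/
theorem ClassModule.duality_triv (hfin : Finite (fixPts C H ⧸ fixPow L C p H))
    (hcard : Finite ((L.sub H).Z1 (ZMod p)) →
      Nat.card (fixPts C H ⧸ fixPow L C p H) ≤ Nat.card ((L.sub H).Z1 (ZMod p)))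
    (hM : (L.sub H).Smooth (ZMod p)) :
    (D.sub H hH).Duality (L.sub H) (ZMod p) hM where
  left x hx := by
    rw [D.left_triv hH htriv hnorm hM x hx]
    exact zero_mem _
  right κ hκ := by
    obtain ⟨a, ha, hsub⟩ := exists_carryExt_sub htriv κ.2
    have hpM : ∀ m : ZMod p, p • m = 0 := fun m => by
      rw [nsmul_eq_mul, ZMod.natCast_self, zero_mul]
    let P := (D.sub H hH).pairHom hM
    let ext : fixPts C H →+ (L.sub H).SymZ (ZMod p) C :=
      AddMonoidHom.mk' (fun a => ⟨carryExt a.1, carryExt_mem htriv fun g => a.2 _ g.2⟩)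
        fun a a' => Subtype.ext (funext fun u => funext fun v => smul_add _ a.1 a'.1)
    have hkill : ∀ x, fixPow L C p H ≤ ((P x).comp ext).ker := by
      rintro x _ ⟨b, rfl⟩
      exact (D.sub H hH).pairHom_symB hM x (ext (p • b))
        (carryExt_nsmul_mem_symB htriv fun g => b.2 _ g.2)
    let V := fixPts C H ⧸ fixPow L C p H
    have hV : ∀ v : V, p • v = 0 := by
      rintro ⟨b⟩
      exact (QuotientAddGroup.eq_zero_iff _).mpr ⟨b, rfl⟩
    let β : (L.sub H).Z1 (ZMod p) →+ (V →+ AddCircle (1 : ℚ)) :=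
      AddMonoidHom.mk' (fun x => QuotientAddGroup.lift _ ((P x).comp ext) (hkill x)) fun x x' => by
        refine QuotientAddGroup.addMonoidHom_ext _ (AddMonoidHom.ext fun b => ?_)
        simp [P, map_add]
    have hβ : Function.Injective β := by
      rw [injective_iff_map_eq_zero]
      intro x hx
      refine Subtype.ext (D.left_triv hH htriv hnorm hM x fun κ' => ?_)
      obtain ⟨a', ha', hsub'⟩ := exists_carryExt_sub htriv κ'.2
      have h1 : P x (κ' - ext ⟨a', fun g hg => ha' ⟨g, hg⟩⟩) = 0 :=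
        (D.sub H hH).pairHom_symB hM x _ hsub'
      rw [map_sub, sub_eq_zero] at h1
      exact h1.trans (DFunLike.congr_fun hx
        ((⟨a', fun g hg => ha' ⟨g, hg⟩⟩ : fixPts C H) : V))
    obtain ⟨hfc, hle⟩ := finite_card_character hV
    have hX : Finite ((L.sub H).Z1 (ZMod p)) := Finite.of_injective β hβ
    have hbij : Function.Bijective β := (Nat.bijective_iff_injective_and_card β).mpr
      ⟨hβ, (Nat.card_le_card_of_injective β hβ).antisymm (hle.trans (hcard hX))⟩
    let aH : fixPts C H := ⟨a, fun g hg => ha ⟨g, hg⟩⟩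
    have hsubP : ∀ x, P x κ = P x (ext aH) := fun x => by
      rw [← sub_eq_zero, ← map_sub]
      exact (D.sub H hH).pairHom_symB hM x (κ - ext aH) hsub
    have hzero : (aH : V) = 0 := by
      by_contra hne
      obtain ⟨c, hc⟩ := CharacterModule.exists_character_apply_ne_zero_of_ne_zero hne
      obtain ⟨x, hx⟩ := hbij.2 c
      exact hc (hx ▸ (hsubP x).symm.trans (hκ x))
    obtain ⟨b, hb⟩ := (QuotientAddGroup.eq_zero_iff aH).mp hzero
    rw [show κ.1 = (κ.1 - carryExt a) + carryExt a from (sub_add_cancel _ _).symm]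
    refine add_mem hsub ?_
    rw [show a = p • b.1 from (congrArg Subtype.val hb).symm]
    exact carryExt_nsmul_mem_symB htriv fun g => b.2 _ g.2

end Fermat.Agent.GD
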