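import Fermat.Agent.GD.Engine.Short

/-!
# Duality for modules with a filtration by trivial modules
-/

set_option autoImplicit false

noncomputable section

namespace Fermat.Agent.GD

universe u v w x y

variable {L : LevelGroup.{u}} {C : Type w} [AddCommGroup C] [DistribMulAction L.G C] {p : ℕ}
  (D : PreClassModule L C p)

theorem index_nsmul_mem_B1 {H : Subgroup L.G} [Finite (L.G ⧸ H)] {A : Type x} [AddCommGroup A]
    [DistribMulAction L.G A] {f : L.G → A} (hf : L.IsCocycle₁ A f) (h0 : ∀ h : H, f h = 0) :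
    H.index • f ∈ L.B1 A := by
  have := Fintype.ofFinite (L.G ⧸ H)
  refine ⟨-∑ s : L.G ⧸ H, f s.out, funext fun g => ?_⟩
  have hout : ∀ s : L.G ⧸ H, g • f s.out = f (g • s).out - f g := fun s => by
    rw [eq_sub_iff_add_eq, add_comm, ← hf, ← L.out_mul_eta H g s, hf, h0, smul_zero, add_zero]
  have h1 : g • (∑ s : L.G ⧸ H, f s.out) = (∑ s : L.G ⧸ H, f s.out) - H.index • f g := by
    rw [Finset.smul_sum, Finset.sum_congr rfl fun s _ => hout s, Finset.sum_sub_distrib,
      show ∑ s : L.G ⧸ H, f (g • s).out = ∑ s : L.G ⧸ H, f s.out from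
        Equiv.sum_comp (MulAction.toPerm g) (fun s : L.G ⧸ H => f s.out), Finset.sum_const,
      Finset.card_univ, H.index_eq_card, Nat.card_eq_fintype_card]
  show g • -(∑ s : L.G ⧸ H, f s.out) - -(∑ s : L.G ⧸ H, f s.out) = H.index • f g
  rw [smul_neg, h1]
  abel

theorem PreClassModule.h1_top (D : PreClassModule L C p) {f : L.G → C} (hf : f ∈ L.Z1 C) (hpf : p • f ∈ L.B1 C) :
    f ∈ L.B1 C := by
  obtain ⟨c, hc⟩ := hpf
  obtain ⟨d, hd⟩ := D.h1 ⊤ ⟨_, L.exists_level.choose_spec, le_top⟩ _ (res_mem_Z1 hf)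
    ⟨c, funext fun g => congrFun hc (g : (⊤ : Subgroup L.G)).1⟩
  exact ⟨d, funext fun g => congrFun hd (⟨g, trivial⟩ : (⊤ : Subgroup L.G))⟩

/-- A cocycle of the class module is a coboundary up to a multiple of `p`. -/
theorem PreClassModule.exists_coboundary_add [Fact p.Prime] (D : PreClassModule L C p) (f : L.Z1 C) :
    ∃ (c : C) (t : L.Z1 C), ∀ g, f.1 g = (g • c - c) + p • t.1 g := by
  obtain ⟨N, hN, hfN⟩ := f.2.1
  have := L.finiteIndex N hN
  have h1 := index_nsmul_mem_B1 (H := N) f.2.2 fun h => by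
    have := hfN 1 _ h.2
    rw [one_mul, Twist.cocycle_one] at this
    exact this
  obtain ⟨k, m, hm, hkm⟩ :=
    Nat.exists_eq_pow_mul_and_not_dvd (Subgroup.FiniteIndex.index_ne_zero (H := N)) p
      (Fact.out : p.Prime).ne_one
  have h2 : ∀ k : ℕ, ∀ f' ∈ L.Z1 C, p ^ k • f' ∈ L.B1 C → f' ∈ L.B1 C := by
    intro k
    induction k with
    | zero => intro f' _ h; rwa [pow_zero, one_smul] at h
    | succ k ih =>
      intro f' hf' h
      rw [pow_succ, mul_smul] at h
      exact D.h1_top hf' (ih _ (AddSubgroup.nsmul_mem _ hf' p) h)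
  have h3 : m • f.1 ∈ L.B1 C := by
    refine h2 k _ (AddSubgroup.nsmul_mem _ f.2 m) ?_
    rwa [← mul_smul, ← hkm]
  obtain ⟨c, hc⟩ := h3
  obtain ⟨a, b, hab⟩ :=
    Nat.isCoprime_iff_coprime.mpr (((Fact.out : p.Prime).coprime_iff_not_dvd.mpr hm).symm)
  refine ⟨a • c, b • f, fun g => ?_⟩
  rw [smul_comm g a c, ← smul_sub, show g • c - c = m • f.1 g from congrFun hc g,
    show (b • f : L.Z1 C).1 g = b • f.1 g from rfl, ← natCast_zsmul, ← natCast_zsmul (b • f.1 g) p,
    smul_smul, smul_smul, ← add_smul, mul_comm (p : ℤ) b, hab, one_smul]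

variable [Fact p.Prime]
variable {A : Type x} {B : Type v} [AddCommGroup A] [AddCommGroup B]
variable [DistribMulAction L.G A] [DistribMulAction L.G B] [DistribMulAction L.G (ZMod p)]
variable [Finite A] [Finite B]

/-- Classes orthogonal to all extensions, through a trivial quotient. -/
theorem PreClassModule.left_of_quot (hbase : D.Base L) (hZ : L.Smooth (ZMod p))
    {i : A →+ B} {π : B →+ ZMod p} (h : IsShort L i π) (hp : ∀ b : B, p • b = 0)
    (hA : L.Smooth A) (hB : L.Smooth B) (dA : D.Duality L A hA) (x : L.Z1 B)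
    (hx : ∀ κ, D.pair L B hB x κ = 0) : (x : L.G → B) ∈ L.B1 B := by
  have hpA : ∀ a : A, p • a = 0 := h.killed_left hp
  have hx0 : ∀ g, π (x.1 g) = 0 := fun g => by
    obtain ⟨m, hm⟩ := (hbase.duality hZ).left (mapZ1 π h.π_smul x) fun κ => by
      rw [pair_mapZ1 π h.π_smul D hB hZ]
      exact hx _
    have : g • m - m = π (x.1 g) := congrFun hm g
    rw [← this, hbase.trivial, sub_self]
  choose xa hxa using fun g => h.mem_range (hx0 g)
  have hxa1 : xa ∈ L.Z1 A := by
    obtain ⟨N, hN, hxN⟩ := x.2.1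
    refine ⟨⟨N, hN, fun g s hs => h.inj (by rw [hxa, hxa, hxN g s hs])⟩, fun g g' => h.inj ?_⟩
    rw [map_add, h.i_smul, hxa, hxa, hxa, x.2.2]
  let xA : L.Z1 A := ⟨xa, hxa1⟩
  have hxA : mapZ1 i h.i_smul xA = x := Subtype.ext (funext hxa)
  obtain ⟨b₀, hb₀⟩ := h.surj 1
  have ha : ∀ g : L.G, ∃ a, i a = g • b₀ - b₀ := fun g => h.mem_range (by
    rw [map_sub, h.π_smul, hbase.trivial, sub_self])
  choose a ha using ha
  have ha1 : a ∈ L.Z1 A := by
    obtain ⟨N, hN, hfix⟩ := hB b₀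
    refine ⟨⟨N, hN, fun g s hs => h.inj (by rw [ha, ha, mul_smul, hfix s hs])⟩,
      fun g g' => h.inj ?_⟩
    rw [map_add, h.i_smul, ha, ha, ha, mul_smul, smul_sub]
    abel
  let aA : L.Z1 A := ⟨a, ha1⟩
  have key : ∀ κ : L.SymZ A C, D.pair L A hA aA κ = 0 → D.pair L A hA xA κ = 0 := by
    intro κ hκ
    obtain ⟨c, hc, hcd⟩ := D.inv_inj ⟨_, L.cup_mem_Z2 A hA aA.2 κ.2⟩
      (nsmul_cup hA D.smooth hpA aA κ) hκ
    have hat : (fun g => Tw.sec κ (a g) - Tw.incl κ (c g)) ∈ L.Z1 (Tw κ) := by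
      refine ⟨(ha1.1.comp (Tw.sec κ)).comp₂ L (hc.comp (Tw.incl κ)) (· - ·), fun g g' => ?_⟩
      have h1 := cup_eq_lift (Tw.sec_smul κ) (Tw.sec_add κ) ha1.2 g g'
      have h2 := congrArg (Tw.incl κ) (congrFun hcd (g, g'))
      rw [L.d₁_apply, map_add, map_sub, Tw.incl_smul] at h2
      show Tw.sec κ (a (g * g')) - Tw.incl κ (c (g * g')) =
        (Tw.sec κ (a g) - Tw.incl κ (c g)) + g • (Tw.sec κ (a g') - Tw.incl κ (c g'))
      rw [smul_sub]
      linear_combination (norm := abel) h2.trans h1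
    let at0 : L.Z1 (Tw κ) := ⟨_, hat⟩
    have hf : ∀ g, ∃ y, Tw.incl κ y = p • at0.1 g := fun g => (Tw.isExtension κ).mem_range (by
      rw [map_nsmul]; exact hpA _)
    choose f hf using hf
    have hf1 : f ∈ L.Z1 C := by
      obtain ⟨N, hN, hN'⟩ := at0.2.1
      refine ⟨⟨N, hN, fun g s hs => Tw.incl_injective κ (by rw [hf, hf, hN' g s hs])⟩,
        fun g g' => Tw.incl_injective κ ?_⟩
      rw [map_add, Tw.incl_smul, hf, hf, hf, at0.2.2, smul_add, smul_comm g p]
    obtain ⟨c₀, t, hct⟩ := D.exists_coboundary_add ⟨f, hf1⟩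
    let att : L.Z1 (Tw κ) := at0 - mapZ1 (Tw.incl κ) (Tw.incl_smul κ) t
    have hatt : ∀ g, (p : ℤ) • att.1 g = g • Tw.incl κ c₀ - Tw.incl κ c₀ := fun g => by
      show (p : ℤ) • (at0.1 g - Tw.incl κ (t.1 g)) = _
      rw [natCast_zsmul, smul_sub, ← hf, ← map_nsmul, ← map_sub, ← Tw.incl_smul, ← map_sub]
      exact congrArg _ (by linear_combination (norm := abel) hct g)
    have hproj : ∀ g, Tw.proj κ (att.1 g) = a g := fun g => by
      show Tw.proj κ (Tw.sec κ (a g) - Tw.incl κ (c g) - Tw.incl κ (t.1 g)) = a g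
      rw [map_sub, map_sub, Tw.proj_sec, (Tw.exact κ).apply_apply_eq_zero,
        (Tw.exact κ).apply_apply_eq_zero, sub_zero, sub_zero]
    let r₀ : Twist att := Twist.mk att (-Tw.incl κ c₀) p
    let S : AddSubgroup (Twist att) := AddSubgroup.zmultiples r₀
    let j : C →+ Twist att := AddMonoidHom.mk' (fun y => Twist.mk att (Tw.incl κ y) 0) fun y y' =>
      Prod.ext (map_add _ y y') (add_zero (0 : ℤ)).symm
    let q : Twist att →+ B := AddMonoidHom.mk' (fun e => i (Tw.proj κ e.1) + e.2 • b₀)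
      fun e e' => by
        show i (Tw.proj κ (e.1 + e'.1)) + (e.2 + e'.2) • b₀ = _
        rw [map_add, map_add, add_smul]
        abel
    have hpb : (p : ℤ) • b₀ = 0 := by rw [natCast_zsmul, hp]
    have hr₀ : ∀ g : L.G, g • r₀ = r₀ := fun g => Prod.ext (by
      show g • -Tw.incl κ c₀ + (p : ℤ) • att.1 g = -Tw.incl κ c₀
      rw [smul_neg, hatt]; abel) rfl
    have hext : IsExtMod L S j q := by
      refine ⟨fun g e he => ?_, fun y hy => ?_, fun b => ?_, fun e he => ?_, fun y => ?_,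
        fun e he => ?_, fun g y => ?_, fun g e => ?_⟩
      · obtain ⟨k, rfl⟩ := AddSubgroup.mem_zmultiples_iff.mp he
        rw [smul_comm g k r₀, hr₀]
        exact he
      · obtain ⟨k, hk⟩ := AddSubgroup.mem_zmultiples_iff.mp hy
        have h2 : k * (p : ℤ) = 0 := congrArg Prod.snd hk
        obtain rfl : k = 0 :=
          (mul_eq_zero.mp h2).resolve_right (by exact_mod_cast (Fact.out : p.Prime).ne_zero)
        rw [zero_smul] at hk
        exact Tw.incl_injective κ ((congrArg Prod.fst hk).symm.trans (map_zero _).symm)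
      · obtain ⟨n, hn⟩ := ZMod.intCast_surjective (π b)
        obtain ⟨a', ha'⟩ := h.mem_range (b := b - n • b₀) (by
          rw [map_sub, map_zsmul, hb₀, ← hn, zsmul_one, sub_self])
        exact ⟨Twist.mk att (Tw.sec κ a') n, by
          show i a' + n • b₀ = b
          rw [ha', sub_add_cancel]⟩
      · obtain ⟨k, rfl⟩ := AddSubgroup.mem_zmultiples_iff.mp he
        rw [map_zsmul, show q r₀ = 0 from ?_, smul_zero]
        show i (Tw.proj κ (-Tw.incl κ c₀)) + (p : ℤ) • b₀ = 0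
        rw [map_neg, (Tw.exact κ).apply_apply_eq_zero, neg_zero, map_zero, hpb, add_zero]
      · show i (Tw.proj κ (Tw.incl κ y)) + (0 : ℤ) • b₀ = 0
        rw [(Tw.exact κ).apply_apply_eq_zero, map_zero, zero_smul, add_zero]
      · have h1 : π (q e) = 0 := by rw [he, map_zero]
        have h2 : ((e.2 : ℤ) : ZMod p) = 0 := by
          have : π (i (Tw.proj κ e.1) + e.2 • b₀) = 0 := h1
          rwa [map_add, h.exact.apply_apply_eq_zero, zero_add, map_zsmul, hb₀, zsmul_one] at this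
        obtain ⟨k, hk⟩ := (ZMod.intCast_zmod_eq_zero_iff_dvd _ _).mp h2
        have h3 : i (Tw.proj κ e.1) + e.2 • b₀ = 0 := he
        rw [hk, mul_comm, mul_smul, hpb, smul_zero, add_zero] at h3
        have h4 : Tw.proj κ (e.1 + k • Tw.incl κ c₀) = 0 := by
          rw [map_add, map_zsmul, (Tw.exact κ).apply_apply_eq_zero, smul_zero, add_zero]
          exact h.inj (h3.trans (map_zero i).symm)
        obtain ⟨y, hy⟩ := (Tw.isExtension κ).mem_range h4
        refine ⟨y, AddSubgroup.mem_zmultiples_iff.mpr ⟨k, Prod.ext ?_ ?_⟩⟩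
        · show k • -Tw.incl κ c₀ = e.1 - Tw.incl κ y
          rw [hy, smul_neg]; abel
        · show k * (p : ℤ) = e.2 - 0
          rw [hk, sub_zero, mul_comm]
      · exact Prod.ext (by
          show Tw.incl κ (g • y) = g • Tw.incl κ y + (0 : ℤ) • att.1 g
          rw [Tw.incl_smul, zero_smul, add_zero]) rfl
      · show i (Tw.proj κ (g • e.1 + e.2 • att.1 g)) + e.2 • b₀ =
          g • (i (Tw.proj κ e.1) + e.2 • b₀)
        rw [map_add, map_add, map_zsmul, hproj, map_zsmul, ha, Tw.proj_smul, h.i_smul, smul_sub,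
          smul_add, smul_comm g e.2 b₀]
        abel
    obtain ⟨κB, hκB, e, he, heG, hadd⟩ :=
      hext.exists_class D (Twist.smooth (Tw.smooth κ hA D.smooth)) hp
    obtain ⟨s, hs, -, hsd⟩ := hext.symB_sub (e := fun a => e (i a))
      (e' := fun a => Twist.mk att (Tw.sec κ a) 0)
      (fun a => by
        rw [he]
        show i a = i a + (0 : ℤ) • b₀
        rw [zero_smul, add_zero])
      (fun g a => by rw [h.i_smul]; exact heG g (i a))
      (fun g a => by
        rw [show g • Twist.mk att (Tw.sec κ a) 0 = Twist.mk att (Tw.sec κ (g • a)) 0 from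
          Prod.ext (by
            show g • Tw.sec κ a + (0 : ℤ) • att.1 g = Tw.sec κ (g • a)
            rw [zero_smul, add_zero, Tw.sec_smul]) rfl, sub_self]
        exact zero_mem S)
      (κ := fun a b => κB (i a) (i b)) (κ' := κ.1)
      (fun a b => by rw [map_add]; exact hadd (i a) (i b))
      (fun a b => by
        rw [show Twist.mk att (Tw.sec κ a) 0 + Twist.mk att (Tw.sec κ b) 0 =
          Twist.mk att (Tw.sec κ (a + b)) 0 + j (κ.1 a b) from
            Prod.ext (Tw.sec_add κ a b) rfl, sub_self]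
        exact zero_mem S)
    have h0 : D.pairHom hA xA (pullSym i h.i_smul ⟨κB, hκB⟩ - κ) = 0 :=
      D.pairHom_symB hA xA _ ⟨s, hs, hsd⟩
    rw [map_sub, sub_eq_zero] at h0
    rw [D.pair_eq, ← h0, ← D.pair_eq, ← pair_mapZ1 i h.i_smul D hA hB, hxA]
    exact hx _
  obtain ⟨k, hk⟩ : ∃ k : ℤ, ∀ κ, D.pairHom hA xA κ = k • D.pairHom hA aA κ := by
    by_cases h0 : ∀ κ, D.pairHom hA aA κ = 0
    · exact ⟨0, fun κ => by rw [zero_smul]; exact key κ (h0 κ)⟩
    push Not at h0
    obtain ⟨κ₀, hκ₀⟩ := h0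
    obtain ⟨k, hk⟩ := exists_zsmul_eq hκ₀ (D.nsmul_pairHom hA hpA aA κ₀)
      (D.nsmul_pairHom hA hpA xA κ₀)
    refine ⟨k, fun κ => ?_⟩
    obtain ⟨n, hn⟩ := exists_zsmul_eq hκ₀ (D.nsmul_pairHom hA hpA aA κ₀)
      (D.nsmul_pairHom hA hpA aA κ)
    have h1 : D.pairHom hA xA (κ - n • κ₀) = 0 :=
      key _ (by rw [D.pair_eq, map_sub, map_zsmul, hn, sub_self])
    rw [map_sub, map_zsmul, sub_eq_zero] at h1
    rw [h1, hk, hn, smul_comm]
  obtain ⟨a₁, ha₁⟩ := dA.left (xA - k • aA) fun κ => by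
    rw [D.pair_eq, map_sub, map_zsmul, AddMonoidHom.sub_apply,
      show (k • D.pairHom hA aA) κ = k • D.pairHom hA aA κ from rfl, hk, sub_self]
  refine ⟨i a₁ + k • b₀, funext fun g => ?_⟩
  show g • (i a₁ + k • b₀) - (i a₁ + k • b₀) = x.1 g
  have h2 : g • a₁ - a₁ = xa g - k • a g := congrFun ha₁ g
  have h3 := congrArg i h2
  rw [map_sub, map_sub, h.i_smul, map_zsmul, hxa, ha, smul_sub] at h3
  rw [smul_add, smul_comm g k b₀]
  linear_combination (norm := abel) h3

variable {M : Type y} [AddCommGroup M] [DistribMulAction L.G M] [Finite M]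

omit [Finite A] in
/-- Extensions orthogonal to all classes, through a trivial submodule. -/
theorem PreClassModule.right_of_sub (hbase : D.Base L) (hZ : L.Smooth (ZMod p))
    {i : ZMod p →+ B} {π : B →+ M} (h : IsShort L i π) (hp : ∀ b : B, p • b = 0)
    (hB : L.Smooth B) (hM : L.Smooth M) (dM : D.Duality L M hM) (κ : L.SymZ B C)
    (hκ : ∀ x, D.pair L B hB x κ = 0) : (κ : B → B → C) ∈ L.SymB B C := by
  obtain ⟨t₀, ht₀, ht₀d⟩ := (hbase.duality hZ).right (pullSym i h.i_smul κ) fun y => by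
    rw [← pair_mapZ1 i h.i_smul D hZ hB]
    exact hκ _
  let s : ZMod p →+ Tw κ := AddMonoidHom.mk' (fun a => Tw.sec κ (i a) - Tw.incl κ (t₀ a))
    fun a a' => by
      have h1 := Tw.sec_add κ (i a) (i a')
      have h2 : t₀ a + t₀ a' - t₀ (a + a') = κ.1 (i a) (i a') := congrFun (congrFun ht₀d a) a'
      rw [← h2, map_sub, map_add, ← map_add i] at h1
      linear_combination (norm := abel) -h1
  have hsg : ∀ (g : L.G) a, g • s a = s a := fun g a => by
    show g • (Tw.sec κ (i a) - Tw.incl κ (t₀ a)) = Tw.sec κ (i a) - Tw.incl κ (t₀ a)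
    rw [smul_sub, ← Tw.sec_smul, ← Tw.incl_smul, ← h.i_smul, ← ht₀ g a, hbase.trivial]
  let S : AddSubgroup (Tw κ) := s.range
  let q : Tw κ →+ M := π.comp (Tw.proj κ)
  have hproj : ∀ a, Tw.proj κ (s a) = i a := fun a => by
    show Tw.proj κ (Tw.sec κ (i a) - Tw.incl κ (t₀ a)) = i a
    rw [map_sub, Tw.proj_sec, (Tw.exact κ).apply_apply_eq_zero, sub_zero]
  have hext : IsExtMod L S (Tw.incl κ) q := by
    refine ⟨?_, ?_, h.surj.comp (fun b => ⟨Tw.sec κ b, rfl⟩), ?_, fun c => ?_, fun e he => ?_,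
      Tw.incl_smul κ, fun g e => h.π_smul g e.a⟩
    · rintro g _ ⟨a, rfl⟩
      exact ⟨a, (hsg g a).symm⟩
    · rintro c ⟨a, ha⟩
      have := congrArg (Tw.proj κ) ha
      rw [hproj, (Tw.exact κ).apply_apply_eq_zero] at this
      obtain rfl : a = 0 := h.inj (this.trans (map_zero i).symm)
      exact Tw.incl_injective κ ((ha.symm.trans (map_zero s)).trans (map_zero _).symm)
    · rintro _ ⟨a, rfl⟩
      show π (Tw.proj κ (s a)) = 0
      rw [hproj, h.exact.apply_apply_eq_zero]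
    · show π (Tw.proj κ (Tw.incl κ c)) = 0
      rw [(Tw.exact κ).apply_apply_eq_zero, map_zero]
    · obtain ⟨a, ha⟩ := h.mem_range he
      obtain ⟨c, hc⟩ := (Tw.isExtension κ).mem_range (e := e - s a) (by
        rw [map_sub, hproj, ha, sub_self])
      exact ⟨c, a, by rw [hc]; abel⟩
  obtain ⟨κM, hκM, e, he, heG, hadd⟩ :=
    hext.exists_class D (Tw.smooth κ hB D.smooth) (h.killed_right hp)
  obtain ⟨t, ht, -, htd⟩ := hext.symB_sub (e := fun b => Tw.sec κ b) (e' := fun b => e (π b))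
    (fun b => (he (π b)).symm)
    (fun g b => by rw [Tw.sec_smul, sub_self]; exact zero_mem S)
    (fun g b => by rw [h.π_smul]; exact heG g (π b))
    (κ := κ.1) (κ' := fun a b => κM (π a) (π b))
    (fun a b => by rw [Tw.sec_add, sub_self]; exact zero_mem S)
    (fun a b => by rw [map_add]; exact hadd (π a) (π b))
  let κ' : L.SymZ M C := ⟨κM, hκM⟩
  choose r hr hrx w hw hwd using fun x : L.Z1 M => h.exists_lift hB x
  have hpush := fun φ : L.HomC (ZMod p) C => h.exists_pushout D hB hp φ.2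
  choose κφ tφ htφ htφd hφa hφw using hpush
  have hφz : ∀ (φ : L.HomC (ZMod p) C) (x : L.Z1 M), φ.1 ∘ w x ∈ L.Z2 C := fun φ x => by
    obtain ⟨N, hN, hwN⟩ := (hw x).1
    refine ⟨⟨N, hN, fun g g' a ha a' ha' => congrArg φ.1 (hwN g g' a ha a' ha')⟩,
      fun g g' g'' => ?_⟩
    show g • φ.1 (w x (g', g'')) + φ.1 (w x (g, g' * g'')) = _
    rw [← φ.2, ← map_add, (hw x).2 g g' g'', map_add]
    rfl
  have hval : ∀ φ x, D.inv ⟨_, hφz φ x⟩ = D.pairHom hM x (κφ φ) := fun φ x =>
    D.inv_congr _ (cupZ2 hM x (κφ φ)) (hφw φ x (r x) (hr x) (hrx x) (w x) (hwd x))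
  let β : L.Z1 M →+ L.HomC (ZMod p) C →+ AddCircle (1 : ℚ) :=
    AddMonoidHom.mk' (fun x => AddMonoidHom.mk' (fun φ => D.pairHom hM x (κφ φ)) fun φ φ' => by
        rw [← hval, ← hval, ← hval, ← map_add]
        rfl)
      fun x x' => AddMonoidHom.ext fun φ => by
        show D.pairHom hM (x + x') (κφ φ) = _
        rw [map_add]
        rfl
  have hker : ∀ x, β x = 0 → (D.pairHom hM).flip κ' x = 0 := fun x hx => by
    obtain ⟨b, hb, hbd⟩ := hbase.detect ⟨w x, hw x⟩ fun φ hφ hz => by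
      exact (hval ⟨φ, hφ⟩ x).trans (DFunLike.congr_fun hx _)
    have hl : (fun g => r x g - i (b g)) ∈ L.Z1 B := by
      refine ⟨(hr x).comp₂ L (hb.comp i) (· - ·), fun g g' => ?_⟩
      have h1 := hwd x g g'
      have h2 := congrArg i (congrFun hbd (g, g'))
      rw [L.d₁_apply, map_add, map_sub, h.i_smul] at h2
      show r x (g * g') - i (b (g * g')) = (r x g - i (b g)) + g • (r x g' - i (b g'))
      rw [smul_sub]
      linear_combination (norm := abel) h2.trans h1
    have hlx : mapZ1 π h.π_smul ⟨_, hl⟩ = x := Subtype.ext (funext fun g => by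
      show π (r x g - i (b g)) = x.1 g
      rw [map_sub, hrx, h.exact.apply_apply_eq_zero, sub_zero])
    show D.pair L M hM x κ' = 0
    rw [← hlx, pair_mapZ1 π h.π_smul D hB hM, D.pair_eq]
    have h0 : D.pairHom hB ⟨_, hl⟩ (κ - pullSym π h.π_smul κ') = 0 :=
      D.pairHom_symB hB _ _ ⟨t, ht, htd⟩
    rw [map_sub, sub_eq_zero] at h0
    rw [← h0]
    exact hκ _
  have hV : ∀ φ : L.HomC (ZMod p) C, p • φ = 0 := fun φ => Subtype.ext (AddMonoidHom.ext fun a => by
    show p • φ.1 a = 0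
    rw [← map_nsmul, h.killed_left hp, map_zero])
  have := hbase.finite_hom
  obtain ⟨φ, hφ⟩ := exists_eq_pairing hV β ((D.pairHom hM).flip κ') hker
  have h4 := pullSym_symB π h.π_smul (dM.right (κ' - κφ φ) fun x => by
    rw [D.pair_eq, map_sub, sub_eq_zero]
    exact hφ x)
  rw [map_sub] at h4
  have h5 : (pullSym π h.π_smul (κφ φ)).1 ∈ L.SymB B C := ⟨_, htφ φ, htφd φ⟩
  have h6 : κ.1 - (pullSym π h.π_smul κ').1 ∈ L.SymB B C := ⟨t, ht, htd⟩
  rw [AddSubgroup.coe_sub] at h4
  convert add_mem (add_mem h6 h4) h5 using 1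
  abel

/-- The action on a stable subgroup. -/
@[reducible]
def subModAction {G : Type*} [Group G] {E : Type*} [AddCommGroup E] [DistribMulAction G E]
    (S : AddSubgroup E) (hS : ∀ g : G, ∀ e ∈ S, g • e ∈ S) : DistribMulAction G S where
  smul g e := ⟨g • e.1, hS g _ e.2⟩
  one_smul e := Subtype.ext (one_smul G e.1)
  mul_smul g h e := Subtype.ext (mul_smul g h e.1)
  smul_zero g := Subtype.ext (smul_zero g)
  smul_add g a b := Subtype.ext (smul_add g a.1 b.1)

section Fixed

variable {G : Type*} [Group G] (K : Subgroup G) [K.Normal] (hK : IsPGroup p (G ⧸ K))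

include hK

/-- A nontrivial module killed by `p` has a nonzero fixed vector. -/
theorem exists_fixed_ne_zero {M : Type*} [AddCommGroup M] [DistribMulAction G M] [Finite M]
    (hp : ∀ m : M, p • m = 0) (hKM : ∀ m : M, ∀ k ∈ K, k • m = m) (hM : Nontrivial M) :
    ∃ m : M, m ≠ 0 ∧ ∀ g : G, g • m = m := by
  let φ : G ⧸ K →* Equiv.Perm M := QuotientGroup.lift K (MulAction.toPermHom G M)
    fun k hk => Equiv.ext fun m => hKM m k hk
  have hR : IsPGroup p φ.range := hK.of_surjective φ.rangeRestrict φ.rangeRestrict_surjective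
  obtain ⟨m₁, hm₁⟩ := exists_ne (0 : M)
  have hdvd : p ∣ Nat.card M := by
    rw [← addOrderOf_eq_prime (hp m₁) hm₁]
    exact addOrderOf_dvd_natCard m₁
  have h0 : (0 : M) ∈ MulAction.fixedPoints φ.range M := by
    rintro ⟨_, q, rfl⟩
    obtain ⟨g, rfl⟩ := QuotientGroup.mk_surjective q
    exact smul_zero g
  obtain ⟨m, hm, hne⟩ :=
    hR.exists_fixed_point_of_prime_dvd_card_of_fixed_point M hdvd h0
  exact ⟨m, Ne.symm hne, fun g => hm ⟨_, (g : G ⧸ K), rfl⟩⟩

/-- A nontrivial module killed by `p` has an invariant functional. -/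
theorem exists_fixed_functional {M : Type*} [AddCommGroup M] [DistribMulAction G M] [Finite M]
    (hp : ∀ m : M, p • m = 0) (hKM : ∀ m : M, ∀ k ∈ K, k • m = m) (hM : Nontrivial M) :
    ∃ π : M →+ ZMod p, Function.Surjective π ∧ ∀ (g : G) m, π (g • m) = π m := by
  obtain ⟨m₀, hm₀, hfix⟩ := exists_fixed_ne_zero K hK hp hKM hM
  let := AddCommGroup.zmodModule (n := p) hp
  by_cases htop : AddSubgroup.zmultiples m₀ = ⊤
  · obtain ⟨f, hf⟩ := Module.Projective.exists_dual_ne_zero (ZMod p) hm₀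
    refine ⟨f.toAddMonoidHom, ?_, fun g m => ?_⟩
    · exact LinearMap.surjective (fun h => hf (by rw [h]; rfl))
    · obtain ⟨k, rfl⟩ := AddSubgroup.mem_zmultiples_iff.mp (htop ▸ AddSubgroup.mem_top m)
      rw [smul_comm g k m₀, hfix]
  · have hS : ∀ g : G, ∀ e ∈ AddSubgroup.zmultiples m₀, g • e ∈ AddSubgroup.zmultiples m₀ := by
      intro g e he
      obtain ⟨k, rfl⟩ := AddSubgroup.mem_zmultiples_iff.mp he
      rwa [smul_comm g k m₀, hfix]
    let := quotAction _ hS
    have : Nontrivial (M ⧸ AddSubgroup.zmultiples m₀) := QuotientAddGroup.nontrivial_iff.mpr htop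
    obtain ⟨π, hπ, hπg⟩ := exists_fixed_functional (M := M ⧸ AddSubgroup.zmultiples m₀)
      (by rintro ⟨m⟩; exact congrArg QuotientAddGroup.mk (hp m))
      (by rintro ⟨m⟩ k hk; exact congrArg QuotientAddGroup.mk (hKM m k hk)) this
    exact ⟨π.comp (QuotientAddGroup.mk' _), hπ.comp (QuotientAddGroup.mk'_surjective _),
      fun g m => hπg g (QuotientAddGroup.mk m)⟩
termination_by Nat.card M
decreasing_by
  rw [AddSubgroup.card_eq_card_quotient_mul_card_addSubgroup (AddSubgroup.zmultiples m₀)]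
  refine lt_mul_of_one_lt_right Nat.card_pos ?_
  rw [Nat.card_zmultiples, addOrderOf_eq_prime (hp m₀) hm₀]
  exact (Fact.out : p.Prime).one_lt

end Fixed

omit [Finite A] [Finite B] in
theorem PreClassModule.duality_aux (hbase : D.Base L) (K : Subgroup L.G) [K.Normal]
    (hK : IsPGroup p (L.G ⧸ K)) (n : ℕ) :
    ∀ (M : Type v) [AddCommGroup M] [DistribMulAction L.G M] [Finite M],
      Nat.card M ≤ n → (∀ m : M, p • m = 0) → (∀ m : M, ∀ k ∈ K, k • m = m) →
      ∀ hM : L.Smooth M, D.Duality L M hM := by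
  induction n with
  | zero => intro M _ _ _ h; exact absurd h (not_le.mpr Nat.card_pos)
  | succ n ih =>
    intro M _ _ _ hcard hp hKM hM
    rcases subsingleton_or_nontrivial M with hs | hnt
    · refine ⟨fun x _ => ?_, fun κ _ => ⟨fun _ => κ.1 0 0, fun g m => ?_, ?_⟩⟩
      · rw [show (x : L.G → M) = 0 from Subsingleton.elim _ _]
        exact zero_mem _
      · exact (L.smul_symZ_zero κ.2 g).symm
      · funext a b
        show κ.1 0 0 + κ.1 0 0 - κ.1 0 0 = κ.1 a b
        rw [add_sub_cancel_right, Subsingleton.elim a 0, Subsingleton.elim b 0]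
    have hZ : L.Smooth (ZMod p) := fun m =>
      ⟨_, L.exists_level.choose_spec, fun s _ => hbase.trivial s m⟩
    obtain ⟨π, hπ, hπg⟩ := exists_fixed_functional K hK hp hKM hnt
    obtain ⟨m₀, hm₀, hfix⟩ := exists_fixed_ne_zero K hK hp hKM hnt
    let i : ZMod p →+ M := ZMod.lift p ⟨zmultiplesHom M m₀, by
      rw [zmultiplesHom_apply, natCast_zsmul, hp]⟩
    have hi1 : ∀ k : ℤ, i (k : ZMod p) = k • m₀ := fun k => ZMod.lift_coe p _ k
    have hi : Function.Injective i := by
      rw [injective_iff_map_eq_zero]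
      intro a ha
      obtain ⟨k, rfl⟩ := ZMod.intCast_surjective a
      rw [hi1, ← addOrderOf_dvd_iff_zsmul_eq_zero, addOrderOf_eq_prime (hp m₀) hm₀] at ha
      exact (ZMod.intCast_zmod_eq_zero_iff_dvd k p).mpr ha
    have hig : ∀ (g : L.G) a, g • i a = i a := fun g a => by
      obtain ⟨k, rfl⟩ := ZMod.intCast_surjective a
      rw [hi1, smul_comm g k m₀, hfix]
    have hS : ∀ g : L.G, ∀ e ∈ i.range, g • e ∈ i.range := by
      rintro g _ ⟨a, rfl⟩
      exact ⟨a, (hig g a).symm⟩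
    let := quotAction i.range hS
    have hq : IsShort L i (QuotientAddGroup.mk' i.range) := by
      refine ⟨hi, QuotientAddGroup.mk'_surjective _, fun m => ?_, fun g a => ?_, fun g m => rfl⟩
      · exact QuotientAddGroup.eq_zero_iff m
      · rw [hbase.trivial, hig]
    have hsK : ∀ g : L.G, ∀ e ∈ π.ker, g • e ∈ π.ker := fun g e he => by
      rw [AddMonoidHom.mem_ker] at he ⊢
      rw [hπg, he]
    let := subModAction π.ker hsK
    have hs : IsShort L π.ker.subtype π := by
      refine ⟨Subtype.val_injective, hπ, fun m => ?_, fun g a => rfl,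
        fun g m => by rw [hπg, hbase.trivial]⟩
      exact ⟨fun h => ⟨⟨m, h⟩, rfl⟩, by rintro ⟨a, rfl⟩; exact a.2⟩
    have hlt1 : Nat.card (M ⧸ i.range) < Nat.card M := by
      rw [AddSubgroup.card_eq_card_quotient_mul_card_addSubgroup i.range]
      refine lt_mul_of_one_lt_right Nat.card_pos ?_
      rw [← Nat.card_congr (AddMonoidHom.ofInjective hi).toEquiv, Nat.card_zmod]
      exact (Fact.out : p.Prime).one_lt
    have hlt2 : Nat.card π.ker < Nat.card M := by
      rw [← card_ker_mul_range π]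
      refine lt_mul_of_one_lt_right Nat.card_pos ?_
      rw [AddMonoidHom.range_eq_top.mpr hπ, AddSubgroup.card_top, Nat.card_zmod]
      exact (Fact.out : p.Prime).one_lt
    have hMq : L.Smooth (M ⧸ i.range) := by
      rintro ⟨m⟩
      obtain ⟨N, hN, h⟩ := hM m
      exact ⟨N, hN, fun s hs => congrArg QuotientAddGroup.mk (h s hs)⟩
    have hMs : L.Smooth π.ker := fun m => by
      obtain ⟨N, hN, h⟩ := hM m.1
      exact ⟨N, hN, fun s hs => Subtype.ext (h s hs)⟩
    refine ⟨D.left_of_quot hbase hZ hs hp hMs hM ?_, D.right_of_sub hbase hZ hq hp hM hMq ?_⟩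
    · exact ih _ (Nat.le_of_lt_succ (hlt2.trans_le hcard)) (hs.killed_left hp)
        (fun m k hk => Subtype.ext (hKM m.1 k hk)) hMs
    · refine ih _ (Nat.le_of_lt_succ (hlt1.trans_le hcard)) (hq.killed_right hp) ?_ hMq
      rintro ⟨m⟩ k hk
      exact congrArg QuotientAddGroup.mk (hKM m k hk)

omit [Finite A] [Finite B] in
/-- Duality for modules with a filtration by trivial modules. -/
theorem PreClassModule.duality_of_unipotent (hbase : D.Base L) {M : Type v} [AddCommGroup M]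
    [DistribMulAction L.G M] [Finite M] (hp : ∀ m : M, p • m = 0) (hM : L.Smooth M)
    (hP : ∃ N, L.IsLevel N ∧ (∀ m : M, ∀ s ∈ N, s • m = m) ∧ IsPGroup p (L.G ⧸ N.normalCore)) :
    D.Duality L M hM := by
  obtain ⟨N, -, hNM, hPN⟩ := hP
  exact D.duality_aux hbase N.normalCore hPN _ M le_rfl hp
    (fun m k hk => hNM m k (N.normalCore_le hk)) hM

end Fermat.Agent.GD
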